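import Fermat.Agent.Independence.AdelicGlue
import Fermat.Agent.Root.SummaryEndTorsion
import Fermat.Agent.Root.SummaryTateModules

/-!
# Galois on the torsion in coordinates

What the proofs of the independence of elliptic curves share: coordinates on the `N`-torsion,
`Moves` for an automorphism acting by a matrix in them, `Fixes` for one fixing the `N`-torsion,
powers of transvections, and the bound on a point at which two opposite transvections commute.
-/

set_option autoImplicit false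
set_option linter.style.haveILetI false

noncomputable section

open Matrix WeierstrassCurve WeierstrassCurve.Affine
open scoped WeierstrassCurve.Affine

local notation "Qb" => AlgebraicClosure ℚ
local notation "GQ" => AlgebraicClosure ℚ ≃ₐ[ℚ] AlgebraicClosure ℚ

namespace FA.Independence

/-- The powers with exponent `index!` lie in the subgroup. -/
theorem pow_factorial_index_mem {G : Type*} [Group G] {H : Subgroup G} (hH : H.index ≠ 0) (σ : G) :
    σ ^ H.index.factorial ∈ H := by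
  obtain ⟨j, hj0, hjle, hj⟩ := Subgroup.exists_pow_mem_of_index_ne_zero hH σ
  obtain ⟨d, hd⟩ := Nat.dvd_factorial hj0 hjle
  rw [hd, pow_mul]
  exact pow_mem hj d

/-- Points of `p`-power order have finite order. -/
theorem isOfFinAddOrder_primary {A : Type*} [AddCommGroup A] {p : ℕ} (hp : p.Prime)
    (x : AddCommGroup.primaryComponent A p) : IsOfFinAddOrder x.1 := by
  obtain ⟨n, hn⟩ := AddCommGroup.mem_primaryComponent.mp x.2
  exact isOfFinAddOrder_iff_nsmul_eq_zero.mpr ⟨p ^ n, pow_pos hp.pos n, hn⟩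

variable {E : WeierstrassCurve ℚ} {N : ℕ}

/-- What fixes a point has an inverse fixing it. -/
theorem map_inv_eq {σ : GQ} {P : (E.toAffine⁄Qb).Point}
    (h : Affine.Point.map σ.toAlgHom P = P) : Affine.Point.map σ⁻¹.toAlgHom P = P := by
  conv_lhs => rw [← h, ← FA.OpenImage.map_mul_apply, inv_mul_cancel, FA.OpenImage.map_one_apply]

/-- The commutator of two automorphisms fixing a point fixes it. -/
theorem map_commutator_eq {σ τ : GQ} {P : (E.toAffine⁄Qb).Point}
    (hσ : Affine.Point.map σ.toAlgHom P = P) (hτ : Affine.Point.map τ.toAlgHom P = P) :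
    Affine.Point.map (σ * τ * σ⁻¹ * τ⁻¹).toAlgHom P = P := by
  rw [FA.OpenImage.map_mul_apply, FA.OpenImage.map_mul_apply, FA.OpenImage.map_mul_apply,
    map_inv_eq hτ, map_inv_eq hσ, hτ, hσ]

/-- Automorphisms whose inverses have a commutator fixing a point commute on it. -/
theorem map_mul_eq_of_commutator {σ τ : GQ} {P : (E.toAffine⁄Qb).Point}
    (h : Affine.Point.map (σ⁻¹ * τ⁻¹ * σ⁻¹⁻¹ * τ⁻¹⁻¹).toAlgHom P = P) :
    Affine.Point.map (σ * τ).toAlgHom P = Affine.Point.map (τ * σ).toAlgHom P := by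
  conv_lhs => rw [show σ * τ = τ * σ * (σ⁻¹ * τ⁻¹ * σ⁻¹⁻¹ * τ⁻¹⁻¹) by group,
    FA.OpenImage.map_mul_apply, h]

/-- The points of `p`-power order are divisible by every nonzero integer. -/
theorem exists_nsmul_eq (E : WeierstrassCurve ℚ) [E.IsElliptic] {p : ℕ} (hp : p.Prime) {n : ℕ}
    (hn : n ≠ 0) (P : AddCommGroup.primaryComponent (E.toAffine⁄Qb).Point p) :
    ∃ R, n • R = P := by
  obtain ⟨a, u, hu, rfl⟩ := Nat.exists_eq_pow_mul_and_not_dvd hn p hp.ne_one
  obtain ⟨R, hR⟩ := FA.TateModules.exists_divisible E hp a P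
  obtain ⟨k, hk⟩ := AddCommGroup.mem_primaryComponent.mp R.2
  obtain ⟨v, hv⟩ := exists_nsmul_eq_self_of_coprime (x := R) (n := u)
    ((hp.coprime_iff_not_dvd.mpr hu).symm.pow_right k |>.coprime_dvd_right
      (addOrderOf_dvd_of_nsmul_eq_zero (Subtype.ext hk)))
  exact ⟨v • R, by rw [mul_nsmul', smul_comm u v R, hv, hR]⟩

/-- There is a nonzero point of `p`-power order. -/
theorem exists_primary_ne_zero (E : WeierstrassCurve ℚ) [E.IsElliptic] {p : ℕ} (hp : p.Prime) :
    ∃ P : AddCommGroup.primaryComponent (E.toAffine⁄Qb).Point p, P ≠ 0 := by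
  by_contra! h
  exact one_ne_zero (FA.TateModules.dvd_of_forall_zsmul_eq_zero E hp (c := 1)
    fun x => by rw [one_zsmul, h x]; rfl)

/-- The `p ^ n`-torsion inside the points of `p`-power order. -/
def toPrimary (E : WeierstrassCurve ℚ) (p n : ℕ) :
    Submodule.torsionBy ℤ (E.toAffine⁄Qb).Point ((p ^ n : ℕ) : ℤ) →+
      AddCommGroup.primaryComponent (E.toAffine⁄Qb).Point p where
  toFun x := ⟨x.1, AddCommGroup.mem_primaryComponent.mpr ⟨n, by
    rw [← natCast_zsmul]; exact (Submodule.mem_torsionBy_iff _ _).mp x.2⟩⟩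
  map_zero' := rfl
  map_add' _ _ := rfl

/-- Every point of `p`-power order lies in some `p ^ n`-torsion. -/
theorem exists_toPrimary_eq (E : WeierstrassCurve ℚ) {p : ℕ}
    (R : AddCommGroup.primaryComponent (E.toAffine⁄Qb).Point p) :
    ∃ (n : ℕ) (x : Submodule.torsionBy ℤ (E.toAffine⁄Qb).Point ((p ^ n : ℕ) : ℤ)),
      toPrimary E p n x = R := by
  obtain ⟨n, hn⟩ := AddCommGroup.mem_primaryComponent.mp R.2
  exact ⟨n, ⟨R.1, (Submodule.mem_torsionBy_iff _ _).mpr (by rw [natCast_zsmul]; exact hn)⟩, rfl⟩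

/-- The image of a point depends locally constantly on the automorphism. -/
theorem isLocallyConstant_map (E : WeierstrassCurve ℚ) (P : (E.toAffine⁄Qb).Point) :
    IsLocallyConstant fun σ : GQ => Affine.Point.map (W' := E.toAffine) σ.toAlgHom P :=
  IsLocallyConstant.iff_eventually_eq _ |>.mpr fun σ => FA.OpenImage.eventually_map_eq E σ P

/-- `σ` acts on the `N`-torsion by the matrix `A` in the coordinates `e`. -/
def Moves (e : Submodule.torsionBy ℤ (E.toAffine⁄Qb).Point (N : ℤ) ≃+ (Fin 2 → ZMod N))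
    (A : Matrix (Fin 2) (Fin 2) (ZMod N)) (σ : GQ) : Prop :=
  ∀ P, Affine.Point.map σ.toAlgHom P.1 = (e.symm (A *ᵥ e P)).1

/-- `σ` fixes the `N`-torsion. -/
def Fixes (E : WeierstrassCurve ℚ) (N : ℕ) (σ : GQ) : Prop :=
  ∀ R : (E.toAffine⁄Qb).Point, N • R = 0 → Affine.Point.map σ.toAlgHom R = R

variable {e : Submodule.torsionBy ℤ (E.toAffine⁄Qb).Point (N : ℤ) ≃+ (Fin 2 → ZMod N)}

theorem Moves.of_forall {A : Matrix (Fin 2) (Fin 2) (ZMod N)} {σ : GQ}
    (h : ∀ P Q, e Q = A *ᵥ e P → Affine.Point.map σ.toAlgHom P.1 = Q.1) : Moves e A σ :=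
  fun P => h P _ (e.apply_symm_apply _)

theorem Moves.mul {A B : Matrix (Fin 2) (Fin 2) (ZMod N)} {σ τ : GQ} (hA : Moves e A σ)
    (hB : Moves e B τ) : Moves e (A * B) (σ * τ) := fun P => by
  rw [FA.OpenImage.map_mul_apply, hB, hA, e.apply_symm_apply, mulVec_mulVec]

theorem Moves.inv {A B : Matrix (Fin 2) (Fin 2) (ZMod N)} {σ : GQ} (hA : Moves e A σ)
    (h : A * B = 1) : Moves e B σ⁻¹ := fun P => by
  have h1 := hA (e.symm (B *ᵥ e P))
  rw [e.apply_symm_apply, mulVec_mulVec, h, one_mulVec, e.symm_apply_apply] at h1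
  rw [← h1, ← FA.OpenImage.map_mul_apply, inv_mul_cancel, FA.OpenImage.map_one_apply]

theorem Moves.unique {A B : Matrix (Fin 2) (Fin 2) (ZMod N)} {σ : GQ} (hA : Moves e A σ)
    (hB : Moves e B σ) : A = B := Matrix.ext_iff_mulVec.mpr fun v => by
  have h := (hA (e.symm v)).symm.trans (hB (e.symm v))
  rw [e.apply_symm_apply] at h
  exact e.symm.injective (Subtype.ext h)

/-- A matrix fixing what `D` kills fixes the `D`-torsion. -/
theorem Moves.fixes {A : Matrix (Fin 2) (Fin 2) (ZMod N)} {σ : GQ} (hA : Moves e A σ) {D : ℕ}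
    (hD : D ∣ N) (h : ∀ v : Fin 2 → ZMod N, (D : ZMod N) • v = 0 → A *ᵥ v = v) :
    Fixes E D σ := fun R hR => by
  obtain ⟨c, hc⟩ := hD
  have hR' : N • R = 0 := by rw [hc, mul_comm, mul_nsmul', hR, nsmul_zero]
  set P : Submodule.torsionBy ℤ (E.toAffine⁄Qb).Point (N : ℤ) :=
    ⟨R, (Submodule.mem_torsionBy_iff _ _).mpr (by rw [natCast_zsmul, hR'])⟩
  have h1 : (D : ZMod N) • e P = 0 := by
    rw [Nat.cast_smul_eq_nsmul, ← map_nsmul, show D • P = 0 from Subtype.ext hR, map_zero]
  exact (hA P).trans (by rw [h _ h1, e.symm_apply_apply])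

theorem Fixes.moves {σ : GQ} (h : Fixes E N σ) : Moves e 1 σ := fun P => by
  rw [one_mulVec, e.symm_apply_apply]
  exact h P.1 (by rw [← natCast_zsmul]; exact (Submodule.mem_torsionBy_iff _ _).mp P.2)

theorem fixes_one : Fixes E N 1 := fun R _ => FA.OpenImage.map_one_apply E R

theorem Fixes.of_forall {σ : GQ} (h : ∀ P Q, e Q = (1 : Matrix (Fin 2) (Fin 2) (ZMod N)) *ᵥ e P →
    Affine.Point.map σ.toAlgHom P.1 = Q.1) : Fixes E N σ :=
  (Moves.of_forall h).fixes dvd_rfl fun v _ => one_mulVec v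

theorem Fixes.mul {σ τ : GQ} (hσ : Fixes E N σ) (hτ : Fixes E N τ) : Fixes E N (σ * τ) :=
  fun R hR => by rw [FA.OpenImage.map_mul_apply, hτ R hR, hσ R hR]

theorem Fixes.inv {σ : GQ} (hσ : Fixes E N σ) : Fixes E N σ⁻¹ := fun R hR =>
  map_inv_eq (hσ R hR)

theorem Fixes.pow {σ : GQ} (hσ : Fixes E N σ) : ∀ j : ℕ, Fixes E N (σ ^ j)
  | 0 => by rw [pow_zero]; exact fixes_one
  | j + 1 => pow_succ σ j ▸ (Fixes.pow hσ j).mul hσ

theorem Fixes.conj {σ : GQ} (hσ : Fixes E N σ) (δ : GQ) : Fixes E N (δ * σ * δ⁻¹) := fun R hR => by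
  rw [FA.OpenImage.map_mul_apply, FA.OpenImage.map_mul_apply,
    hσ _ (by rw [← map_nsmul, hR, map_zero]), ← FA.OpenImage.map_mul_apply, mul_inv_cancel,
    FA.OpenImage.map_one_apply]

/-- The powers of a transvection. -/
theorem Moves.pow_one_add {c : ZMod N} {X : Matrix (Fin 2) (Fin 2) (ZMod N)} {σ : GQ}
    (hX : X * X = 0) (h : Moves e (1 + c • X) σ) (j : ℕ) :
    Moves e (1 + ((j : ZMod N) * c) • X) (σ ^ j) := by
  induction j with
  | zero => simpa using (fixes_one (E := E) (N := N)).moves (e := e)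
  | succ j ih =>
    convert pow_succ σ j ▸ ih.mul h using 1
    simp only [add_mul, mul_add, one_mul, mul_one, smul_mul_assoc, mul_smul_comm, hX, smul_zero,
      add_zero, Nat.cast_succ, add_smul, add_assoc]

/-- Opposite transvections commute only on the points killed by the square of their level. -/
theorem nsmul_eq_zero_of_commute {c : ℕ} {s t : GQ}
    (hs : Moves e (1 + (c : ZMod N) • !![0, 1; 0, 0]) s)
    (ht : Moves e (1 + (c : ZMod N) • !![0, 0; 1, 0]) t)
    {P : Submodule.torsionBy ℤ (E.toAffine⁄Qb).Point (N : ℤ)}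
    (h : Affine.Point.map (s * t).toAlgHom P.1 = Affine.Point.map (t * s).toAlgHom P.1) :
    (c * c) • P = 0 := by
  rw [(hs.mul ht) P, (ht.mul hs) P] at h
  have h0 := e.symm.injective (Subtype.ext h)
  refine e.injective ?_
  have a0 := congrFun h0 0
  have a1 := congrFun h0 1
  simp [Matrix.mul_apply, mulVec, dotProduct, Fin.sum_univ_two] at a0 a1
  rw [map_nsmul, map_zero]
  funext r
  fin_cases r <;> simp
  · linear_combination a0
  · linear_combination -a1

/-- The `N`-torsion of every curve has coordinates. -/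
theorem exists_coords (E : WeierstrassCurve ℚ) [E.IsElliptic] (N : ℕ) [NeZero N] :
    Nonempty (Submodule.torsionBy ℤ (E.toAffine⁄Qb).Point (N : ℤ) ≃+ (Fin 2 → ZMod N)) :=
  (FA.EndTorsion.exists_coord E N).map AddEquiv.symm

/-- Open image in matrix form. -/
theorem exists_moves_of_key [NeZero N] {m : ℕ}
    (key : ∀ φ : Submodule.torsionBy ℤ (E.toAffine⁄Qb).Point (N : ℤ) ≃+
        Submodule.torsionBy ℤ (E.toAffine⁄Qb).Point (N : ℤ),
      (∀ P, m • P.1 = 0 → φ P = P) → ∃ σ : GQ, ∀ P, Affine.Point.map σ.toAlgHom P.1 = (φ P).1)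
    (X : Matrix (Fin 2) (Fin 2) (ZMod N)) (hu : IsUnit (1 + (m : ZMod N) • X).det) :
    ∃ σ, Moves e (1 + (m : ZMod N) • X) σ := by
  obtain ⟨φ, hφ⟩ := Adelic.exists_addEquiv e hu
  obtain ⟨σ, hσ⟩ := key φ fun P hP => e.injective (by
    rw [hφ, e.apply_symm_apply, add_mulVec, one_mulVec, smul_mulVec, ← mulVec_smul,
      Nat.cast_smul_eq_nsmul, ← map_nsmul, show m • P = 0 from Subtype.ext hP, map_zero,
      mulVec_zero, add_zero])
  exact ⟨σ, fun P => (hσ P).trans (by rw [hφ])⟩

end FA.Independence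

end
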