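import Fermat.Agent.Independence.FamilyAlgebra
import Fermat.Agent.Root.SummaryIndependenceFrobenius
import Fermat.Agent.Independence.Basic

/-!
# The independence of finitely many curves from that of the pairs

Ribet's argument for Serre's theorem: a commutator of an element acting as `diag(u, u⁻¹)` on one
curve and trivially on a second with an elementary one which is trivial on further curves is
elementary on the first and trivial on all the others. So the congruence subgroup of `SL₂` of one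
level is realised on each curve with trivial action on the others; and the determinant is the
cyclotomic character, whose values on an open subgroup contain a congruence subgroup.
-/

set_option autoImplicit false
set_option linter.style.haveILetI false

noncomputable section

open Matrix WeierstrassCurve WeierstrassCurve.Affine FA.Frob FA.RT FA.RT.Tate FA.TraceDist
open FA.JTorsion (cycP)
open scoped WeierstrassCurve.Affine

local notation "Qb" => AlgebraicClosure ℚ
local notation "GQ" => AlgebraicClosure ℚ ≃ₐ[ℚ] AlgebraicClosure ℚ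

namespace FA.Independence.Family

variable {E : WeierstrassCurve ℚ} {N : ℕ}

variable {e : Submodule.torsionBy ℤ (E.toAffine⁄Qb).Point (N : ℤ) ≃+ (Fin 2 → ZMod N)}

theorem diag_mul_diag {R : Type*} [CommRing R] (a b c d : R) :
    !![a, 0; 0, b] * !![c, 0; 0, d] = !![a * c, 0; 0, b * d] := by
  ext r k
  fin_cases r <;> fin_cases k <;> simp [Matrix.mul_apply, Fin.sum_univ_two]

/-- The cyclotomic character modulo `N`. -/
def chi (N : ℕ) [NeZero N] (σ : GQ) : ZMod N :=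
  (ZMod.equivPi N (NeZero.ne N)).symm fun p =>
    haveI := fact_prime_of_mem p
    PadicInt.toZModPow (N.factorization p) ((cycP (p : ℕ) σ : ℤ_[(p : ℕ)]ˣ) : ℤ_[(p : ℕ)])

theorem chi_mul [NeZero N] (σ τ : GQ) : chi N (σ * τ) = chi N σ * chi N τ := by
  rw [chi, chi, chi, ← map_mul]
  refine congrArg _ (funext fun p => ?_)
  haveI := fact_prime_of_mem p
  simp only [map_mul, Units.val_mul, Pi.mul_apply]

theorem chi_cast [NeZero N] {L : ℕ} [NeZero L] (h : N ∣ L) (σ : GQ) :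
    ZMod.castHom h (ZMod N) (chi L σ) = chi N σ := by
  refine (ZMod.equivPi N (NeZero.ne N)).injective (funext fun p => ?_)
  haveI := fact_prime_of_mem p
  have hp : (p : ℕ) ∈ L.primeFactors := Nat.primeFactors_mono h (NeZero.ne L) p.2
  have hle : N.factorization p ≤ L.factorization p :=
    (Nat.factorization_le_iff_dvd (NeZero.ne N) (NeZero.ne L)).mpr h p
  have hhom : (Pi.evalRingHom _ p).comp
      ((ZMod.equivPi N (NeZero.ne N)).toRingHom.comp (ZMod.castHom h (ZMod N))) =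
      (ZMod.castHom (pow_dvd_pow (p : ℕ) hle) _).comp
        ((Pi.evalRingHom _ (⟨p, hp⟩ : L.primeFactors)).comp
          (ZMod.equivPi L (NeZero.ne L)).toRingHom) := Subsingleton.elim _ _
  refine (RingHom.congr_fun hhom (chi L σ)).trans ?_
  rw [chi, chi, RingEquiv.apply_symm_apply]
  show ZMod.castHom (pow_dvd_pow (p : ℕ) hle) _ ((ZMod.equivPi L (NeZero.ne L))
    ((ZMod.equivPi L (NeZero.ne L)).symm _) ⟨p, hp⟩) = _
  rw [RingEquiv.apply_symm_apply]
  exact RingHom.congr_fun (PadicInt.zmod_cast_comp_toZModPow _ _ hle) _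

theorem det_repLevel (W : WeierstrassCurve ℤ) [(ratCurve W).IsElliptic] [NeZero N] (σ : GQ) :
    (repLevel W N σ).det = chi N σ := by
  refine (ZMod.equivPi N (NeZero.ne N)).injective (funext fun p => ?_)
  haveI := fact_prime_of_mem p
  rw [equivPi_det, chi, RingEquiv.apply_symm_apply]
  show ((basisAt W p).rep σ |>.map (PadicInt.toZModPow (N.factorization p))).det = _
  rw [← RingHom.mapMatrix_apply, ← RingHom.map_det, TateBasis.det_rep]

/-- Every automorphism acts by a matrix with determinant the cyclotomic character. -/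
theorem exists_moves [E.IsElliptic] [NeZero N]
    (e : Submodule.torsionBy ℤ (E.toAffine⁄Qb).Point (N : ℤ) ≃+ (Fin 2 → ZMod N)) (σ : GQ) :
    ∃ A, Moves e A σ ∧ A.det = chi N σ := by
  obtain ⟨W, hW⟩ := exists_integralModel E
  haveI := ratCurve_isElliptic_of_Δ (Δ_ne_zero_of_model hW)
  obtain ⟨f, hf⟩ := FA.Root.exists_equiv_of_model hW
  obtain ⟨T, hT⟩ := FA.Root.exists_torsionBy_congr f (N : ℤ)
  obtain ⟨e₀, he₀⟩ := exists_coord_level W N
  let g : (Fin 2 → ZMod N) ≃+ (Fin 2 → ZMod N) := (e₀.symm.trans T).trans e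
  let G := AddMonoidHom.toZModLinearMap N g.toAddMonoidHom
  let G' := AddMonoidHom.toZModLinearMap N g.symm.toAddMonoidHom
  have hG : ∀ v, LinearMap.toMatrix' G *ᵥ v = g v := fun v => LinearMap.toMatrix'_mulVec G v
  have hG' : ∀ v, LinearMap.toMatrix' G' *ᵥ v = g.symm v := fun v =>
    LinearMap.toMatrix'_mulVec G' v
  have h1 : LinearMap.toMatrix' G * LinearMap.toMatrix' G' = 1 :=
    Matrix.ext_iff_mulVec.mpr fun v => by
      rw [← mulVec_mulVec, hG', hG, g.apply_symm_apply, one_mulVec]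
  refine ⟨LinearMap.toMatrix' G * repLevel W N σ * LinearMap.toMatrix' G', fun P => ?_, ?_⟩
  · rw [← mulVec_mulVec, ← mulVec_mulVec, hG', hG]
    obtain ⟨P, rfl⟩ := T.surjective P
    obtain ⟨v, rfl⟩ := e₀.symm.surjective P
    simp only [g, AddEquiv.symm_trans_apply, AddEquiv.trans_apply, AddEquiv.symm_apply_apply,
      AddEquiv.apply_symm_apply, AddEquiv.symm_symm]
    rw [hT, hT, ← he₀, hf]
  · rw [det_mul, det_mul, mul_comm, ← mul_assoc, ← det_mul, mul_eq_one_comm.mp h1, det_one,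
      one_mul, det_repLevel]

theorem _root_.FA.Independence.Moves.det_eq [E.IsElliptic] [NeZero N]
    {A : Matrix (Fin 2) (Fin 2) (ZMod N)} {σ : GQ}
    (hA : Moves e A σ) : A.det = chi N σ := by
  obtain ⟨B, hB, hd⟩ := exists_moves e σ
  rw [hA.unique hB, hd]

variable {ι : Type*} [Finite ι] (F : ι → WeierstrassCurve ℚ) [∀ i, (F i).IsElliptic]
  (hF : ∀ i, ∃ m : ℕ, 0 < m ∧ ∀ N : ℕ, N ≠ 0 →
    ∀ φ : Submodule.torsionBy ℤ ((F i).toAffine⁄Qb).Point (N : ℤ) ≃+
        Submodule.torsionBy ℤ ((F i).toAffine⁄Qb).Point (N : ℤ),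
      (∀ P, m • P.1 = 0 → φ P = P) → ∃ σ : GQ, ∀ P, Affine.Point.map σ.toAlgHom P.1 = (φ P).1)
  (hP : ∀ i j, i ≠ j → ∃ m : ℕ, 0 < m ∧ ∀ N : ℕ, N ≠ 0 →
    ∀ (e : Submodule.torsionBy ℤ ((F i).toAffine⁄Qb).Point (N : ℤ) ≃+ (Fin 2 → ZMod N))
      (e' : Submodule.torsionBy ℤ ((F j).toAffine⁄Qb).Point (N : ℤ) ≃+ (Fin 2 → ZMod N))
      (X X' : Matrix (Fin 2) (Fin 2) (ZMod N)),
      (1 + (m : ZMod N) • X).det = (1 + (m : ZMod N) • X').det →
      IsUnit (1 + (m : ZMod N) • X).det →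
      ∃ σ : GQ,
        (∀ P Q, e Q = (1 + (m : ZMod N) • X) *ᵥ e P → Affine.Point.map σ.toAlgHom P.1 = Q.1) ∧
        ∀ P Q, e' Q = (1 + (m : ZMod N) • X') *ᵥ e' P → Affine.Point.map σ.toAlgHom P.1 = Q.1)

include hF hP in
omit [Finite ι] in
/-- **Elementary matrices on one curve, trivial on any finite set of others.** -/
theorem exists_transvections (i : ι) (s : Finset ι) (hs : i ∉ s) :
    ∃ D : ℕ, 0 < D ∧ ∀ (N : ℕ) (_ : NeZero N)
      (e : Submodule.torsionBy ℤ ((F i).toAffine⁄Qb).Point (N : ℤ) ≃+ (Fin 2 → ZMod N))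
      (a : ZMod N),
      (∃ σ, Moves e (upMat ((D : ZMod N) * a)) σ ∧ ∀ j ∈ s, Fixes (F j) N σ) ∧
      ∃ σ, Moves e (lowMat ((D : ZMod N) * a)) σ ∧ ∀ j ∈ s, Fixes (F j) N σ := by
  classical
  induction s using Finset.induction_on with
  | empty =>
    obtain ⟨m, hm, key⟩ := hF i
    refine ⟨m, hm, fun N _ e a => ⟨?_, ?_⟩⟩
    · have hX : upMat ((m : ZMod N) * a) = 1 + (m : ZMod N) • !![0, a; 0, 0] := by
        ext r c; fin_cases r <;> fin_cases c <;> simp [upMat]
      obtain ⟨σ, hσ⟩ := exists_moves_of_key (e := e) (key N (NeZero.ne N))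
        !![0, a; 0, 0] (by simp [det_fin_two])
      exact ⟨σ, hX ▸ hσ, fun _ h => absurd h (Finset.notMem_empty _)⟩
    · have hX : lowMat ((m : ZMod N) * a) = 1 + (m : ZMod N) • !![0, 0; a, 0] := by
        ext r c; fin_cases r <;> fin_cases c <;> simp [lowMat]
      obtain ⟨σ, hσ⟩ := exists_moves_of_key (e := e) (key N (NeZero.ne N))
        !![0, 0; a, 0] (by simp [det_fin_two])
      exact ⟨σ, hX ▸ hσ, fun _ h => absurd h (Finset.notMem_empty _)⟩
  | insert j s hj ih =>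
    obtain ⟨D, hD, key⟩ := ih fun h => hs (Finset.mem_insert_of_mem h)
    obtain ⟨m₀, hm₀, pair⟩ := hP i j fun h => hs (h ▸ Finset.mem_insert_self _ _)
    refine ⟨D * (6 * m₀ * (6 * m₀ + 2)), by positivity, fun N _ e a => ?_⟩
    obtain ⟨y, z, w, hyz, hw⟩ := exists_diag (m := 6 * m₀) (dvd_mul_right 6 m₀) N (NeZero.ne N)
    obtain ⟨e'⟩ := exists_coords (F j) N
    set u := 1 + ((6 * m₀ : ℕ) : ZMod N) * y with hu
    set v := 1 + ((6 * m₀ : ℕ) : ZMod N) * z with hv
    have hdiag : ∀ y' z' : ZMod N, (1 + ((6 * m₀ : ℕ) : ZMod N) * y') *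
        (1 + ((6 * m₀ : ℕ) : ZMod N) * z') = 1 →
        ∃ δ, Moves e !![1 + ((6 * m₀ : ℕ) : ZMod N) * y', 0; 0,
          1 + ((6 * m₀ : ℕ) : ZMod N) * z'] δ ∧ Fixes (F j) N δ := by
      intro y' z' h1
      have hX : !![1 + ((6 * m₀ : ℕ) : ZMod N) * y', 0; 0, 1 + ((6 * m₀ : ℕ) : ZMod N) * z'] =
          1 + (m₀ : ZMod N) • !![6 * y', 0; 0, 6 * z'] := by
        ext r c; fin_cases r <;> fin_cases c <;> simp <;> ring
      have hd : (1 + (m₀ : ZMod N) • !![6 * y', 0; 0, 6 * z']).det = 1 := by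
        rw [← hX]; simp only [det_fin_two]; simpa using h1
      obtain ⟨δ, h, h'⟩ := pair N (NeZero.ne N) e e' _ 0
        (by rw [hd, smul_zero, add_zero, det_one]) (by rw [hd]; exact isUnit_one)
      refine ⟨δ, fun P => hX ▸ h P _ (e.apply_symm_apply _), fun R hR => ?_⟩
      exact h' ⟨R, (Submodule.mem_torsionBy_iff _ _).mpr (by rw [natCast_zsmul, hR])⟩
        ⟨R, (Submodule.mem_torsionBy_iff _ _).mpr (by rw [natCast_zsmul, hR])⟩ (by simp)
    set c := (D : ZMod N) * (w * a) with hc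
    have hfix : ∀ δ σ : GQ, Fixes (F j) N δ → (∀ k ∈ s, Fixes (F k) N σ) →
        ∀ k ∈ insert j s, Fixes (F k) N (δ * σ * δ⁻¹ * σ⁻¹) := fun δ σ hδ hσ k hk => by
      rcases Finset.mem_insert.mp hk with rfl | hk
      · rw [show δ * σ * δ⁻¹ * σ⁻¹ = δ * (σ * δ⁻¹ * σ⁻¹) by group]
        exact hδ.mul (hδ.inv.conj σ)
      · exact ((hσ k hk).conj δ).mul (hσ k hk).inv
    have hval : ((D * (6 * m₀ * (6 * m₀ + 2)) : ℕ) : ZMod N) * a = u ^ 2 * c - c := by
      rw [hc, Nat.cast_mul, Nat.cast_mul, Nat.cast_add, Nat.cast_ofNat]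
      linear_combination -((D : ZMod N) * a) * hw
    rw [hval]
    constructor
    · obtain ⟨δ, hδ, hδ'⟩ := hdiag y z hyz
      obtain ⟨σ, hσ, hσ'⟩ := (key N inferInstance e (w * a)).1
      refine ⟨δ * σ * δ⁻¹ * σ⁻¹, ?_, hfix δ σ hδ' hσ'⟩
      have h1 := ((hδ.mul hσ).mul (hδ.inv (B := !![v, 0; 0, u])
        (by rw [diag_mul_diag, hyz, mul_comm v u, hyz, one_fin_two]))).mul
          (hσ.inv (B := upMat (-c)) (by
            ext r k; fin_cases r <;> fin_cases k <;> simp [upMat, hc]))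
      convert h1 using 1
      ext r k
      fin_cases r <;> fin_cases k <;> simp [upMat, ← hc] <;> grind
    · obtain ⟨δ, hδ, hδ'⟩ := hdiag z y (by rw [mul_comm, hyz])
      obtain ⟨σ, hσ, hσ'⟩ := (key N inferInstance e (w * a)).2
      refine ⟨δ * σ * δ⁻¹ * σ⁻¹, ?_, hfix δ σ hδ' hσ'⟩
      have h1 := ((hδ.mul hσ).mul (hδ.inv (B := !![u, 0; 0, v])
        (by rw [diag_mul_diag, hyz, mul_comm v u, hyz, one_fin_two]))).mul
          (hσ.inv (B := lowMat (-c)) (by
            ext r k; fin_cases r <;> fin_cases k <;> simp [lowMat, hc]))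
      convert h1 using 1
      ext r k
      fin_cases r <;> fin_cases k <;> simp [lowMat, ← hc] <;> grind

include hF hP in
/-- **The congruence subgroup of `SL₂` on all curves at once.** -/
theorem exists_level_sl :
    ∃ D : ℕ, 0 < D ∧ ∀ (N : ℕ) (_ : NeZero N)
      (e : ∀ i, Submodule.torsionBy ℤ ((F i).toAffine⁄Qb).Point (N : ℤ) ≃+ (Fin 2 → ZMod N))
      (X : ι → Matrix (Fin 2) (Fin 2) (ZMod N)),
      (∀ i, (1 + (D : ZMod N) • X i).det = 1) →
      ∃ σ, ∀ i, Moves (e i) (1 + (D : ZMod N) • X i) σ := by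
  classical
  haveI := Fintype.ofFinite ι
  choose D hD key using fun i => exists_transvections F hF hP i (Finset.univ.erase i)
    (Finset.notMem_erase i _)
  set D₀ := ∏ i, D i with hD₀
  have hpos : 0 < D₀ := Finset.prod_pos fun i _ => hD i
  refine ⟨D₀ * D₀, Nat.mul_pos hpos hpos, fun N _ e X hX => ?_⟩
  have hone : ∀ i, ∃ σ, Moves (e i) (1 + ((D₀ * D₀ : ℕ) : ZMod N) • X i) σ ∧
      ∀ j, j ≠ i → Fixes (F j) N σ := fun i => by
    obtain ⟨c, hc⟩ : D i ∣ D₀ := Finset.dvd_prod_of_mem D (Finset.mem_univ i)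
    rw [Nat.cast_mul]
    refine induction_congruence (D₀ : ZMod N)
      (P := fun A => ∃ σ, Moves (e i) A σ ∧ ∀ j, j ≠ i → Fixes (F j) N σ) ?_ ?_ ?_ (X i)
      (by rw [← Nat.cast_mul]; exact hX i)
    · rintro A B ⟨σ, hσ, hσ'⟩ ⟨τ, hτ, hτ'⟩
      exact ⟨σ * τ, hσ.mul hτ, fun j hj => (hσ' j hj).mul (hτ' j hj)⟩
    · intro a
      obtain ⟨σ, hσ, hσ'⟩ := (key i N inferInstance (e i) ((c : ZMod N) * a)).1
      rw [← mul_assoc, ← Nat.cast_mul, ← hc] at hσ
      exact ⟨σ, hσ, fun j hj => hσ' j (Finset.mem_erase.mpr ⟨hj, Finset.mem_univ j⟩)⟩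
    · intro a
      obtain ⟨σ, hσ, hσ'⟩ := (key i N inferInstance (e i) ((c : ZMod N) * a)).2
      rw [← mul_assoc, ← Nat.cast_mul, ← hc] at hσ
      exact ⟨σ, hσ, fun j hj => hσ' j (Finset.mem_erase.mpr ⟨hj, Finset.mem_univ j⟩)⟩
  have hall : ∀ s : Finset ι, ∃ σ,
      (∀ i ∈ s, Moves (e i) (1 + ((D₀ * D₀ : ℕ) : ZMod N) • X i) σ) ∧
      ∀ i ∉ s, Fixes (F i) N σ := fun s => by
    induction s using Finset.induction_on with
    | empty => exact ⟨1, fun i h => absurd h (Finset.notMem_empty i), fun i _ => fixes_one⟩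
    | insert a s ha ih =>
      obtain ⟨σ, hσ, hσ'⟩ := ih
      obtain ⟨τ, hτ, hτ'⟩ := hone a
      refine ⟨τ * σ, fun i hi => ?_, fun i hi => ?_⟩
      · rcases Finset.mem_insert.mp hi with rfl | hi
        · simpa only [mul_one] using hτ.mul ((hσ' _ ha).moves (e := e i))
        · simpa only [one_mul] using ((hτ' i fun h => ha (h ▸ hi)).moves (e := e i)).mul (hσ i hi)
      · simp only [Finset.mem_insert, not_or] at hi
        exact (hτ' i hi.1).mul (hσ' i hi.2)
  obtain ⟨σ, hσ, -⟩ := hall Finset.univ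
  exact ⟨σ, fun i => hσ i (Finset.mem_univ i)⟩

/-- The automorphisms fixing the `D`-torsion of all the curves. -/
def fixer (D : ℕ) : Subgroup GQ where
  carrier := {σ | ∀ i, Fixes (F i) D σ}
  mul_mem' hσ hτ i := (hσ i).mul (hτ i)
  one_mem' _ := fixes_one
  inv_mem' hσ i := (hσ i).inv

theorem isOpen_fixer {D : ℕ} (hD : D ≠ 0) : IsOpen (fixer F D : Set GQ) := by
  have hset : (fixer F D : Set GQ) =
      ⋂ (i) (R : Submodule.torsionBy ℤ ((F i).toAffine⁄Qb).Point (D : ℤ)),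
        {σ | Affine.Point.map (W' := (F i).toAffine) σ.toAlgHom R.1 = R.1} := by
    ext σ
    simp only [Set.mem_iInter]
    refine ⟨fun h i R => h i R.1 ?_, fun h i R hR => h i ⟨R, ?_⟩⟩
    · rw [← natCast_zsmul]; exact (Submodule.mem_torsionBy_iff _ _).mp R.2
    · rw [Submodule.mem_torsionBy_iff, natCast_zsmul, hR]
  rw [hset]
  refine isOpen_iInter_of_finite fun i => ?_
  haveI := FA.EC.finite_torsion (F i) hD
  exact isOpen_iInter_of_finite fun R =>
    (isLocallyConstant_map (F i) R.1).isOpen_fiber R.1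

include hF in
/-- **The cyclotomic character on the fixer**: some `D₀` is such that every unit congruent to one
modulo `D₀` is its value on an element fixing the `D`-torsion of all curves. -/
theorem exists_level_chi [Nonempty ι] {D : ℕ} (hD : 0 < D) :
    ∃ D₀ : ℕ, D ∣ D₀ ∧ 0 < D₀ ∧ ∀ (N : ℕ) (_ : NeZero N) (z : ZMod N),
      IsUnit (1 + (D₀ : ZMod N) * z) →
      ∃ σ ∈ fixer F D, chi N σ = 1 + (D₀ : ZMod N) * z := by
  classical
  obtain ⟨i₀⟩ := (inferInstance : Nonempty ι)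
  obtain ⟨m, hm, key⟩ := hF i₀
  haveI : Algebra.IsAlgebraic ℚ Qb := AlgebraicClosure.isAlgebraic ℚ
  haveI : IsGalois ℚ Qb := FA.EC.isGalois_algebraicClosure
  haveI := Subgroup.quotient_finite_of_isOpen _ (isOpen_fixer F hD.ne')
  -- the cosets of the fixer meeting the kernels
  let T : ℕ → Set (GQ ⧸ fixer F D) := fun n =>
    haveI : NeZero n.factorial := ⟨n.factorial_ne_zero⟩
    (QuotientGroup.mk : GQ → GQ ⧸ fixer F D) '' {σ | chi n.factorial σ = 1}
  have hanti : ∀ a b, a ≤ b → T b ⊆ T a := fun a b hab => by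
    haveI : NeZero a.factorial := ⟨a.factorial_ne_zero⟩
    haveI : NeZero b.factorial := ⟨b.factorial_ne_zero⟩
    refine Set.image_mono fun σ (hσ : chi b.factorial σ = 1) => ?_
    show chi a.factorial σ = 1
    rw [← chi_cast (Nat.factorial_dvd_factorial hab) σ, hσ, map_one]
  obtain ⟨n₀, hn₀⟩ : ∃ n₀, ∀ n, (T n₀).ncard ≤ (T n).ncard := by
    have hex : ∃ k, ∃ n, (T n).ncard = k := ⟨_, 0, rfl⟩
    obtain ⟨n₀, hn₀⟩ := Nat.find_spec hex
    exact ⟨n₀, fun n => hn₀.trans_le (Nat.find_min' hex ⟨n, rfl⟩)⟩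
  set D₀ := n₀.factorial * D * m with hD₀
  have hD₀pos : 0 < D₀ := by positivity
  refine ⟨D₀, dvd_mul_of_dvd_left (dvd_mul_left D _) _, hD₀pos, fun N _ z hz => ?_⟩
  haveI : NeZero D₀ := ⟨hD₀pos.ne'⟩
  haveI : NeZero (N * D₀) := ⟨mul_ne_zero (NeZero.ne N) hD₀pos.ne'⟩
  haveI : NeZero n₀.factorial := ⟨n₀.factorial_ne_zero⟩
  -- lift the unit to the level `N * D₀`
  set π := ZMod.castHom (dvd_mul_right N D₀) (ZMod N)
  obtain ⟨zL, rfl⟩ : ∃ zL, π zL = z := ZMod.castHom_surjective _ z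
  have hco : IsCoprime (1 + (D₀ : ZMod (N * D₀)) * zL) ((N : ZMod (N * D₀)) * D₀) := by
    refine IsCoprime.mul_right ?_ ⟨1, -zL, by ring⟩
    obtain ⟨r, hr⟩ := hz.exists_left_inv
    obtain ⟨rL, rfl⟩ : ∃ rL, π rL = r := ZMod.castHom_surjective _ r
    have hker : ∀ x, π x = 0 → ∃ q, x = (N : ZMod (N * D₀)) * q := fun x hx => by
      rw [← ZMod.natCast_zmod_val x, map_natCast, ZMod.natCast_eq_zero_iff] at hx
      obtain ⟨q, hq⟩ := hx
      exact ⟨q, by rw [← Nat.cast_mul, ← hq, ZMod.natCast_zmod_val]⟩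
    obtain ⟨q, hq⟩ := hker (rL * (1 + (D₀ : ZMod (N * D₀)) * zL) - 1)
      (by simp only [map_sub, map_mul, map_add, map_one, map_natCast, hr, sub_self])
    exact ⟨rL, -q, by linear_combination hq⟩
  obtain ⟨x, hx⟩ := exists_unit_add (N * D₀) (NeZero.ne _) _ _ hco
  have hx' : 1 + (D₀ : ZMod (N * D₀)) * zL + x * ((N : ZMod (N * D₀)) * D₀) =
      1 + (D₀ : ZMod (N * D₀)) * (zL + x * N) := by ring
  rw [hx'] at hx
  -- an element with that value at level `N * D₀` fixing the `D₀`-torsion of the chosen curve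
  obtain ⟨e⟩ := exists_coords (F i₀) (N * D₀)
  have hX : (1 : Matrix (Fin 2) (Fin 2) (ZMod (N * D₀))) + (m : ZMod (N * D₀)) •
      !![((n₀.factorial * D : ℕ) : ZMod (N * D₀)) * (zL + x * N), 0; 0, 0] =
      !![1 + (D₀ : ZMod (N * D₀)) * (zL + x * N), 0; 0, 1] := by
    ext r c
    fin_cases r <;> fin_cases c <;> simp [hD₀]
    ring
  obtain ⟨σ, hσ⟩ := exists_moves_of_key (e := e) (key _ (NeZero.ne _))
    !![((n₀.factorial * D : ℕ) : ZMod (N * D₀)) * (zL + x * N), 0; 0, 0]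
    (by rw [hX]; simpa [det_fin_two] using hx)
  rw [hX] at hσ
  have hval : chi (N * D₀) σ = 1 + (D₀ : ZMod (N * D₀)) * (zL + x * N) := by
    rw [← hσ.det_eq]; simp [det_fin_two]
  have hfix : Fixes (F i₀) D₀ σ := hσ.fixes (dvd_mul_left D₀ N) fun v hv => by
    have h0 : (D₀ : ZMod (N * D₀)) * v 0 = 0 := congrFun hv 0
    funext r
    fin_cases r <;> simp [mulVec, dotProduct, Fin.sum_univ_two]
    linear_combination (zL + x * N) * h0
  have hone : chi D₀ σ = 1 := by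
    obtain ⟨e₀⟩ := exists_coords (F i₀) D₀
    rw [← (hfix.moves (e := e₀)).det_eq, det_one]
  have hmem : QuotientGroup.mk σ ∈ T n₀ := ⟨σ, by
    show chi n₀.factorial σ = 1
    rw [← chi_cast ((dvd_mul_right _ D).trans (dvd_mul_right _ m)) σ, hone, map_one], rfl⟩
  set n := max n₀ N
  haveI : NeZero n.factorial := ⟨n.factorial_ne_zero⟩
  rw [← Set.eq_of_subset_of_ncard_le (hanti n₀ n (le_max_left _ _)) (hn₀ n)] at hmem
  obtain ⟨s, hs, hsσ⟩ := hmem
  refine ⟨s⁻¹ * σ, QuotientGroup.eq.mp hsσ, ?_⟩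
  have hsN : chi N s = 1 := by
    rw [← chi_cast (Nat.dvd_factorial (NeZero.pos N) (le_max_right n₀ N)) s,
      show chi n.factorial s = 1 from hs, map_one]
  have h1 := congrArg π hval
  rw [chi_cast (dvd_mul_right N D₀), map_add, map_mul, map_one, map_natCast, map_add, map_mul,
    map_natCast, ZMod.natCast_self, mul_zero, add_zero] at h1
  have h2 := chi_mul (N := N) s (s⁻¹ * σ)
  rw [mul_inv_cancel_left, hsN, one_mul] at h2
  rw [← h2, h1]

include hF hP in
/-- **Independence of a finite family.** -/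
theorem exists_level_family :
    ∃ m : ℕ, 0 < m ∧ ∀ (N : ℕ), N ≠ 0 →
      ∀ (e : ∀ i, Submodule.torsionBy ℤ ((F i).toAffine⁄Qb).Point (N : ℤ) ≃+ (Fin 2 → ZMod N))
        (X : ι → Matrix (Fin 2) (Fin 2) (ZMod N)),
        (∀ i j, (1 + (m : ZMod N) • X i).det = (1 + (m : ZMod N) • X j).det) →
        (∀ i, IsUnit (1 + (m : ZMod N) • X i).det) →
        ∃ σ : GQ, ∀ i P Q, e i Q = (1 + (m : ZMod N) • X i) *ᵥ e i P →
          Affine.Point.map σ.toAlgHom P.1 = Q.1 := by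
  rcases isEmpty_or_nonempty ι with hι | hι
  · exact ⟨1, one_pos, fun N _ e X _ _ => ⟨1, fun i => (IsEmpty.false i).elim⟩⟩
  obtain ⟨i₀⟩ := id hι
  obtain ⟨D, hD, hsl⟩ := exists_level_sl F hF hP
  obtain ⟨D₀, hDD₀, hD₀, hchi⟩ := exists_level_chi F hF hD
  refine ⟨D₀, hD₀, fun N hN e X heq hu => ?_⟩
  haveI : NeZero N := ⟨hN⟩
  -- the common determinant
  obtain ⟨z, hz⟩ : ∃ z, (1 + (D₀ : ZMod N) • X i₀).det = 1 + (D₀ : ZMod N) * z :=
    ⟨X i₀ 0 0 + X i₀ 1 1 + (D₀ : ZMod N) * (X i₀ 0 0 * X i₀ 1 1 - X i₀ 0 1 * X i₀ 1 0), by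
      simp [det_fin_two]; ring⟩
  obtain ⟨h, hh, hhval⟩ := hchi N inferInstance z (hz ▸ hu i₀)
  choose M hM hMd using fun i => exists_moves (e i) h
  obtain ⟨c, hc⟩ := hDD₀
  have hMY : ∀ i, ∃ Y, M i = 1 + (D : ZMod N) • Y := fun i =>
    exists_eq_one_add D (M i) fun v hv => (e i).symm.injective (Subtype.ext (by
      have h0 : D • ((e i).symm v).1 = 0 := by
        rw [← Submodule.coe_smul_of_tower, ← map_nsmul, ← Nat.cast_smul_eq_nsmul (ZMod N) D v,
          hv, map_zero, Submodule.coe_zero]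
      have h1 := hM i ((e i).symm v)
      rw [(e i).apply_symm_apply] at h1
      exact h1.symm.trans (hh i _ h0)))
  have hMu : ∀ i, IsUnit (M i).det := fun i => by rw [hMd, hhval, ← hz]; exact hu i₀
  have hB : ∀ i, ∃ Y, (1 + (D₀ : ZMod N) • X i) * (M i)⁻¹ = 1 + (D : ZMod N) • Y := fun i => by
    obtain ⟨Y, hY⟩ := hMY i
    obtain ⟨Z, hZ⟩ := exists_inv_eq_one_add (D : ZMod N) Y (M i)⁻¹
      (by rw [← hY]; exact mul_nonsing_inv _ (hMu i))
    refine ⟨Z + (c : ZMod N) • X i + (D₀ : ZMod N) • (X i * Z), ?_⟩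
    rw [hZ, hc, Nat.cast_mul]
    simp only [add_mul, mul_add, one_mul, mul_one, smul_mul_assoc, mul_smul_comm, smul_add,
      smul_smul]
    module
  choose Y hY using hB
  obtain ⟨τ, hτ⟩ := hsl N inferInstance e Y fun i => by
    rw [← hY, det_mul, det_nonsing_inv, heq i i₀, hz, hMd, hhval]
    exact Ring.mul_inverse_cancel _ (hz ▸ hu i₀)
  refine ⟨τ * h, fun i P Q hPQ => ?_⟩
  rw [((hτ i).mul (hM i)) P, ← hY, nonsing_inv_mul_cancel_right _ _ (hMu i), ← hPQ,
    (e i).symm_apply_apply]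

end FA.Independence.Family
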