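import Fermat.Agent.Independence.Twist
import Mathlib.LinearAlgebra.Matrix.GeneralLinearGroup.Card

/-!
# Equal squares of traces are rare for independent curves

In the fibre product of two copies of `GL₂(𝔽_l)` over the determinant at most a fraction `8 / l`
of the pairs have equal squares of traces, so by Chebotarev the primes with `a_q² = a'_q²` of two
independent curves have density zero.
-/

set_option autoImplicit false
set_option linter.style.haveILetI false

noncomputable section

open NumberField IsDedekindDomain Matrix WeierstrassCurve FA.Frob FA.RT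
open FA.OpenImageAll (SurjectiveLarge)

local notation "GQ" => AlgebraicClosure ℚ ≃ₐ[ℚ] AlgebraicClosure ℚ

namespace FA.Independence

variable {l : ℕ} [hl : Fact l.Prime]

local notation "G" => GL (Fin 2) (ZMod l)
local notation "M2" => Matrix (Fin 2) (Fin 2) (ZMod l)

/-- A subgroup with every pair of equal determinants has few pairs with equal squares of traces. -/
theorem card_trace_sq_le (H : Subgroup (G × G))
    (hfull : ∀ A B : G, (A : M2).det = (B : M2).det → (A, B) ∈ H)
    (hdet : ∀ p ∈ H, (p.1 : M2).det = (p.2 : M2).det) :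
    (Nat.card {p : H | (p.1.1 : M2).trace ^ 2 = (p.1.2 : M2).trace ^ 2} : ℝ) / Nat.card H ≤
      8 / l := by
  classical
  set K := (GeneralLinearGroup.det : G →* (ZMod l)ˣ).ker with hK
  -- the subgroup is large
  have hH : Nat.card G * Nat.card K ≤ Nat.card H := by
    rw [← Nat.card_prod]
    refine Nat.card_le_card_of_injective (fun x => (⟨(x.1, x.1 * x.2.1), hfull _ _ ?_⟩ : H))
      fun x y e => ?_
    · have h : GeneralLinearGroup.det x.2.1 = 1 := x.2.2
      have := congrArg Units.val h
      rw [GeneralLinearGroup.val_det_apply, Units.val_one] at this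
      rw [Units.val_mul, det_mul, this, mul_one]
    · simp only [Subtype.mk.injEq, Prod.mk.injEq] at e
      exact Prod.ext e.1 (Subtype.ext (mul_left_cancel (e.1 ▸ e.2)))
  have hKG : Nat.card G ≤ Nat.card K * (l - 1) := by
    rw [← K.card_mul_index, hK, Subgroup.index_ker]
    refine Nat.mul_le_mul_left _ ((Subgroup.card_le_card_group _).trans (le_of_eq ?_))
    rw [Nat.card_eq_fintype_card, ZMod.card_units]
  -- few pairs have equal squares of traces
  have hX : Nat.card {p : H | (p.1.1 : M2).trace ^ 2 = (p.1.2 : M2).trace ^ 2} ≤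
      Nat.card G * (4 * l ^ 2) := by
    let code : G × G → G × Bool × Bool × ZMod l × ZMod l := fun p =>
      (p.1, decide ((p.2 : M2).trace = (p.1 : M2).trace), decide ((p.2 : M2) 0 1 = 0),
        (p.2 : M2) 0 0, if (p.2 : M2) 0 1 = 0 then (p.2 : M2) 1 0 else (p.2 : M2) 0 1)
    refine (Nat.card_le_card_of_injective (fun p => code p.1.1) fun p r e => ?_).trans
      (le_of_eq (by simp; ring))
    simp only [code, Prod.mk.injEq, decide_eq_decide] at e
    obtain ⟨hA, htr, hy, hx, hlast⟩ := e
    have ht : (p.1.1.2 : M2).trace = (r.1.1.2 : M2).trace := by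
      have hp := p.2
      have hr := r.2
      simp only [Set.mem_ofPred_eq] at hp hr
      rcases eq_or_ne ((p.1.1.2 : M2).trace) ((p.1.1.1 : M2).trace) with h | h
      · rw [h, htr.mp h, hA]
      · rw [(sq_eq_sq_iff_eq_or_eq_neg.mp hp.symm).resolve_left h,
          (sq_eq_sq_iff_eq_or_eq_neg.mp hr.symm).resolve_left (fun e => h (htr.mpr e)), hA]
    have hd : (p.1.1.2 : M2).det = (r.1.1.2 : M2).det := by
      rw [← hdet _ p.1.2, ← hdet _ r.1.2, hA]
    refine Subtype.ext (Subtype.ext (Prod.ext hA (Units.ext ?_)))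
    simp only [trace_fin_two, det_fin_two, hx] at ht hd
    rw [add_right_inj] at ht
    rw [ht] at hd
    by_cases h0 : (p.1.1.2 : M2) 0 1 = 0
    · have h0' := hy.mp h0
      rw [if_pos h0, if_pos h0'] at hlast
      ext i j
      fin_cases i <;> fin_cases j
      exacts [hx, h0.trans h0'.symm, hlast, ht]
    · rw [if_neg h0, if_neg (fun e => h0 (hy.mpr e))] at hlast
      rw [← hlast] at hd
      ext i j
      fin_cases i <;> fin_cases j
      exacts [hx, hlast, mul_left_cancel₀ h0 (sub_right_inj.mp hd), ht]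
  -- the ratio
  have hG : (Nat.card G : ℝ) = ((l : ℝ) ^ 2 - 1) * ((l : ℝ) ^ 2 - l) := by
    rw [Matrix.card_GL_field, ZMod.card, Fin.prod_univ_two]
    simp only [Fin.val_zero, Fin.val_one, pow_zero, pow_one]
    push_cast [Nat.cast_sub (Nat.one_le_pow _ _ hl.out.pos),
      Nat.cast_sub (Nat.le_self_pow two_ne_zero l)]
    rfl
  have hl2 : (2 : ℝ) ≤ l := by exact_mod_cast hl.out.two_le
  have hGK : (Nat.card G : ℝ) ≤ Nat.card K * ((l : ℝ) - 1) := by
    have := (Nat.cast_le (α := ℝ)).mpr hKG
    push_cast [Nat.cast_sub hl.out.one_le] at this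
    exact this
  have hX' := (Nat.cast_le (α := ℝ)).mpr hX
  have hH' := (Nat.cast_le (α := ℝ)).mpr hH
  push_cast at hX' hH'
  have hHpos : (0 : ℝ) < Nat.card H := by exact_mod_cast Nat.card_pos
  have hKl : (l : ℝ) ^ 3 ≤ 2 * Nat.card K := by
    rw [hG] at hGK
    nlinarith [mul_le_mul_of_nonneg_left (show (4 : ℝ) ≤ l ^ 2 by nlinarith)
      (show (0 : ℝ) ≤ l by linarith)]
  rw [div_le_div_iff₀ hHpos (by linarith)]
  calc _ ≤ (Nat.card G : ℝ) * (4 * (l : ℝ) ^ 2) * l :=
        mul_le_mul_of_nonneg_right hX' (by linarith)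
    _ = (Nat.card G : ℝ) * (4 * (l : ℝ) ^ 3) := by ring
    _ ≤ (Nat.card G : ℝ) * (8 * Nat.card K) :=
        mul_le_mul_of_nonneg_left (by linarith) (Nat.cast_nonneg _)
    _ = 8 * ((Nat.card G : ℝ) * Nat.card K) := by ring
    _ ≤ 8 * Nat.card H := mul_le_mul_of_nonneg_left hH' (by norm_num)

/-- **The primes with `a_q² = a'_q²`** of two curves which differ in `a_q²` at one good prime have
density zero. -/
theorem density_sq_eq_zero (E E' : WeierstrassCurve ℚ) [E.IsElliptic] [E'.IsElliptic]
    {W W' : WeierstrassCurve ℤ} [(ratCurve W).IsElliptic] [(ratCurve W').IsElliptic]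
    (hs : SurjectiveLarge W) (hs' : SurjectiveLarge W')
    (hW : W.IsIntegralModelOf E) (hW' : W'.IsIntegralModelOf E') {q : ℕ} (hq : q.Prime)
    (hgood : ¬ (q : ℤ) ∣ W.Δ) (hgood' : ¬ (q : ℤ) ∣ W'.Δ)
    (hne : E.LFunction q ^ 2 ≠ E'.LFunction q ^ 2) :
    {v : HeightOneSpectrum (𝓞 ℚ) | E.LFunction (Ideal.absNorm v.asIdeal) ^ 2 =
      E'.LFunction (Ideal.absNorm v.asIdeal) ^ 2}.HasDirichletDensity 0 := by
  obtain ⟨M, hM⟩ := exists_bound E E' hs hs' hW hW' hq hgood hgood' hne
  refine FA.Supersingular.density_zero_of_approx fun ε hε => ?_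
  obtain ⟨l, hl, hlp⟩ := Nat.exists_infinite_primes (max M ⌈8 / ε⌉₊ + 1)
  haveI := Fact.mk hlp
  set π := (pairRep W W' l).rangeRestrict
  let _ : Fintype (pairRep W W' l).range := Fintype.ofFinite _
  have hker : IsOpen (π.ker : Set GQ) := by
    rw [MonoidHom.ker_rangeRestrict]
    exact isOpen_ker_pairRep W W' l
  let X : Set (pairRep W W' l).range := {p | p.1.1.1.trace ^ 2 = p.1.2.1.trace ^ 2}
  refine ⟨FA.Chebotarev.frobSet π X,
    {v | Ideal.absNorm v.asIdeal ∈ insert l (W.Δ * W'.Δ).natAbs.primeFactors}, _,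
    FA.Chebotarev.hasDirichletDensity_frobSet π (MonoidHom.rangeRestrict_surjective _) hker
      (X := X) (fun g hg x => by
        show _ = _
        simp only [Subgroup.coe_mul, Subgroup.coe_inv, Prod.fst_mul, Prod.snd_mul, Prod.fst_inv,
          Prod.snd_inv, Units.val_mul, Matrix.trace_units_conj]
        exact hg), ?_, ?_, fun v hv => ?_⟩
  · rw [← Nat.card_eq_fintype_card]
    refine (card_trace_sq_le (pairRep W W' l).range (fun A B h => ?_)
      (fun p ⟨σ, hσ⟩ => hσ ▸ det_eq W W' σ)).trans_lt ?_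
    · obtain ⟨σ, hσ⟩ := hM l (by omega) A B h
      exact ⟨σ, hσ⟩
    have hlε : 8 / ε < l := (Nat.le_ceil _).trans_lt (by exact_mod_cast (by omega : ⌈8 / ε⌉₊ < l))
    rw [div_lt_iff₀ hε] at hlε
    rw [div_lt_iff₀ (by exact_mod_cast hlp.pos)]
    linarith
  · exact FA.Supersingular.finite_absNorm_mem _
  · refine or_iff_not_imp_right.mpr fun hvF A hA σ hσ => ?_
    simp only [Set.mem_ofPred_eq, Finset.mem_insert, not_or] at hvF
    have hn := FA.Chebotarev.absNorm_prime v
    obtain ⟨g1, g2⟩ := good_of_not_mem hn hvF.2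
    show (curveRep l W σ).trace ^ 2 = (curveRep l W' σ).trace ^ 2
    rw [(FA.Ribet.curveRep_frobenius (p := l) hn hvF.1 g1 hA hσ).1,
      (FA.Ribet.curveRep_frobenius (p := l) hn hvF.1 g2 hA hσ).1,
      ← FA.Root.LFunction_apply_prime E W hW hn g1, ← FA.Root.LFunction_apply_prime E' W' hW' hn g2,
      ← Int.cast_pow, ← Int.cast_pow, show E.LFunction _ ^ 2 = E'.LFunction _ ^ 2 from hv]

end FA.Independence

end
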