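import Fermat.Agent.Root.PadicImage

/-!
# Pairs modulo every power of `p` from pairs modulo `p`

Let two representations on `ℤ_p²`, `p ≥ 5`, have equal determinants, reach every pair of matrices
with equal determinants modulo `p`, and let the second reach every matrix modulo every power of
`p`. The elements congruent to a `diag(u, 1)` modulo `p ^ n` in the second satisfy Serre's lifting
lemma in the first: a power of a diagonal element trivial in the second gives all elementary
matrices modulo `p` by commutators.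
-/

set_option autoImplicit false
set_option linter.unusedSectionVars false
set_option linter.style.haveILetI false

noncomputable section

open Matrix FA.PadicImage

namespace FA.Independence.Padic

variable {p : ℕ} [hp : Fact p.Prime] {G : Type*} [Group G]

local notation "Mp" => Matrix (Fin 2) (Fin 2) ℤ_[p]
local notation "π" => (p : ℤ_[p])
local notation "Mk" => Matrix (Fin 2) (Fin 2) (ZMod p)

/-- Reduction modulo `p ^ n` of the difference from one. -/
theorem map_toZModPow_add_smul (n : ℕ) (M Y : Mp) :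
    (M + π ^ n • Y).map (PadicInt.toZModPow n) = M.map (PadicInt.toZModPow n) := by
  ext i j
  have h0 : PadicInt.toZModPow n (π ^ n) = 0 := by
    rw [← RingHom.mem_ker, PadicInt.ker_toZModPow]; exact Ideal.mem_span_singleton_self _
  simp only [Matrix.map_apply, Matrix.add_apply, Matrix.smul_apply, smul_eq_mul, map_add, map_mul,
    h0, zero_mul, add_zero]

/-- Equal reductions modulo `p ^ n` differ by a multiple of `p ^ n`. -/
theorem exists_eq_add_pow {n : ℕ} {A B : Mp}
    (h : A.map (PadicInt.toZModPow n) = B.map (PadicInt.toZModPow n)) :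
    ∃ Y : Mp, A = B + π ^ n • Y := by
  have hdvd : ∀ i j, ∃ y, A i j - B i j = π ^ n * y := fun i j => by
    refine Ideal.mem_span_singleton.mp ?_
    rw [← PadicInt.ker_toZModPow, RingHom.mem_ker, map_sub, sub_eq_zero]
    exact congrFun (congrFun h i) j
  choose Y hY using hdvd
  exact ⟨Matrix.of Y, Matrix.ext fun i j => by simp [← hY]⟩

/-- **Pairs modulo every power of `p`**: any matrix in the first, `diag(det, 1)` in the second. -/
theorem exists_pair_reach (h5 : 5 ≤ p) {r r' : G →* Mp} (hdet : ∀ g, (r g).det = (r' g).det)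
    (hbase : ∀ A B : Mk, A.det = B.det → A.det ≠ 0 →
      ∃ g, (r g).map PadicInt.toZMod = A ∧ (r' g).map PadicInt.toZMod = B)
    (hreach : ∀ (n : ℕ) (M : Mp), IsUnit M.det → Reach r' n M)
    (n : ℕ) {M : Mp} (hM : IsUnit M.det) :
    ∃ g, (∃ Y, r g = M + π ^ n • Y) ∧ ∃ Y, r' g = !![M.det, 0; 0, 1] + π ^ n • Y := by
  rcases Nat.eq_zero_or_pos n with rfl | hn
  · exact ⟨1, ⟨1 - M, by simp⟩, ⟨1 - !![M.det, 0; 0, 1], by simp⟩⟩
  let ρn : G →* Matrix (Fin 2) (Fin 2) (ZMod (p ^ n)) :=
    (PadicInt.toZModPow (p := p) n).mapMatrix.toMonoidHom.comp r'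
  let ρ : G →* Mk := (PadicInt.toZMod (p := p)).mapMatrix.toMonoidHom.comp r
  let H : Subgroup G :=
    { carrier := {g | ρn g 0 1 = 0 ∧ ρn g 1 0 = 0 ∧ ρn g 1 1 = 1}
      one_mem' := by simp
      mul_mem' := fun {a b} ⟨a1, a2, a3⟩ ⟨b1, b2, b3⟩ => by
        simp [Matrix.mul_apply, Fin.sum_univ_two, a1, a2, a3, b1, b2, b3]
      inv_mem' := fun {a} ⟨a1, a2, a3⟩ => by
        have e : ρn a⁻¹ * ρn a = 1 := by rw [← map_mul, inv_mul_cancel, map_one]
        have e00 := congrFun (congrFun e 0) 0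
        have e01 := congrFun (congrFun e 0) 1
        have e10 := congrFun (congrFun e 1) 0
        have e11 := congrFun (congrFun e 1) 1
        simp [Matrix.mul_apply, Fin.sum_univ_two, a1, a2, a3] at e00 e01 e10 e11
        refine ⟨e01, ?_, e11⟩
        linear_combination (ρn a⁻¹ 0 0) * e10 - (ρn a⁻¹ 1 0) * e00 }
  have h2 : (2 : ZMod p) ≠ 0 := fun e => by
    have : p ∣ 2 := (ZMod.natCast_eq_zero_iff 2 p).mp (by exact_mod_cast e)
    have := Nat.le_of_dvd two_pos this
    omega
  have h3 : (3 : ZMod p) ≠ 0 := fun e => by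
    have : p ∣ 3 := (ZMod.natCast_eq_zero_iff 3 p).mp (by exact_mod_cast e)
    have := Nat.le_of_dvd three_pos this
    omega
  -- the kernel of the second fills the determinant one part modulo `p`
  let K : Subgroup G := ρn.toHomUnits.ker
  have hK : ∀ {g}, g ∈ K ↔ ρn g = 1 := fun {g} =>
    ⟨fun h => congrArg Units.val (MonoidHom.mem_ker.mp h),
      fun h => MonoidHom.mem_ker.mpr (Units.ext h)⟩
  let S : Submonoid Mk := K.toSubmonoid.map ρ
  have hinv : ∀ (g : G) (A : Mk), ρ g * A = 1 → ρ g⁻¹ = A := fun g A h => by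
    calc ρ g⁻¹ = ρ g⁻¹ * (ρ g * A) := by rw [h, mul_one]
      _ = A := by rw [← mul_assoc, ← map_mul, inv_mul_cancel, map_one, one_mul]
  have hd2 : (!![2, 0; 0, 2⁻¹] : Mk).det = 1 := by simp [det_fin_two_of, h2]
  obtain ⟨x, hx, hx'⟩ := hbase !![2, 0; 0, 2⁻¹] 1 (by rw [hd2, det_one])
    (by rw [hd2]; exact one_ne_zero)
  obtain ⟨k, hkK, hk⟩ : ∃ k ∈ K, ρ k = !![2, 0; 0, 2⁻¹] := by
    refine ⟨x ^ p ^ n, hK.mpr ?_, ?_⟩
    · obtain ⟨X, hX⟩ := exists_eq_add (A := r' x) (B := 1)
        (hx'.trans (map_one (PadicInt.toZMod (p := p)).mapMatrix).symm)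
      have hpow : ∀ e : ℕ, ∃ Y : Mp, r' (x ^ p ^ e) = 1 + π ^ (e + 1) • Y := by
        intro e
        induction e with
        | zero => exact ⟨X, by rw [pow_zero, pow_one, zero_add, pow_one, hX]⟩
        | succ e ih =>
          obtain ⟨Y, hY⟩ := ih
          obtain ⟨Z, hZ⟩ := exists_pow_eq h5 (n := e + 1) (X := Y) (Or.inl (by omega)) 0
          rw [smul_zero, add_zero] at hZ
          exact ⟨Y + π • Z, by
            rw [pow_succ, pow_mul, map_pow, hY, hZ, smul_add, smul_smul, ← pow_succ,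
              add_assoc]⟩
      obtain ⟨Y, hY⟩ := hpow n
      show (r' (x ^ p ^ n)).map (PadicInt.toZModPow n) = 1
      rw [hY, pow_succ, mul_smul, map_toZModPow_add_smul]
      exact map_one (PadicInt.toZModPow (p := p) n).mapMatrix
    · have hd : ∀ m : ℕ, (!![2, 0; 0, 2⁻¹] : Mk) ^ m = !![2 ^ m, 0; 0, (2⁻¹) ^ m] := by
        intro m
        induction m with
        | zero => simp [one_fin_two]
        | succ m ih => simp [pow_succ, ih]
      have hpc : ∀ (m : ℕ) (a : ZMod p), a ^ p ^ m = a := by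
        intro m a
        induction m with
        | zero => simp
        | succ m ih => rw [pow_succ, pow_mul, ih, ZMod.pow_card]
      rw [map_pow, show ρ x = _ from hx, hd, hpc, hpc]
  have hki : ρ k⁻¹ = !![2⁻¹, 0; 0, 2] := hinv _ _ (by rw [hk]; simp [h2, one_fin_two])
  have hcomm : ∀ g : G, ρ (g * k * g⁻¹ * k⁻¹) ∈ S := fun g =>
    Submonoid.mem_map.mpr ⟨_, K.mul_mem ((MonoidHom.normal_ker _).conj_mem k hkK g) (K.inv_mem hkK),
      rfl⟩
  have hsurj : ∀ A : Mk, A.det ≠ 0 → ∃ g, ρ g = A := fun A hA => by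
    obtain ⟨g, hg, -⟩ := hbase A A rfl hA
    exact ⟨g, hg⟩
  have hSL : ∀ A : Mk, A.det = 1 → A ∈ S := fun A hA => by
    refine FA.Ribet.mem_of_elementary_field S (fun z => ?_) (fun z => ?_) hA
    · obtain ⟨g, hg⟩ := hsurj !![1, -z / 3; 0, 1] (by simp [det_fin_two])
      have hgi : ρ g⁻¹ = !![1, z / 3; 0, 1] := hinv _ _ (by
        rw [hg]; simp [one_fin_two]; ring)
      have h := hcomm g
      rw [map_mul, map_mul, map_mul, hg, hk, hgi, hki] at h
      convert h using 1
      ext i j; fin_cases i <;> fin_cases j <;> simp [Matrix.mul_apply, Fin.sum_univ_two, h2]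
      field_simp
      ring
    · obtain ⟨g, hg⟩ := hsurj !![1, 0; 4 * z / 3, 1] (by simp [det_fin_two])
      have hgi : ρ g⁻¹ = !![1, 0; -(4 * z / 3), 1] := hinv _ _ (by
        rw [hg]; simp [one_fin_two])
      have h := hcomm g
      rw [map_mul, map_mul, map_mul, hg, hk, hgi, hki] at h
      convert h using 1
      ext i j; fin_cases i <;> fin_cases j <;> simp [Matrix.mul_apply, Fin.sum_univ_two, h2]
      field_simp
      ring
  -- Serre's lifting lemma on `H`
  have hdiag : ∀ (m : ℕ) (u : ℤ_[p]), IsUnit u →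
      ∃ g ∈ H, ∃ y, (r g).det = u + π ^ m * y := fun m u hu => by
    obtain ⟨g, Y, hg⟩ := hreach (n + m) !![u, 0; 0, 1] (by simpa [det_fin_two_of] using hu)
    have e : ρn g = !![PadicInt.toZModPow n u, 0; 0, 1] := by
      show (r' g).map (PadicInt.toZModPow n) = _
      rw [hg, pow_add, mul_smul, map_toZModPow_add_smul]
      ext i j; fin_cases i <;> fin_cases j <;> simp
    refine ⟨g, ⟨by rw [e]; rfl, by rw [e]; rfl, by rw [e]; rfl⟩, ?_⟩
    refine ⟨π ^ n * (Y 0 0 + u * Y 1 1) +
      π ^ (2 * n + m) * (Y 0 0 * Y 1 1 - Y 0 1 * Y 1 0), ?_⟩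
    rw [hdet, hg]
    simp [det_fin_two]
    ring
  have hbaseH : ∀ A : Mk, A.det ≠ 0 → ∃ g : H, ((r.comp H.subtype) g).map PadicInt.toZMod = A := by
    intro A hA
    obtain ⟨g, hgH, y, hgd⟩ := hdiag 1 ((A.det.val : ℕ) : ℤ_[p]) (isUnit_iff_toZMod.mpr (by
      rw [map_natCast, ZMod.natCast_zmod_val]; exact hA))
    have hd : (ρ g).det = A.det := by
      show ((r g).map PadicInt.toZMod).det = _
      rw [← RingHom.mapMatrix_apply, ← RingHom.map_det, hgd]
      simp
    obtain ⟨k', hk', hk''⟩ := Submonoid.mem_map.mp (hSL (ρ g⁻¹ * A) (by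
      rw [det_mul, ← hd, ← det_mul, ← map_mul, inv_mul_cancel, map_one, det_one]))
    refine ⟨⟨g * k', mul_mem hgH ?_⟩, ?_⟩
    · have e := hK.mp hk'
      exact ⟨by rw [e]; rfl, by rw [e]; rfl, by rw [e]; rfl⟩
    · show ρ (g * k') = A
      rw [map_mul, hk'', ← mul_assoc, ← map_mul, mul_inv_cancel, map_one, one_mul]
  obtain ⟨g, Y, hg⟩ := reach_all (r := r.comp H.subtype) h5 hbaseH (fun m u hu => by
    obtain ⟨g, hgH, y, hgd⟩ := hdiag m u hu
    exact ⟨⟨g, hgH⟩, y, hgd⟩) n hM
  refine ⟨g.1, ⟨Y, hg⟩, exists_eq_add_pow ?_⟩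
  obtain ⟨h01, h10, h11⟩ := g.2
  have hd : (ρn g.1).det = PadicInt.toZModPow n M.det := by
    show ((r' g.1).map (PadicInt.toZModPow n)).det = _
    rw [← RingHom.mapMatrix_apply, ← RingHom.map_det, ← hdet, show r g.1 = _ from hg,
      RingHom.map_det, RingHom.map_det, RingHom.mapMatrix_apply, RingHom.mapMatrix_apply,
      map_toZModPow_add_smul]
  rw [det_fin_two, h01, h10, h11, mul_one, mul_zero, sub_zero] at hd
  show ρn g.1 = _
  ext i j
  fin_cases i <;> fin_cases j <;> simp [hd, h01, h10, h11]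

end FA.Independence.Padic

end
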