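import Fermat.Agent.Independence.Padic
import Fermat.Agent.Independence.PadicReach
import Fermat.Agent.Root.SummarySerreOpenImageAdelic

/-!
# One level for two curves and all `N`

Commutators of two elements of Galois, one with equal diagonal images on the two Tate modules and
one trivial on the second, raised to an exponent killing the torsion at other primes, give all
elementary matrices of a congruence subgroup on the first Tate module with trivial image on the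
second. So the levels of the pair at the small primes and the full pairs at the large primes glue.
-/

set_option autoImplicit false
set_option linter.unusedSectionVars false
set_option linter.style.haveILetI false

noncomputable section

open Matrix WeierstrassCurve FA.EC FA.Frob FA.RT FA.RT.Tate FA.PadicImage
open FA.TW (rootsFix mem_rootsFix commutator_mem_rootsFix)
open FA.OpenImage (lowPrimes mem_lowPrimes)
open FA.OpenImageAll (SurjectiveLarge)
open scoped WeierstrassCurve.Affine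

local notation "Qb" => AlgebraicClosure ℚ
local notation "GQ" => AlgebraicClosure ℚ ≃ₐ[ℚ] AlgebraicClosure ℚ

namespace FA.Independence.Adelic

/-- What fixes the torsion and roots of unity at given primes on both curves. -/
def fixerPair (W W' : WeierstrassCurve ℤ) [(ratCurve W).IsElliptic] [(ratCurve W').IsElliptic]
    (f : ℕ → ℕ) (S T : Finset ℕ) : Submonoid GQ :=
  fixer W f S T ⊓ fixer W' f S T

variable {W W' : WeierstrassCurve ℤ} [(ratCurve W).IsElliptic] [(ratCurve W').IsElliptic]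

theorem fixerPair_comm (f : ℕ → ℕ) (S T : Finset ℕ) :
    fixerPair W W' f S T = fixerPair W' W f S T :=
  inf_comm _ _

variable {p : ℕ} [hp : Fact p.Prime]

local notation "Mp" => Matrix (Fin 2) (Fin 2) ℤ_[p]
local notation "π" => (p : ℤ_[p])

variable (B : TateBasis p W) (B' : TateBasis p W')

/-- The action of a power. -/
theorem acts_pow {n : ℕ} {g : GQ} {M : Mp} (h : Acts B n g M) :
    ∀ k : ℕ, Acts B n (g ^ k) (M ^ k)
  | 0 => fun v => by rw [pow_zero, pow_zero, one_smul, one_mulVec]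
  | k + 1 => by rw [pow_succ, pow_succ]; exact (acts_pow h k).mul h

/-- **Elementary matrices on one module, trivial on the other**, from commutators. -/
theorem exists_elementary {f : ℕ → ℕ} {S T : Finset ℕ} {m : ℕ} {s t C : ℤ_[p]}
    (hm : ∀ a e : GQ, (a * e * a⁻¹ * e⁻¹) ^ m ∈ fixerPair W W' f S T)
    (hlift : ∀ z : ℤ_[p], ∃ (j : ℕ) (y : ℤ_[p]), ((m * j : ℕ) : ℤ_[p]) = C * z + π ^ f p * y)
    (hs : IsUnit (1 + s))
    (hd : ∃ d, Acts B (f p) d !![1 + s, 0; 0, 1] ∧ Acts B' (f p) d !![1 + s, 0; 0, 1])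
    (hU : ∃ h, Acts B (f p) h !![1, t; 0, 1] ∧ Acts B' (f p) h 1)
    (hL : ∃ h, Acts B (f p) h !![1, 0; t, 1] ∧ Acts B' (f p) h 1) (z : ℤ_[p]) :
    (∃ τ ∈ fixerPair W W' f S T,
      Acts B (f p) τ !![1, s * t * C * z; 0, 1] ∧ Acts B' (f p) τ 1) ∧
    ∃ τ ∈ fixerPair W W' f S T,
      Acts B (f p) τ !![1, 0; s * t * C * z, 1] ∧ Acts B' (f p) τ 1 := by
  obtain ⟨v, hv⟩ := hs.exists_right_inv
  obtain ⟨d, hdB, hdB'⟩ := hd
  have hDv : (!![1 + s, 0; 0, 1] : Mp) * !![v, 0; 0, 1] = 1 := by simp [one_fin_two, hv]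
  have key : ∀ {h : GQ} {M N E : Mp}, Acts B (f p) h M → Acts B' (f p) h 1 → M * N = 1 →
      !![1 + s, 0; 0, 1] * M * !![v, 0; 0, 1] * N = 1 + E → E * E = 0 → ∀ z : ℤ_[p],
      ∃ τ ∈ fixerPair W W' f S T,
        Acts B (f p) τ (1 + (C * z) • E) ∧ Acts B' (f p) τ 1 := by
    intro h M N E hB hB' hMN hE hsq z
    have hc : Acts B (f p) (d * h * d⁻¹ * h⁻¹) (1 + E) :=
      hE ▸ ((hdB.mul hB).mul (hdB.inv hDv)).mul (hB.inv hMN)
    have hc' : Acts B' (f p) (d * h * d⁻¹ * h⁻¹) 1 := by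
      have := ((hdB'.mul hB').mul (hdB'.inv hDv)).mul (hB'.inv (one_mul 1))
      simpa [hDv] using this
    obtain ⟨j, y, hy⟩ := hlift z
    refine ⟨((d * h * d⁻¹ * h⁻¹) ^ m) ^ j, pow_mem (hm d h) j, ?_, ?_⟩
    · rw [← pow_mul]
      refine (acts_pow B hc (m * j)).congr ⟨y • E, ?_⟩
      rw [pow_eq_of_sq_eq_zero (by rw [add_sub_cancel_left, hsq]), add_sub_cancel_left, hy,
        add_smul, smul_smul, add_assoc]
    · rw [← pow_mul]
      simpa using acts_pow B' hc' (m * j)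
  constructor
  · obtain ⟨h, hB, hB'⟩ := hU
    obtain ⟨τ, hτ, h1, h2⟩ := key (E := !![0, s * t; 0, 0]) (N := !![1, -t; 0, 1]) hB hB'
      (by simp [one_fin_two]) (by
        ext i j; fin_cases i <;> fin_cases j <;> simp [Matrix.mul_apply, Fin.sum_univ_two, hv]
        ring)
      (by ext i j; fin_cases i <;> fin_cases j <;> simp [Matrix.mul_apply, Fin.sum_univ_two]) z
    refine ⟨τ, hτ, ?_, h2⟩
    convert h1 using 1
    ext i j; fin_cases i <;> fin_cases j <;> simp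
    ring
  · obtain ⟨h, hB, hB'⟩ := hL
    obtain ⟨τ, hτ, h1, h2⟩ := key (E := !![0, 0; -(s * v * t), 0]) (N := !![1, 0; -t, 1]) hB hB'
      (by simp [one_fin_two]) (by
        ext i j; fin_cases i <;> fin_cases j <;> simp [Matrix.mul_apply, Fin.sum_univ_two, hv]
        linear_combination t * hv)
      (by ext i j; fin_cases i <;> fin_cases j <;> simp [Matrix.mul_apply, Fin.sum_univ_two])
      (-((1 + s) * z))
    refine ⟨τ, hτ, ?_, h2⟩
    convert h1 using 1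
    ext i j; fin_cases i <;> fin_cases j <;> simp
    linear_combination -(s * t * C * z) * hv

/-- The matrices reached by the fixer on the first module, trivially on the second. -/
def reached (f : ℕ → ℕ) (S T : Finset ℕ) : Submonoid Mp where
  carrier := {X | ∃ τ ∈ fixerPair W W' f S T, Acts B (f p) τ X ∧ Acts B' (f p) τ 1}
  one_mem' := ⟨1, one_mem _, fun v => by rw [one_smul, one_mulVec],
    fun v => by rw [one_smul, one_mulVec]⟩
  mul_mem' := fun ⟨a, ha, a1, a2⟩ ⟨e, he, e1, e2⟩ =>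
    ⟨a * e, mul_mem ha he, a1.mul e1, by simpa using a2.mul e2⟩

/-- A matrix with determinant congruent to one is congruent to one of determinant one. -/
theorem exists_det_one_congr {n : ℕ} (hn : 0 < n) {X : Mp} {y : ℤ_[p]}
    (hd : X.det = 1 + π ^ n * y) : ∃ X₁ : Mp, X₁.det = 1 ∧ ∃ Y, X₁ = X + π ^ n • Y := by
  obtain ⟨v, hv⟩ : ∃ v, v * X.det = 1 := (isUnit_iff_toZMod.mpr (by
    rw [hd, map_add, map_one, map_mul, map_pow, map_natCast, ZMod.natCast_self,
      zero_pow hn.ne', zero_mul, add_zero]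
    exact one_ne_zero)).exists_left_inv
  refine ⟨X * !![v, 0; 0, 1], ?_, X * !![-(v * y), 0; 0, 0], ?_⟩
  · rw [det_mul, det_fin_two_of, mul_one, mul_zero, sub_zero, mul_comm]; exact hv
  · rw [← Algebra.mul_smul_comm]
    conv_rhs => arg 1; rw [← mul_one X]
    rw [← mul_add]
    congr 1
    ext i j
    fin_cases i <;> fin_cases j <;> simp
    linear_combination hv - v * hd

/-- At a small prime: determinant one congruent to one, on one module. -/
theorem mem_reached_low {L k c : ℕ} {C : ℤ_[p]}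
    (hC : C = ((∏ l ∈ lowPrimes L, Nat.card (GL (Fin 2) (ZMod l)) : ℕ) : ℤ_[p]))
    (hk0 : 0 < k) (hc : π * ((π ^ (k + k) * C) * (π ^ (k + k) * C)) ∣ π ^ c)
    (hk : ∀ Y Y' : Mp, (1 + π ^ k • Y).det = (1 + π ^ k • Y').det →
      ∃ σ, B.rep σ = 1 + π ^ k • Y ∧ B'.rep σ = 1 + π ^ k • Y')
    (f : ℕ → ℕ) {S T : Finset ℕ} (hS : S ⊆ lowPrimes L) (hpS : p ∉ S) (hT : ∀ l ∈ T, l.Prime)
    {X : Mp} (hX : X.det = 1) (hX1 : ∃ Z, X = 1 + π ^ c • Z) : X ∈ reached B B' f S T := by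
  classical
  let cd : ℕ → ℕ := fun l => Nat.card (GL (Fin 2) (ZMod l))
  obtain ⟨m, hm⟩ : ∃ m, ∏ l ∈ S, cd l * l ^ f l = m := ⟨_, rfl⟩
  have hpow : ∀ a e : GQ, (a * e * a⁻¹ * e⁻¹) ^ m ∈ fixerPair W W' f S T := by
    intro a e
    have hr : ∀ l ∈ T, (a * e * a⁻¹ * e⁻¹) ^ m ∈ rootsFix l (f l) := fun l hl =>
      pow_mem (commutator_mem_rootsFix (hT l hl) (f l) a e) m
    refine ⟨⟨hr, fun l hl x hx => ?_⟩, ⟨hr, fun l hl x hx => ?_⟩⟩ <;>
    · have := Fact.mk (mem_lowPrimes.mp (hS hl)).1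
      obtain ⟨d, hd⟩ := hm ▸ Finset.dvd_prod_of_mem (fun l => cd l * l ^ f l) hl
      rw [hd, mul_comm, pow_mul]
      exact pow_card_smul _ hx
  obtain ⟨u, hu⟩ : ∃ u, u * ((∏ l ∈ S, l ^ f l : ℕ) : ℤ_[p]) = 1 := (isUnit_iff_toZMod.mpr (by
    rw [map_natCast, Ne, ZMod.natCast_eq_zero_iff, Prime.dvd_finsetProd_iff hp.out.prime]
    rintro ⟨l, hl, hd⟩
    exact hpS (((Nat.prime_dvd_prime_iff_eq hp.out (mem_lowPrimes.mp (hS hl)).1).mp
      (hp.out.dvd_of_dvd_pow hd)) ▸ hl))).exists_left_inv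
  have hlift : ∀ z : ℤ_[p], ∃ (j : ℕ) (y : ℤ_[p]),
      ((m * j : ℕ) : ℤ_[p]) = C * z + π ^ f p * y := fun z => by
    obtain ⟨w, hw⟩ : ∃ w, ((∏ l ∈ lowPrimes L \ S, cd l : ℕ) : ℤ_[p]) * z * u = w := ⟨_, rfl⟩
    have : NeZero (p ^ f p) := ⟨pow_ne_zero _ hp.out.ne_zero⟩
    obtain ⟨y, hy⟩ := (toZModPow_eq_iff (n := f p)
      (x := ((PadicInt.toZModPow (f p) w).val : ℤ_[p])) (y := w)).mp
      (by rw [map_natCast, ZMod.natCast_zmod_val])
    refine ⟨(PadicInt.toZModPow (f p) w).val, (m : ℤ_[p]) * y, ?_⟩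
    rw [Nat.cast_mul, hy, ← hw, hC, ← Finset.prod_sdiff hS, ← hm, Finset.prod_mul_distrib]
    push_cast at hu ⊢
    linear_combination (∏ l ∈ lowPrimes L \ S, (cd l : ℤ_[p])) *
      (∏ l ∈ S, (cd l : ℤ_[p])) * z * hu
  have hunit : IsUnit (1 + π ^ k) := isUnit_iff_toZMod.mpr (by
    rw [map_add, map_one, map_pow, map_natCast, ZMod.natCast_self, zero_pow hk0.ne', add_zero]
    exact one_ne_zero)
  have hget : ∀ (Y Y' P P' : Mp), (1 + π ^ k • Y).det = (1 + π ^ k • Y').det →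
      1 + π ^ k • Y = P → 1 + π ^ k • Y' = P' →
      ∃ g, Acts B (f p) g P ∧ Acts B' (f p) g P' := fun Y Y' P P' hd hP hP' => by
    obtain ⟨g, hg, hg'⟩ := hk Y Y' hd
    exact ⟨g, fun v => by rw [B.rep_spec, hg, hP], fun v => by rw [B'.rep_spec, hg', hP']⟩
  have hel := exists_elementary B B' hpow hlift hunit
    (hget !![1, 0; 0, 0] !![1, 0; 0, 0] _ _ rfl
      (by ext i j; fin_cases i <;> fin_cases j <;> simp)
      (by ext i j; fin_cases i <;> fin_cases j <;> simp))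
    (hget !![0, 1; 0, 0] 0 !![1, π ^ k; 0, 1] 1 (by simp [det_fin_two])
      (by ext i j; fin_cases i <;> fin_cases j <;> simp) (by simp))
    (hget !![0, 0; 1, 0] 0 !![1, 0; π ^ k, 1] 1 (by simp [det_fin_two])
      (by ext i j; fin_cases i <;> fin_cases j <;> simp) (by simp))
  obtain ⟨r, hr⟩ := hc
  obtain ⟨Z, rfl⟩ := hX1
  rw [hr, mul_smul] at hX ⊢
  exact mem_of_elementary_congr (reached B B' f S T) _
    (fun z => by
      obtain ⟨τ, hτ, h⟩ := (hel z).1
      rw [← pow_add] at h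
      exact ⟨τ, hτ, h⟩)
    (fun z => by
      obtain ⟨τ, hτ, h⟩ := (hel z).2
      rw [← pow_add] at h
      exact ⟨τ, hτ, h⟩) hX

variable (W W' p) in
/-- Pairs congruent to one modulo `p ^ c` with determinants congruent to one modulo `p ^ f p` come
from elements fixing the torsion at the other small primes on both curves. -/
def IndepPair (L c : ℕ) : Prop :=
  ∃ (B : TateBasis p W) (B' : TateBasis p W'), ∀ (f : ℕ → ℕ) (S T : Finset ℕ),
    S ⊆ lowPrimes L → p ∉ S → (∀ l ∈ T, l.Prime) → ∀ X X' : Mp,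
      (∃ y, X.det = 1 + π ^ f p * y) → (∃ y, X'.det = 1 + π ^ f p * y) →
      (∃ Z, X = 1 + π ^ min c (f p) • Z) → (∃ Z, X' = 1 + π ^ min c (f p) • Z) →
      ∃ τ ∈ fixerPair W W' f S T, Acts B (f p) τ X ∧ Acts B' (f p) τ X'

/-- **Independence of the pair at a small prime.** -/
theorem exists_indepPair (L : ℕ) {k : ℕ} (hk0 : 0 < k)
    (hk : ∀ Y Y' : Mp, (1 + π ^ k • Y).det = (1 + π ^ k • Y').det →
      ∃ σ, B.rep σ = 1 + π ^ k • Y ∧ B'.rep σ = 1 + π ^ k • Y') :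
    ∃ c : ℕ, IndepPair W W' p L c := by
  classical
  obtain ⟨C, hC⟩ : ∃ C : ℤ_[p],
      C = ((∏ l ∈ lowPrimes L, Nat.card (GL (Fin 2) (ZMod l)) : ℕ) : ℤ_[p]) := ⟨_, rfl⟩
  have hC0 : C ≠ 0 := hC ▸ Nat.cast_ne_zero.mpr (Finset.prod_ne_zero_iff.mpr fun l hl => by
    have := Fact.mk (mem_lowPrimes.mp hl).1
    exact Nat.card_pos.ne')
  have hπ : π ≠ 0 := Nat.cast_ne_zero.mpr hp.out.ne_zero
  obtain ⟨c, hc⟩ := exists_dvd_prime_pow (mul_ne_zero hπ
    (mul_self_ne_zero.mpr (mul_ne_zero (pow_ne_zero (k + k) hπ) hC0)))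
  refine ⟨c, B, B', fun f S T hS hpS hT X X' ⟨y, hy⟩ ⟨y', hy'⟩ ⟨Z, hZ⟩ ⟨Z', hZ'⟩ => ?_⟩
  rcases le_or_gt (f p) c with hfc | hcf
  · rw [min_eq_right hfc] at hZ hZ'
    refine ⟨1, one_mem _, Acts.congr (M := 1) (fun v => by rw [one_smul, one_mulVec]) ⟨-Z, ?_⟩,
      Acts.congr (M := 1) (fun v => by rw [one_smul, one_mulVec]) ⟨-Z', ?_⟩⟩
    · rw [hZ, smul_neg, add_neg_cancel_right]
    · rw [hZ', smul_neg, add_neg_cancel_right]
  rw [min_eq_left hcf.le] at hZ hZ'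
  obtain ⟨j, hj⟩ := Nat.le.dest hcf.le
  obtain ⟨X₁, hX₁, Y, hY⟩ := exists_det_one_congr (by omega) hy
  obtain ⟨X₁', hX₁', Y', hY'⟩ := exists_det_one_congr (by omega) hy'
  obtain ⟨τ, hτ, h1, h2⟩ := mem_reached_low B B' hC hk0 hc hk f hS hpS hT hX₁
    ⟨Z + π ^ j • Y, by rw [hY, hZ, ← hj, pow_add, mul_smul, smul_add, add_assoc]⟩
  obtain ⟨τ', hτ', h1', h2'⟩ := mem_reached_low B' B hC hk0 hc
    (fun Y Y' hd => (hk Y' Y hd.symm).imp fun σ h => ⟨h.2, h.1⟩) f hS hpS hT hX₁'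
    ⟨Z' + π ^ j • Y', by rw [hY', hZ', ← hj, pow_add, mul_smul, smul_add, add_assoc]⟩
  exact ⟨τ * τ', mul_mem hτ ((fixerPair_comm (W := W') (W' := W) f S T) ▸ hτ'),
    Acts.congr (h1.mul h2') ⟨Y, by rw [mul_one, hY]⟩,
    Acts.congr (h2.mul h1') ⟨Y', by rw [one_mul, hY']⟩⟩

/-- At an odd prime: determinant one, on one module. -/
theorem mem_reached_high (h3 : 3 ≤ p)
    (hreach : ∀ (n : ℕ) (M : Mp), IsUnit M.det →
      ∃ g, (∃ Y, B.rep g = M + π ^ n • Y) ∧ ∃ Y, B'.rep g = !![M.det, 0; 0, 1] + π ^ n • Y)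
    (f : ℕ → ℕ) {S T : Finset ℕ} (hS : ∀ l ∈ S, l.Prime ∧ l + 1 < p) (hT : ∀ l ∈ T, l.Prime)
    {X : Mp} (hX : X.det = 1) : X ∈ reached B B' f S T := by
  classical
  obtain ⟨m, hm, hfix⟩ : ∃ m : ℕ, ¬ p ∣ m ∧ ∀ l ∈ S, ∀ (h : GQ),
      (∀ x : Pts W, l ^ f l • x = 0 → h ^ m • x = x) ∧
        ∀ x : Pts W', l ^ f l • x = 0 → h ^ m • x = x := by
    clear hT
    induction S using Finset.induction_on with
    | empty => exact ⟨1, hp.out.not_dvd_one, fun l hl => absurd hl (Finset.notMem_empty l)⟩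
    | insert a s has ih =>
      obtain ⟨m, hm, h⟩ := ih fun l hl => hS l (Finset.mem_insert_of_mem hl)
      obtain ⟨ha1, ha2⟩ := hS a (Finset.mem_insert_self a s)
      obtain ⟨i, hi, h₁⟩ := exists_pow_fix (W := W) hp.out ha1 ha2 (f a)
      obtain ⟨i', hi', h₂⟩ := exists_pow_fix (W := W') hp.out ha1 ha2 (f a)
      refine ⟨m * (i * i'), fun hd => (hp.out.dvd_mul.mp hd).elim hm fun hd =>
        (hp.out.dvd_mul.mp hd).elim hi hi', fun l hl u => ?_⟩
      rcases Finset.mem_insert.mp hl with rfl | hl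
      · refine ⟨fun x hx => ?_, fun x hx => ?_⟩
        · rw [show m * (i * i') = (m * i') * i by ring, pow_mul]; exact h₁ _ x hx
        · rw [← mul_assoc, pow_mul]; exact h₂ _ x hx
      · refine ⟨fun x hx => ?_, fun x hx => ?_⟩
        · rw [mul_comm, pow_mul]; exact (h l hl _).1 x hx
        · rw [mul_comm, pow_mul]; exact (h l hl _).2 x hx
  have hpow : ∀ a e : GQ, (a * e * a⁻¹ * e⁻¹) ^ m ∈ fixerPair W W' f S T := fun a e =>
    ⟨⟨fun l hl => pow_mem (commutator_mem_rootsFix (hT l hl) (f l) a e) m,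
        fun l hl => (hfix l hl _).1⟩,
      ⟨fun l hl => pow_mem (commutator_mem_rootsFix (hT l hl) (f l) a e) m,
        fun l hl => (hfix l hl _).2⟩⟩
  obtain ⟨m', hm'⟩ : ∃ c, c * (m : ℤ_[p]) = 1 := (isUnit_iff_toZMod.mpr (by
    rw [map_natCast, Ne, ZMod.natCast_eq_zero_iff]; exact hm)).exists_left_inv
  have : NeZero (p ^ f p) := ⟨pow_ne_zero _ hp.out.ne_zero⟩
  have hlift : ∀ z : ℤ_[p], ∃ (j : ℕ) (y : ℤ_[p]),
      ((m * j : ℕ) : ℤ_[p]) = 1 * z + π ^ f p * y := fun z => by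
    obtain ⟨y, hy⟩ := (toZModPow_eq_iff (n := f p)
      (x := ((PadicInt.toZModPow (f p) (z * m')).val : ℤ_[p])) (y := z * m')).mp
      (by rw [map_natCast, ZMod.natCast_zmod_val])
    refine ⟨(PadicInt.toZModPow (f p) (z * m')).val, (m : ℤ_[p]) * y, ?_⟩
    rw [Nat.cast_mul, hy]
    linear_combination z * hm'
  have hget : ∀ M P' : Mp, IsUnit M.det → !![M.det, 0; 0, 1] = P' →
      ∃ g, Acts B (f p) g M ∧ Acts B' (f p) g P' := fun M P' hM hP' => by
    obtain ⟨g, hg, hg'⟩ := hreach (f p) M hM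
    exact ⟨g, Acts.congr (fun v => B.rep_spec g _ v) hg,
      hP' ▸ Acts.congr (fun v => B'.rep_spec g _ v) hg'⟩
  have h2 : IsUnit (1 + 1 : ℤ_[p]) := isUnit_iff_toZMod.mpr (by
    rw [map_add, map_one, one_add_one_eq_two]
    intro e
    have := Nat.le_of_dvd two_pos ((ZMod.natCast_eq_zero_iff 2 p).mp (by exact_mod_cast e))
    omega)
  have hel := exists_elementary B B' hpow hlift h2
    (hget !![1 + 1, 0; 0, 1] _ (by simpa [det_fin_two_of] using h2) (by simp [det_fin_two_of]))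
    (hget !![1, 1; 0, 1] 1 (by simp [det_fin_two_of]) (by simp [det_fin_two_of, one_fin_two]))
    (hget !![1, 0; 1, 1] 1 (by simp [det_fin_two_of]) (by simp [det_fin_two_of, one_fin_two]))
  exact mem_of_elementary_local (reached B B' f S T)
    (fun z => by
      obtain ⟨τ, hτ, h⟩ := (hel z).1
      exact ⟨τ, hτ, by simpa using h⟩)
    (fun z => by
      obtain ⟨τ, hτ, h⟩ := (hel z).2
      exact ⟨τ, hτ, by simpa using h⟩) hX

/-- **Independence of the pair at an odd prime.** -/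
theorem exists_mem_fixerPair (h3 : 3 ≤ p)
    (hreach : ∀ (n : ℕ) (M : Mp), IsUnit M.det →
      ∃ g, (∃ Y, B.rep g = M + π ^ n • Y) ∧ ∃ Y, B'.rep g = !![M.det, 0; 0, 1] + π ^ n • Y)
    (hreach' : ∀ (n : ℕ) (M : Mp), IsUnit M.det →
      ∃ g, (∃ Y, B'.rep g = M + π ^ n • Y) ∧ ∃ Y, B.rep g = !![M.det, 0; 0, 1] + π ^ n • Y)
    (f : ℕ → ℕ) {S T : Finset ℕ} (hS : ∀ l ∈ S, l.Prime ∧ l + 1 < p) (hT : ∀ l ∈ T, l.Prime)
    (X X' : Mp) (hX : ∃ y, X.det = 1 + π ^ f p * y) (hX' : ∃ y, X'.det = 1 + π ^ f p * y) :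
    ∃ τ ∈ fixerPair W W' f S T, Acts B (f p) τ X ∧ Acts B' (f p) τ X' := by
  rcases Nat.eq_zero_or_pos (f p) with h0 | hpos
  · refine ⟨1, one_mem _, ?_, ?_⟩ <;> intro v <;> rw [h0] <;>
      simp [one_smul, TateBasis.phi_zero_level]
  obtain ⟨y, hy⟩ := hX
  obtain ⟨y', hy'⟩ := hX'
  obtain ⟨X₁, hX₁, Y, hY⟩ := exists_det_one_congr hpos hy
  obtain ⟨X₁', hX₁', Y', hY'⟩ := exists_det_one_congr hpos hy'
  obtain ⟨τ, hτ, h1, h2⟩ := mem_reached_high B B' h3 hreach f hS hT hX₁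
  obtain ⟨τ', hτ', h1', h2'⟩ := mem_reached_high B' B h3 hreach' f hS hT hX₁'
  exact ⟨τ * τ', mul_mem hτ ((fixerPair_comm (W := W') (W' := W) f S T) ▸ hτ'),
    Acts.congr (h1.mul h2') ⟨Y, by rw [mul_one, hY]⟩,
    Acts.congr (h2.mul h1') ⟨Y', by rw [one_mul, hY']⟩⟩

/-- **A matrix over `ℤ / N` in the coordinates of a Tate module.** -/
theorem exists_local_matrix {N : ℕ} [NeZero N]
    (e : Submodule.torsionBy ℤ (Pts W) (N : ℤ) ≃+ (Fin 2 → ZMod N)) {n : ℕ} (hn : p ^ n ∣ N)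
    (A : Matrix (Fin 2) (Fin 2) (ZMod N)) :
    ∃ M : Mp, PadicInt.toZModPow n M.det = ZMod.castHom hn (ZMod (p ^ n)) A.det ∧
      (∀ c, c ≤ n → A.map (fun x => (x.val : ZMod (p ^ c))) = 1 → ∃ Z, M = 1 + π ^ c • Z) ∧
      ∀ x : Submodule.torsionBy ℤ (Pts W) (N : ℤ), p ^ n • x.1 = 0 →
        ∀ σ : GQ, Acts B n σ M → σ • x.1 = (e.symm (A *ᵥ e x)).1 := by
  haveI : NeZero (p ^ n) := ⟨pow_ne_zero _ hp.out.ne_zero⟩
  obtain ⟨q, hq⟩ := hn
  have hq0 : q ≠ 0 := fun h => NeZero.ne N (by rw [hq, h, mul_zero])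
  set ρ := ZMod.castHom (Dvd.intro q hq.symm) (ZMod (p ^ n)) with hρ
  set red := PadicInt.toZModPow (p := p) n
  -- multiplication by `q`
  have hw0 : ∀ u : ZMod N, ((q : ZMod N)) * ((ρ u).val : ZMod N) = (q : ZMod N) * u := fun u => by
    obtain ⟨a, rfl⟩ : ∃ a : ℕ, (a : ZMod N) = u := ⟨_, ZMod.natCast_zmod_val u⟩
    rw [map_natCast, ZMod.val_natCast, ← Nat.cast_mul, ← Nat.cast_mul,
      ZMod.natCast_eq_natCast_iff, hq, mul_comm (p ^ n)]
    exact Nat.ModEq.mul_left' q (Nat.mod_modEq _ _)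
  let w : (Fin 2 → ZMod (p ^ n)) →+ (Fin 2 → ZMod N) :=
    AddMonoidHom.mk' (fun v i => (q : ZMod N) * ((v i).val : ZMod N)) fun u v => funext fun i => by
      have h := hw0 (((u i).val : ZMod N) + ((v i).val : ZMod N))
      rw [map_add, map_natCast, map_natCast, ZMod.natCast_zmod_val, ZMod.natCast_zmod_val] at h
      simp only [Pi.add_apply, h, mul_add]
  have hwA : ∀ v, A *ᵥ w v = w (A.map ρ *ᵥ v) := fun v => funext fun i => by
    have h := hw0 (∑ j, A i j * ((v j).val : ZMod N))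
    simp only [map_sum, map_mul, map_natCast, ZMod.natCast_zmod_val] at h
    show ∑ j, A i j * ((q : ZMod N) * ((v j).val : ZMod N)) =
      (q : ZMod N) * ((∑ j, ρ (A i j) * v j).val : ZMod N)
    rw [h, Finset.mul_sum]
    exact Finset.sum_congr rfl fun j _ => by ring
  have hwinj : ∀ v, w v = 0 → v = 0 := fun v hv => funext fun i => by
    have h : ((q * (v i).val : ℕ) : ZMod N) = 0 := by
      rw [Nat.cast_mul]; exact congrFun hv i
    rw [ZMod.natCast_eq_zero_iff, hq, mul_comm (p ^ n),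
      Nat.mul_dvd_mul_iff_left (Nat.pos_of_ne_zero hq0)] at h
    exact (ZMod.val_eq_zero _).mp (Nat.eq_zero_of_dvd_of_lt h (ZMod.val_lt _))
  have hwsurj : ∀ u : Fin 2 → ZMod N, p ^ n • u = 0 → ∃ v, w v = u := fun u hu => by
    refine ⟨fun i => (((u i).val / q : ℕ) : ZMod (p ^ n)), funext fun i => ?_⟩
    have h : ((p ^ n * (u i).val : ℕ) : ZMod N) = 0 := by
      rw [Nat.cast_mul, ZMod.natCast_zmod_val, ← nsmul_eq_mul]; exact congrFun hu i
    replace h : q ∣ (u i).val := Nat.dvd_of_mul_dvd_mul_left (pow_pos hp.out.pos n)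
      ((dvd_of_eq hq.symm).trans ((ZMod.natCast_eq_zero_iff _ _).mp h))
    show (q : ZMod N) * ((((u i).val / q : ℕ) : ZMod (p ^ n)).val : ZMod N) = u i
    rw [← map_natCast ρ, hw0, ← Nat.cast_mul, Nat.mul_div_cancel' h, ZMod.natCast_zmod_val]
  -- the change of coordinates
  have hmem : ∀ v, p ^ n • (e.symm (w v)).1 = 0 := fun v => by
    rw [← Submodule.coe_smul_of_tower, ← map_nsmul, ← map_nsmul,
      show p ^ n • v = 0 from funext fun i => by simp, map_zero, map_zero,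
      Submodule.coe_zero]
  choose col hcol using fun j => B.surj n _ (hmem (Pi.single j 1))
  let P : Mp := Matrix.of fun i j => col j i
  have hP : ∀ V : Fin 2 → ℤ_[p], B.φ n (P *ᵥ V) = (e.symm (w (red ∘ V))).1 := by
    intro V
    let k : Fin 2 → ℕ := fun i => (red (V i)).val
    have hV : B.φ n (P *ᵥ V) = B.φ n (P *ᵥ fun i => (k i : ℤ_[p])) :=
      B.phi_mulVec_congr P (B.phi_eq_iff.mpr fun i => by
        rw [map_natCast, ZMod.natCast_zmod_val])
    have hv : red ∘ V = k 0 • Pi.single 0 1 + k 1 • Pi.single 1 1 := by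
      funext i
      fin_cases i <;> simp [k, nsmul_eq_mul, -ZMod.natCast_val] <;>
        exact (ZMod.natCast_zmod_val _).symm
    have hv' : (fun i => (k i : ℤ_[p])) = k 0 • Pi.single 0 1 + k 1 • Pi.single 1 1 := by
      funext i
      fin_cases i <;> simp [nsmul_eq_mul]
    rw [hV, hv', hv, mulVec_add, mulVec_smul, mulVec_smul, mulVec_single_one, mulVec_single_one,
      map_add, map_nsmul, map_nsmul, map_add w, map_nsmul w, map_nsmul w, map_add e.symm,
      map_nsmul e.symm, map_nsmul e.symm, Submodule.coe_add, Submodule.coe_smul_of_tower,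
      Submodule.coe_smul_of_tower]
    rw [← hcol 0, ← hcol 1]
    rfl
  have hlift : ∀ v : Fin 2 → ZMod (p ^ n), red ∘ (fun i => ((v i).val : ℤ_[p])) = v := fun v =>
    funext fun i => by rw [Function.comp_apply, map_natCast, ZMod.natCast_zmod_val]
  have hPu : IsUnit (P.map red) := by
    refine Matrix.mulVec_surjective_iff_isUnit.mp (Finite.surjective_of_injective fun u v huv => ?_)
    rw [← sub_eq_zero]
    refine hwinj _ (e.symm.injective (Subtype.ext ?_))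
    rw [map_zero, Submodule.coe_zero, ← hlift (u - v), ← hP, B.ker]
    intro i
    rw [RingHom.map_mulVec, hlift, mulVec_sub, huv, sub_self, Pi.zero_apply]
  obtain ⟨Pu, hPu'⟩ := hPu
  set M₀ : Matrix (Fin 2) (Fin 2) (ZMod (p ^ n)) :=
    (Pu : Matrix _ _ _) * A.map ρ * ((Pu⁻¹ : (Matrix (Fin 2) (Fin 2) (ZMod (p ^ n)))ˣ) :
      Matrix _ _ _) with hM₀
  let M : Mp := Matrix.of fun i j => ((M₀ i j).val : ℤ_[p])
  have hM : M.map red = M₀ := Matrix.ext fun i j => by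
    show red ((M₀ i j).val : ℤ_[p]) = _
    rw [map_natCast, ZMod.natCast_zmod_val]
  refine ⟨M, ?_, fun c hcn hA => ?_, fun x hx σ hσ => ?_⟩
  · rw [RingHom.map_det, RingHom.mapMatrix_apply, hM, hM₀, det_units_conj,
      ← RingHom.mapMatrix_apply, ← RingHom.map_det]
  · refine exists_eq_one_add_of_map (Matrix.ext fun i j => ?_)
    have hdvd : (p : ℕ) ^ c ∣ p ^ n := pow_dvd_pow p hcn
    have hA' : (A.map ρ).map (ZMod.castHom hdvd (ZMod (p ^ c))) = 1 := by
      rw [Matrix.map_map, ← hA]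
      ext a b
      show ZMod.castHom hdvd _ (ρ (A a b)) = (((A a b).val : ℕ) : ZMod (p ^ c))
      conv_lhs => rw [← ZMod.natCast_zmod_val (A a b), map_natCast, map_natCast]
    have h1 : M₀.map (ZMod.castHom hdvd (ZMod (p ^ c))) = 1 := by
      rw [hM₀, Matrix.map_mul, Matrix.map_mul, hA', mul_one, ← Matrix.map_mul, Units.mul_inv]
      exact map_one (ZMod.castHom hdvd (ZMod (p ^ c))).mapMatrix
    rw [← hM] at h1
    have h2 := congrFun (congrFun h1 i) j
    rw [Matrix.map_apply, Matrix.map_apply] at h2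
    rw [Matrix.map_apply, ← h2]
    exact (PadicInt.cast_toZModPow c n hcn (M i j)).symm
  · obtain ⟨v, hv⟩ := hwsurj (e x) (by
      rw [← map_nsmul, show p ^ n • x = 0 from Subtype.ext hx, map_zero])
    have hxP : x.1 = B.φ n (P *ᵥ fun i => ((v i).val : ℤ_[p])) := by
      rw [hP, hlift, hv, e.symm_apply_apply]
    obtain ⟨V', hV'⟩ : ∃ V' : Fin 2 → ℤ_[p], red ∘ V' = A.map ρ *ᵥ v := ⟨_, hlift _⟩
    rw [hxP, hσ, ← hv, hwA, ← hV', ← hP, B.phi_eq_iff]
    intro i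
    rw [RingHom.map_mulVec, RingHom.map_mulVec, hV', mulVec_mulVec, hM, ← hPu']
    have hcomp : red ∘ (P *ᵥ fun i => ((v i).val : ℤ_[p])) = P.map red *ᵥ v := funext fun j => by
      rw [Function.comp_apply, RingHom.map_mulVec, hlift]
    rw [hcomp, ← hPu', mulVec_mulVec, hM₀, Units.inv_mul_cancel_right]

end FA.Independence.Adelic

end
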