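import Fermat.Agent.Independence.Adelic

/-!
# Glueing the pair at all primes dividing `N`

An element acting on the roots of unity as the common determinant and fixing the torsion of the
levels at the small primes is moved, one prime at a time, into one acting by the two given matrices
on the torsion of order `N` of both curves.
-/

set_option autoImplicit false
set_option linter.unusedSectionVars false
set_option linter.style.haveILetI false

noncomputable section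

open Matrix WeierstrassCurve FA.EC FA.Frob FA.RT FA.RT.Tate FA.PadicImage
open FA.TW (rootsFix mem_rootsFix)
open FA.OpenImage (lowPrimes mem_lowPrimes)
open scoped WeierstrassCurve.Affine

local notation "Qb" => AlgebraicClosure ℚ
local notation "GQ" => AlgebraicClosure ℚ ≃ₐ[ℚ] AlgebraicClosure ℚ

namespace FA.Independence.Adelic

variable {W W' : WeierstrassCurve ℤ} [(ratCurve W).IsElliptic] [(ratCurve W').IsElliptic]

/-- `σ` acts on the part killed by `l ^ j` as `A` in the coordinates `e`. -/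
def Wanted {N : ℕ} (e : Submodule.torsionBy ℤ (Pts W) (N : ℤ) ≃+ (Fin 2 → ZMod N))
    (A : Matrix (Fin 2) (Fin 2) (ZMod N)) (l j : ℕ) (σ : GQ) : Prop :=
  ∀ x, l ^ j • x.1 = 0 → σ • x.1 = (e.symm (A *ᵥ e x)).1

theorem Wanted.mul_fixer {N : ℕ} {e : Submodule.torsionBy ℤ (Pts W) (N : ℤ) ≃+ (Fin 2 → ZMod N)}
    {A : Matrix (Fin 2) (Fin 2) (ZMod N)} {l : ℕ} {f : ℕ → ℕ} {S T : Finset ℕ} {σ τ : GQ}
    (h : Wanted e A l (f l) σ) (hτ : τ ∈ fixer W f S T) (hl : l ∈ S) :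
    Wanted e A l (f l) (σ * τ) := fun x hx => by
  rw [mul_smul, hτ.2 l hl x.1 hx, h x hx]

/-- A matrix congruent to one. -/
theorem exists_eq_one_add_mul {p c : ℕ} [Fact p.Prime] {X Y : Matrix (Fin 2) (Fin 2) ℤ_[p]}
    (hX : ∃ Z, X = 1 + (p : ℤ_[p]) ^ c • Z) (hY : ∃ Z, Y = 1 + (p : ℤ_[p]) ^ c • Z) :
    ∃ Z, X * Y = 1 + (p : ℤ_[p]) ^ c • Z := by
  obtain ⟨Z, rfl⟩ := hX
  obtain ⟨Z', rfl⟩ := hY
  refine ⟨Z + Z' + (p : ℤ_[p]) ^ c • (Z * Z'), ?_⟩
  simp only [add_mul, mul_add, one_mul, mul_one, smul_mul_assoc, mul_smul_comm, smul_add]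
  abel

/-- **One step**: at the prime `p` the element is corrected without disturbing the primes in `S`. -/
theorem exists_step {p : ℕ} [hp : Fact p.Prime] (B : TateBasis p W) (B' : TateBasis p W')
    {f : ℕ → ℕ} {S T : Finset ℕ} {N a c : ℕ} [NeZero N] (hn : p ^ f p ∣ N)
    (e : Submodule.torsionBy ℤ (Pts W) (N : ℤ) ≃+ (Fin 2 → ZMod N))
    (e' : Submodule.torsionBy ℤ (Pts W') (N : ℤ) ≃+ (Fin 2 → ZMod N))
    {A A' : Matrix (Fin 2) (Fin 2) (ZMod N)} (hA : A.det = a) (hA' : A'.det = a) (σ : GQ)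
    (hroot : ∀ μ : Qb, μ ^ p ^ f p = 1 → σ μ = μ ^ a)
    (hfix : ∀ x : Pts W, p ^ min c (f p) • x = 0 → σ • x = x)
    (hfix' : ∀ x : Pts W', p ^ min c (f p) • x = 0 → σ • x = x)
    (hc : A.map (fun x => (x.val : ZMod (p ^ min c (f p)))) = 1)
    (hc' : A'.map (fun x => (x.val : ZMod (p ^ min c (f p)))) = 1)
    (hmove : ∀ X X' : Matrix (Fin 2) (Fin 2) ℤ_[p],
      (∃ y, X.det = 1 + (p : ℤ_[p]) ^ f p * y) → (∃ y, X'.det = 1 + (p : ℤ_[p]) ^ f p * y) →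
      (∃ Z, X = 1 + (p : ℤ_[p]) ^ min c (f p) • Z) →
      (∃ Z, X' = 1 + (p : ℤ_[p]) ^ min c (f p) • Z) →
      ∃ τ ∈ fixerPair W W' f S T, Acts B (f p) τ X ∧ Acts B' (f p) τ X') :
    ∃ τ ∈ fixerPair W W' f S T,
      Wanted e A p (f p) (σ * τ) ∧ Wanted e' A' p (f p) (σ * τ) := by
  obtain ⟨M, hMd, hMc, hMact⟩ := exists_local_matrix B e hn A
  obtain ⟨M', hMd', hMc', hMact'⟩ := exists_local_matrix B' e' hn A'
  rw [hA, map_natCast] at hMd
  rw [hA', map_natCast] at hMd'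
  have hdet : ∀ {V : WeierstrassCurve ℤ} [(ratCurve V).IsElliptic] (C : TateBasis p V)
      {X : Matrix (Fin 2) (Fin 2) ℤ_[p]}, PadicInt.toZModPow (f p) X.det = (a : ZMod (p ^ f p)) →
      ∃ y, (C.rep σ⁻¹ * X).det = 1 + (p : ℤ_[p]) ^ f p * y := by
    intro V _ C X hX
    refine toZModPow_eq_iff.mp ?_
    have h1 := congrArg (PadicInt.toZModPow (f p))
      (congrArg Matrix.det
        (show C.rep σ⁻¹ * C.rep σ = 1 by rw [← map_mul, inv_mul_cancel, map_one]))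
    rw [det_mul, map_mul, det_one, map_one, C.det_rep (σ := σ), cycP_eq_natCast hroot] at h1
    rw [det_mul, map_mul, hX, h1, map_one]
  obtain ⟨τ, hτ, h1, h2⟩ := hmove (B.rep σ⁻¹ * M) (B'.rep σ⁻¹ * M') (hdet B hMd) (hdet B' hMd')
    (exists_eq_one_add_mul (FA.OpenImage.exists_rep_eq_one_add B fun x hx => by
      rw [inv_smul_eq_iff, hfix x hx]) (hMc _ (min_le_right _ _) hc))
    (exists_eq_one_add_mul (FA.OpenImage.exists_rep_eq_one_add B' fun x hx => by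
      rw [inv_smul_eq_iff, hfix' x hx]) (hMc' _ (min_le_right _ _) hc'))
  have hback : ∀ {V : WeierstrassCurve ℤ} [(ratCurve V).IsElliptic] (C : TateBasis p V)
      {X : Matrix (Fin 2) (Fin 2) ℤ_[p]}, Acts C (f p) τ (C.rep σ⁻¹ * X) →
      Acts C (f p) (σ * τ) X := fun {V} _ C X h => by
    have := Acts.mul (g := σ) (fun v => C.rep_spec σ (f p) v) h
    rwa [← mul_assoc, ← map_mul, mul_inv_cancel, map_one, one_mul] at this
  exact ⟨τ, hτ, fun x hx => hMact x hx _ (hback B h1), fun x hx => hMact' x hx _ (hback B' h2)⟩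

/-- **Glueing**: from levels at the small primes and full pairs at the others. -/
theorem exists_glue_pair {L : ℕ} (hL : 3 ≤ L) (c : ℕ → ℕ)
    (hhigh : ∀ (l : ℕ) [Fact l.Prime], L ≤ l → ∀ (B : TateBasis l W) (B' : TateBasis l W'),
      (∀ (n : ℕ) (M : Matrix (Fin 2) (Fin 2) ℤ_[l]), IsUnit M.det →
        ∃ g, (∃ Y, B.rep g = M + (l : ℤ_[l]) ^ n • Y) ∧
          ∃ Y, B'.rep g = !![M.det, 0; 0, 1] + (l : ℤ_[l]) ^ n • Y) ∧
      ∀ (n : ℕ) (M : Matrix (Fin 2) (Fin 2) ℤ_[l]), IsUnit M.det →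
        ∃ g, (∃ Y, B'.rep g = M + (l : ℤ_[l]) ^ n • Y) ∧
          ∃ Y, B.rep g = !![M.det, 0; 0, 1] + (l : ℤ_[l]) ^ n • Y)
    {N : ℕ} [NeZero N] (f : ℕ → ℕ) {T : Finset ℕ} (hT : ∀ l ∈ T, l.Prime)
    (h2T : 5 ≤ L ∨ 2 ∉ T) (hf : ∀ l ∈ T, l ^ f l ∣ N)
    (e : Submodule.torsionBy ℤ (Pts W) (N : ℤ) ≃+ (Fin 2 → ZMod N))
    (e' : Submodule.torsionBy ℤ (Pts W') (N : ℤ) ≃+ (Fin 2 → ZMod N))
    {A A' : Matrix (Fin 2) (Fin 2) (ZMod N)} {a : ℕ} (hA : A.det = a) (hA' : A'.det = a)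
    (hc : ∀ l ∈ T, l ∈ lowPrimes L →
      A.map (fun x => (x.val : ZMod (l ^ min (c l) (f l)))) = 1 ∧
        A'.map (fun x => (x.val : ZMod (l ^ min (c l) (f l)))) = 1)
    (hind : ∀ l ∈ T, l ∈ lowPrimes L → ∀ [Fact l.Prime], IndepPair W W' l L (c l))
    (σ₀ : GQ) (hroot : ∀ l ∈ T, ∀ μ : Qb, μ ^ l ^ f l = 1 → σ₀ μ = μ ^ a)
    (hfix : ∀ l ∈ T, l ∈ lowPrimes L →
      (∀ x : Pts W, l ^ min (c l) (f l) • x = 0 → σ₀ • x = x) ∧
        ∀ x : Pts W', l ^ min (c l) (f l) • x = 0 → σ₀ • x = x) :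
    ∃ σ : GQ, ∀ l ∈ T, Wanted e A l (f l) σ ∧ Wanted e' A' l (f l) σ := by
  classical
  have hsub : ∀ {l : ℕ} {j : ℕ} {x : Pts W}, l ^ min j (f l) • x = 0 → l ^ f l • x = 0 :=
    fun {l j x} hx => by
      obtain ⟨d, hd⟩ := Nat.pow_dvd_pow l (min_le_right j (f l))
      rw [hd, mul_comm, mul_nsmul', hx, nsmul_zero]
  have hsub' : ∀ {l : ℕ} {j : ℕ} {x : Pts W'}, l ^ min j (f l) • x = 0 → l ^ f l • x = 0 :=
    fun {l j x} hx => by
      obtain ⟨d, hd⟩ := Nat.pow_dvd_pow l (min_le_right j (f l))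
      rw [hd, mul_comm, mul_nsmul', hx, nsmul_zero]
  have hroots : ∀ {σ τ : GQ} {S : Finset ℕ},
      (∀ l ∈ T, ∀ μ : Qb, μ ^ l ^ f l = 1 → σ μ = μ ^ a) → τ ∈ fixerPair W W' f S T →
      ∀ l ∈ T, ∀ μ : Qb, μ ^ l ^ f l = 1 → (σ * τ) μ = μ ^ a := fun {σ τ S} h hτ l hl μ hμ => by
    rw [AlgEquiv.mul_apply, mem_rootsFix.mp (hτ.1.1 l hl) μ hμ, h l hl μ hμ]
  set TL := T ∩ lowPrimes L
  have low : ∀ s ⊆ TL, ∃ σ : GQ, (∀ l ∈ T, ∀ μ : Qb, μ ^ l ^ f l = 1 → σ μ = μ ^ a) ∧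
      (∀ l ∈ s, Wanted e A l (f l) σ ∧ Wanted e' A' l (f l) σ) ∧
      ∀ l ∈ TL, l ∉ s → (∀ x : Pts W, l ^ min (c l) (f l) • x = 0 → σ • x = x) ∧
        ∀ x : Pts W', l ^ min (c l) (f l) • x = 0 → σ • x = x := by
    intro s hs
    induction s using Finset.induction_on with
    | empty =>
      exact ⟨σ₀, hroot, fun l hl => absurd hl (Finset.notMem_empty l), fun l hl _ =>
        hfix l (Finset.mem_inter.mp hl).1 (Finset.mem_inter.mp hl).2⟩
    | insert b s hbs ih =>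
      obtain ⟨σ, hr, hdone, hrest⟩ := ih ((Finset.subset_insert b s).trans hs)
      obtain ⟨hbT, hbL⟩ := Finset.mem_inter.mp (hs (Finset.mem_insert_self b s))
      haveI := Fact.mk (hT b hbT)
      obtain ⟨B, B', hmove⟩ := hind b hbT hbL
      obtain ⟨hσ, hσ'⟩ := hrest b (hs (Finset.mem_insert_self b s)) hbs
      obtain ⟨τ, hτ, h1, h2⟩ := exists_step B B' (hf b hbT) e e' hA hA' σ (hr b hbT) hσ hσ'
        (hc b hbT hbL).1 (hc b hbT hbL).2
        (hmove f (TL.erase b) T ((Finset.erase_subset _ _).trans Finset.inter_subset_right)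
          (Finset.notMem_erase b _) hT)
      refine ⟨σ * τ, hroots hr hτ, fun l hl => ?_, fun l hl hls => ?_⟩
      · rcases Finset.mem_insert.mp hl with rfl | hl'
        · exact ⟨h1, h2⟩
        · have hlS : l ∈ TL.erase b :=
            Finset.mem_erase.mpr ⟨fun e => hbs (e ▸ hl'), hs (Finset.mem_insert_of_mem hl')⟩
          exact ⟨(hdone l hl').1.mul_fixer hτ.1 hlS, (hdone l hl').2.mul_fixer hτ.2 hlS⟩
      · rw [Finset.mem_insert, not_or] at hls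
        have hlS : l ∈ TL.erase b := Finset.mem_erase.mpr ⟨hls.1, hl⟩
        obtain ⟨g1, g2⟩ := hrest l hl hls.2
        exact ⟨fun x hx => by rw [mul_smul, hτ.1.2 l hlS x (hsub hx), g1 x hx],
          fun x hx => by rw [mul_smul, hτ.2.2 l hlS x (hsub' hx), g2 x hx]⟩
  suffices high : ∀ s ⊆ T \ lowPrimes L, ∃ σ : GQ,
      (∀ l ∈ T, ∀ μ : Qb, μ ^ l ^ f l = 1 → σ μ = μ ^ a) ∧
      ∀ l ∈ TL ∪ s, Wanted e A l (f l) σ ∧ Wanted e' A' l (f l) σ by
    obtain ⟨σ, -, hσ⟩ := high _ subset_rfl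
    exact ⟨σ, fun l hl => hσ l (by
      by_cases hlow : l ∈ lowPrimes L
      · exact Finset.mem_union_left _ (Finset.mem_inter.mpr ⟨hl, hlow⟩)
      · exact Finset.mem_union_right _ (Finset.mem_sdiff.mpr ⟨hl, hlow⟩))⟩
  intro s hs
  induction s using Finset.induction_on_max with
  | empty =>
    obtain ⟨σ, hr, hdone, -⟩ := low _ subset_rfl
    exact ⟨σ, hr, fun l hl => hdone l (by rwa [Finset.union_empty] at hl)⟩
  | insert b s hlt ih =>
    obtain ⟨σ, hr, hdone⟩ := ih ((Finset.subset_insert b s).trans hs)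
    obtain ⟨hbT, hbL⟩ := Finset.mem_sdiff.mp (hs (Finset.mem_insert_self b s))
    have hbp := hT b hbT
    haveI := Fact.mk hbp
    have hLb : L ≤ b := by
      by_contra hcon
      exact hbL (mem_lowPrimes.mpr ⟨hbp, by omega⟩)
    have hsmall : ∀ l ∈ TL ∪ s, l.Prime ∧ l + 1 < b := fun l hl => by
      have ho' := Nat.odd_iff.mp (hbp.odd_of_ne_two (by omega))
      rcases Finset.mem_union.mp hl with hl | hl
      · obtain ⟨hlp, hlL⟩ := mem_lowPrimes.mp (Finset.mem_inter.mp hl).2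
        refine ⟨hlp, ?_⟩
        rcases eq_or_ne l 2 with rfl | hl2
        · have := h2T.resolve_right fun h => h (Finset.mem_inter.mp hl).1
          omega
        · have ho := Nat.odd_iff.mp (hlp.odd_of_ne_two hl2)
          omega
      · obtain ⟨hlT, hll⟩ := Finset.mem_sdiff.mp (hs (Finset.mem_insert_of_mem hl))
        have hl2 : l ≠ 2 := fun e => hll (e ▸ mem_lowPrimes.mpr ⟨Nat.prime_two, by omega⟩)
        have ho := Nat.odd_iff.mp ((hT l hlT).odd_of_ne_two hl2)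
        have := hlt l hl
        exact ⟨hT l hlT, by omega⟩
    obtain ⟨B⟩ := exists_tateBasis (p := b) W
    obtain ⟨B'⟩ := exists_tateBasis (p := b) W'
    have h1mod : ∀ C : Matrix (Fin 2) (Fin 2) (ZMod N),
        C.map (fun x => (x.val : ZMod (b ^ min 0 (f b)))) = 1 := fun C => by
      haveI : Subsingleton (ZMod (b ^ min 0 (f b))) := by
        rw [Nat.zero_min, pow_zero]; infer_instance
      exact Subsingleton.elim _ _
    obtain ⟨τ, hτ, h1, h2⟩ := exists_step (c := 0) B B' (hf b hbT) e e' hA hA' σ (hr b hbT)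
      (fun x hx => by
        rw [Nat.zero_min, pow_zero, one_nsmul] at hx
        rw [hx, FA.Local.gal_smul_zero])
      (fun x hx => by
        rw [Nat.zero_min, pow_zero, one_nsmul] at hx
        rw [hx, FA.Local.gal_smul_zero])
      (h1mod A) (h1mod A') fun X X' hX hX' _ _ =>
        exists_mem_fixerPair B B' (by omega) (hhigh b hLb B B').1 (hhigh b hLb B B').2 f hsmall hT
          X X' hX hX'
    refine ⟨σ * τ, hroots hr hτ, fun l hl => ?_⟩
    rw [Finset.union_insert] at hl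
    rcases Finset.mem_insert.mp hl with rfl | hl'
    · exact ⟨h1, h2⟩
    · exact ⟨(hdone l hl').1.mul_fixer hτ.1 hl', (hdone l hl').2.mul_fixer hτ.2 hl'⟩

/-- The additive automorphism given by an invertible matrix in coordinates. -/
theorem exists_addEquiv {T : Type*} [AddCommGroup T] {N : ℕ} (e : T ≃+ (Fin 2 → ZMod N))
    {A : Matrix (Fin 2) (Fin 2) (ZMod N)} (hA : IsUnit A.det) :
    ∃ φ : T ≃+ T, ∀ x, φ x = e.symm (A *ᵥ e x) :=
  ⟨{ toFun := fun x => e.symm (A *ᵥ e x)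
     invFun := fun x => e.symm (A⁻¹ *ᵥ e x)
     left_inv := fun x => by
       simp only [AddEquiv.apply_symm_apply, mulVec_mulVec, Matrix.nonsing_inv_mul A hA,
         one_mulVec, AddEquiv.symm_apply_apply]
     right_inv := fun x => by
       simp only [AddEquiv.apply_symm_apply, mulVec_mulVec, Matrix.mul_nonsing_inv A hA,
         one_mulVec, AddEquiv.symm_apply_apply]
     map_add' := fun x y => by rw [map_add, mulVec_add, map_add] }, fun _ => rfl⟩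

/-- **One level for two curves and all `N`.** -/
theorem exists_uniform_level_pair {L : ℕ} (hL : 5 ≤ L)
    (hlev : ∀ (p : ℕ) [Fact p.Prime], p < L → ∀ (B : TateBasis p W) (B' : TateBasis p W'),
      ∃ k : ℕ, 0 < k ∧ ∀ Y Y' : Matrix (Fin 2) (Fin 2) ℤ_[p],
        (1 + (p : ℤ_[p]) ^ k • Y).det = (1 + (p : ℤ_[p]) ^ k • Y').det →
        ∃ σ, B.rep σ = 1 + (p : ℤ_[p]) ^ k • Y ∧ B'.rep σ = 1 + (p : ℤ_[p]) ^ k • Y')
    (hhigh : ∀ (l : ℕ) [Fact l.Prime], L ≤ l → ∀ (B : TateBasis l W) (B' : TateBasis l W'),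
      (∀ (n : ℕ) (M : Matrix (Fin 2) (Fin 2) ℤ_[l]), IsUnit M.det →
        ∃ g, (∃ Y, B.rep g = M + (l : ℤ_[l]) ^ n • Y) ∧
          ∃ Y, B'.rep g = !![M.det, 0; 0, 1] + (l : ℤ_[l]) ^ n • Y) ∧
      ∀ (n : ℕ) (M : Matrix (Fin 2) (Fin 2) ℤ_[l]), IsUnit M.det →
        ∃ g, (∃ Y, B'.rep g = M + (l : ℤ_[l]) ^ n • Y) ∧
          ∃ Y, B.rep g = !![M.det, 0; 0, 1] + (l : ℤ_[l]) ^ n • Y) :
    ∃ m : ℕ, 0 < m ∧ ∀ (N : ℕ), N ≠ 0 →
      ∀ (e : Submodule.torsionBy ℤ (Pts W) (N : ℤ) ≃+ (Fin 2 → ZMod N))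
        (e' : Submodule.torsionBy ℤ (Pts W') (N : ℤ) ≃+ (Fin 2 → ZMod N))
        (X X' : Matrix (Fin 2) (Fin 2) (ZMod N)),
        (1 + (m : ZMod N) • X).det = (1 + (m : ZMod N) • X').det →
        IsUnit (1 + (m : ZMod N) • X).det →
        ∃ σ : GQ, (∀ x, σ • x.1 = (e.symm ((1 + (m : ZMod N) • X) *ᵥ e x)).1) ∧
          ∀ x, σ • x.1 = (e'.symm ((1 + (m : ZMod N) • X') *ᵥ e' x)).1 := by
  classical
  have hlow : ∀ l ∈ lowPrimes L, ∃ c : ℕ, ∀ [Fact l.Prime], IndepPair W W' l L c := by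
    intro l hl
    haveI := Fact.mk (mem_lowPrimes.mp hl).1
    obtain ⟨B⟩ := exists_tateBasis (p := l) W
    obtain ⟨B'⟩ := exists_tateBasis (p := l) W'
    obtain ⟨k, hk0, hk⟩ := hlev l (mem_lowPrimes.mp hl).2 B B'
    obtain ⟨c, hc⟩ := exists_indepPair B B' L hk0 hk
    exact ⟨c, fun {_} => hc⟩
  choose! c hind using hlow
  obtain ⟨P, hP⟩ : ∃ P, ∏ l ∈ lowPrimes L, l ^ c l = P := ⟨_, rfl⟩
  have hP0 : P ≠ 0 := hP ▸ Finset.prod_ne_zero_iff.mpr fun l hl =>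
    pow_ne_zero _ (mem_lowPrimes.mp hl).1.ne_zero
  obtain ⟨K, hK, hKfix⟩ := FA.EC.galoisFactorsThroughFiniteLevel (ratCurve W) (n := P) hP0
  obtain ⟨K', hK', hKfix'⟩ := FA.EC.galoisFactorsThroughFiniteLevel (ratCurve W') (n := P) hP0
  obtain ⟨M, hM, hcyc⟩ := FA.OpenImage.exists_fixing_apply_eq_pow (K ⊔ K')
  refine ⟨M * P, Nat.mul_pos hM (Nat.pos_of_ne_zero hP0), fun N hN e e' X X' hdet hunit => ?_⟩
  haveI : NeZero N := ⟨hN⟩
  set A := 1 + ((M * P : ℕ) : ZMod N) • X with hAdef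
  set A' := 1 + ((M * P : ℕ) : ZMod N) • X' with hAdef'
  have hred : ∀ {d : ℕ}, d ∣ N → d ∣ M * P → ∀ Y : Matrix (Fin 2) (Fin 2) (ZMod N),
      (1 + ((M * P : ℕ) : ZMod N) • Y).map (fun x => (x.val : ZMod d)) = 1 := by
    intro d hdN hdm Y
    have e1 : (fun x : ZMod N => (x.val : ZMod d)) = ZMod.castHom hdN (ZMod d) := funext fun x => by
      conv_rhs => rw [← ZMod.natCast_zmod_val x, map_natCast]
    rw [e1]
    ext i j
    rw [Matrix.map_apply, Matrix.add_apply, Matrix.smul_apply, smul_eq_mul, map_add, map_mul,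
      map_natCast, (ZMod.natCast_eq_zero_iff _ _).mpr hdm, zero_mul, add_zero, Matrix.one_apply,
      Matrix.one_apply, apply_ite (ZMod.castHom hdN (ZMod d)), map_one, map_zero]
  obtain ⟨a, ha⟩ : ∃ a, A.det.val = a := ⟨_, rfl⟩
  have hAa : A.det = (a : ZMod N) := by rw [← ha, ZMod.natCast_zmod_val]
  have hcop : a.Coprime N := by
    rw [← ha, ← hunit.unit_spec]; exact ZMod.val_coe_unit_coprime _
  have hgcd : a ≡ 1 [MOD Nat.gcd N M] := by
    refine (ZMod.natCast_eq_natCast_iff _ _ _).mp ?_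
    rw [Nat.cast_one, ← map_natCast (ZMod.castHom (Nat.gcd_dvd_left N M) (ZMod (Nat.gcd N M))) a,
      ← hAa, RingHom.map_det, RingHom.mapMatrix_apply]
    have e1 : A.map (ZMod.castHom (Nat.gcd_dvd_left N M) (ZMod (Nat.gcd N M))) = 1 := by
      rw [← hred (Nat.gcd_dvd_left N M) ((Nat.gcd_dvd_right N M).trans (dvd_mul_right M P)) X]
      ext i j
      show ZMod.castHom (Nat.gcd_dvd_left N M) _ (A i j) = (((A i j).val : ℕ) : ZMod (Nat.gcd N M))
      conv_lhs => rw [← ZMod.natCast_zmod_val (A i j), map_natCast]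
    rw [e1, det_one]
  obtain ⟨σ₀, hσK, hσ₀⟩ := hcyc N hN a hcop hgcd
  have hfix : ∀ x : Pts W, P • x = 0 → σ₀ • x = x := fun x hx =>
    congrArg Subtype.val (LinearMap.congr_fun
      (hKfix σ₀ fun y hy => hσK y ((le_sup_left : K ≤ K ⊔ K') hy))
      ⟨x, (mem_torsion_iff W).mpr hx⟩)
  have hfix' : ∀ x : Pts W', P • x = 0 → σ₀ • x = x := fun x hx =>
    congrArg Subtype.val (LinearMap.congr_fun
      (hKfix' σ₀ fun y hy => hσK y ((le_sup_right : K' ≤ K ⊔ K') hy))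
      ⟨x, (mem_torsion_iff W').mpr hx⟩)
  set f := fun l : ℕ => N.factorization l
  have hdvd : ∀ l, l ^ f l ∣ N := fun l => Nat.ordProj_dvd N l
  have hcP : ∀ l ∈ lowPrimes L, l ^ min (c l) (f l) ∣ P := fun l hl =>
    (pow_dvd_pow l (min_le_left _ _)).trans (hP ▸ Finset.dvd_prod_of_mem _ hl)
  obtain ⟨σ, hσ⟩ := exists_glue_pair (L := L) (by omega) c hhigh f (T := N.primeFactors)
    (fun l hl => Nat.prime_of_mem_primeFactors hl) (Or.inl hL) (fun l _ => hdvd l) e e' (A := A) (A' := A')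
    hAa (hdet.symm.trans hAa)
    (fun l _ hl => ⟨hred ((pow_dvd_pow l (min_le_right _ _)).trans (hdvd l))
        ((hcP l hl).trans (dvd_mul_left P M)) X,
      hred ((pow_dvd_pow l (min_le_right _ _)).trans (hdvd l))
        ((hcP l hl).trans (dvd_mul_left P M)) X'⟩)
    (fun l _ hl _ => hind l hl) σ₀ (fun l _ μ hμ => hσ₀ μ (by obtain ⟨j, hj⟩ := hdvd l; rw [hj, pow_mul, hμ, one_pow]))
    fun l _ hl => by
      obtain ⟨d, hd⟩ := hcP l hl
      exact ⟨fun x hx => hfix x (by rw [hd, mul_comm, mul_nsmul', hx, nsmul_zero]),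
        fun x hx => hfix' x (by rw [hd, mul_comm, mul_nsmul', hx, nsmul_zero])⟩
  obtain ⟨φ, hφ⟩ := exists_addEquiv e hunit
  obtain ⟨φ', hφ'⟩ := exists_addEquiv e' (hdet ▸ hunit)
  refine ⟨σ, fun x => ?_, fun x => ?_⟩
  · rw [← hφ]
    exact smul_eq_of_prime_powers hN φ σ (fun l hl y hy => by rw [hφ]; exact (hσ l hl).1 y hy) x
  · rw [← hφ']
    exact smul_eq_of_prime_powers hN φ' σ (fun l hl y hy => by rw [hφ']; exact (hσ l hl).2 y hy) x

end FA.Independence.Adelic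

end
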