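import Fermat.Agent.Independence.Group
import Mathlib.LinearAlgebra.Matrix.GeneralLinearGroup.Card

/-!
# Pairs of matrices with discriminants of the same class

Among the pairs in `GL₂(𝔽_l)` with one determinant, `l ≥ 7`, at most fifteen sixteenths have
`(t² - 4d)(t'² - 4d)` a square: for each `d` at least `(l + 1) / 4` traces give a nonzero square
discriminant and as many a nonsquare one, by parametrising `t² - s² = 4d`.
-/

set_option autoImplicit false
set_option linter.style.haveILetI false

noncomputable section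

open Matrix Finset

namespace FA.Independence

variable {l : ℕ} [hl : Fact l.Prime]

local notation "F" => ZMod l
local notation "G" => GL (Fin 2) (ZMod l)
local notation "M2" => Matrix (Fin 2) (Fin 2) (ZMod l)

/-- The discriminant of the characteristic polynomial. -/
def disc (A : G) : F := (A : M2).trace ^ 2 - 4 * (A : M2).det

/-- The traces of elements with eigenvalues in the field, by determinant. -/
def splitTraces (d : F) : Finset F := (univ.erase 0).image fun u => u + d / u

theorem mem_splitTraces {d t : F} (h2 : (2 : F) ≠ 0) (hd : d ≠ 0) :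
    t ∈ splitTraces d ↔ IsSquare (t ^ 2 - 4 * d) := by
  simp only [splitTraces, mem_image, mem_erase, mem_univ, and_true]
  refine ⟨fun ⟨u, hu, ht⟩ => ⟨u - d / u, by rw [← ht]; field_simp; ring⟩, fun ⟨s, hs⟩ => ?_⟩
  have hu : (t + s) / 2 ≠ 0 := fun e => by
    rw [div_eq_zero_iff, or_iff_left h2] at e
    have h4 : (4 : F) * d = 0 := by linear_combination (t - s) * e - hs
    rw [show (4 : F) = 2 * 2 by norm_num] at h4
    exact hd ((mul_eq_zero.mp h4).resolve_left (mul_ne_zero h2 h2))
  refine ⟨_, hu, ?_⟩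
  have e : d = (t + s) / 2 * ((t - s) / 2) := by field_simp; linear_combination -hs
  rw [e, mul_div_cancel_left₀ _ hu]
  field_simp
  ring

theorem card_fixed_le (d : F) : #{u ∈ univ.erase (0 : F) | u * u = d} ≤ 2 := by
  rcases {u ∈ univ.erase (0 : F) | u * u = d}.eq_empty_or_nonempty with h | ⟨u, hu⟩
  · rw [h]; simp
  rw [mem_filter] at hu
  refine (card_le_card (t := {u, -u}) fun v hv => ?_).trans (card_le_two)
  rw [mem_filter] at hv
  simpa using mul_self_eq_mul_self_iff.mp (hv.2.trans hu.2.symm)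

/-- A fibre of the parametrisation has at most two points. -/
theorem fibre_subset {d u v : F} (hu : u ≠ 0) (hv : v ≠ 0) (h : v + d / v = u + d / u) :
    v = u ∨ v = d / u := by
  field_simp at h ⊢
  by_cases he : v = u
  · exact Or.inl he
  · exact Or.inr (mul_left_cancel₀ (sub_ne_zero.mpr he) (by linear_combination h))

theorem card_erase_zero : #((univ : Finset F).erase 0) = l - 1 := by
  rw [card_erase_of_mem (mem_univ _), card_univ, ZMod.card]

/-- At most `(l + 1) / 2` traces have a square discriminant. -/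
theorem two_mul_card_splitTraces_le {d : F} (hd : d ≠ 0) : 2 * #(splitTraces d) ≤ l + 1 := by
  set U := (univ : Finset F).erase 0 with hU
  set f : F → F := fun u => u + d / u with hf
  have key : ∀ t ∈ splitTraces d,
      2 ≤ #{u ∈ U | f u = t} + #{u ∈ {u ∈ U | u * u = d} | f u = t} := fun t ht => by
    obtain ⟨u, hu, rfl⟩ := mem_image.mp ht
    have hu0 : u ≠ 0 := (mem_erase.mp hu).1
    have h1 : u ∈ {v ∈ U | f v = f u} := mem_filter.mpr ⟨hu, rfl⟩
    by_cases hfix : u * u = d
    · have h2 : u ∈ {v ∈ {v ∈ U | v * v = d} | f v = f u} :=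
        mem_filter.mpr ⟨mem_filter.mpr ⟨hu, hfix⟩, rfl⟩
      have := card_pos.mpr ⟨u, h1⟩
      have := card_pos.mpr ⟨u, h2⟩
      change 2 ≤ #{v ∈ U | f v = f u} + #{v ∈ {v ∈ U | v * v = d} | f v = f u}
      omega
    · have h2 : d / u ∈ {v ∈ U | f v = f u} := mem_filter.mpr
        ⟨mem_erase.mpr ⟨div_ne_zero hd hu0, mem_univ _⟩, by simp only [hf]; field_simp; ring⟩
      have hne : u ≠ d / u := fun e => hfix (by field_simp at e; linear_combination e)
      have := card_le_card (show ({u, d / u} : Finset F) ⊆ {v ∈ U | f v = f u} by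
        simp [insert_subset_iff, h1, h2])
      rw [card_pair hne] at this
      exact this.trans (Nat.le_add_right _ _)
  have h := sum_le_sum key
  rw [sum_const, smul_eq_mul, sum_add_distrib] at h
  rw [show splitTraces d = U.image f from rfl] at h ⊢
  rw [
    ← card_eq_sum_card_fiberwise (fun u hu => mem_image_of_mem f hu),
    ← card_eq_sum_card_fiberwise (fun u hu => mem_image_of_mem f (mem_filter.mp hu).1)] at h
  rw [hU, card_erase_zero] at h
  have := card_fixed_le d
  have := hl.out.two_le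
  rw [hU]
  omega

/-- At least `(l - 3) / 2` traces have a nonzero square discriminant. -/
theorem le_two_mul_card_split (d : F) :
    l - 3 ≤ 2 * #{t : F | IsSquare (t ^ 2 - 4 * d) ∧ t ^ 2 - 4 * d ≠ 0} := by
  set U' := {u ∈ (univ : Finset F).erase 0 | u * u ≠ d}
  have h1 : l - 3 ≤ #U' := by
    have := card_filter_add_card_filter_not (s := (univ : Finset F).erase 0)
      (fun u => u * u = d)
    rw [card_erase_zero] at this
    have := card_fixed_le d
    simp only [U', ne_eq]
    omega
  have h2' : #U' ≤ 2 * #(U'.image fun u => u + d / u) :=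
    card_le_mul_card_image _ 2 fun t ht => by
      obtain ⟨u, hu, rfl⟩ := mem_image.mp ht
      refine (card_le_card (t := {u, d / u}) fun v hv => ?_).trans card_le_two
      simp only [U', mem_filter, mem_erase] at hu hv
      simpa using fibre_subset hu.1.1 hv.1.1.1 hv.2
  refine h1.trans (h2'.trans (Nat.mul_le_mul_left 2 (card_le_card fun t ht => ?_)))
  obtain ⟨u, hu, rfl⟩ := mem_image.mp ht
  simp only [U', mem_filter, mem_erase] at hu
  have e : (u + d / u) ^ 2 - 4 * d = (u - d / u) * (u - d / u) := by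
    have := hu.1.1
    field_simp
    ring
  refine mem_filter.mpr ⟨mem_univ _, ⟨u - d / u, e⟩, fun h0 => hu.2 ?_⟩
  rw [e, mul_self_eq_zero, sub_eq_zero, eq_div_iff hu.1.1] at h0
  exact h0

/-- At least `(l - 1) / 2` traces have a nonsquare discriminant. -/
theorem le_two_mul_card_inert {d : F} (h2 : (2 : F) ≠ 0) (hd : d ≠ 0) :
    l - 1 ≤ 2 * #{t : F | ¬ IsSquare (t ^ 2 - 4 * d)} := by
  have h := card_filter_add_card_filter_not (s := (univ : Finset F))
    (fun t => IsSquare (t ^ 2 - 4 * d))
  rw [card_univ, ZMod.card,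
    show ({t : F | IsSquare (t ^ 2 - 4 * d)} : Finset F) = splitTraces d from
      Finset.ext fun t => by rw [mem_filter, mem_splitTraces h2 hd]; simp] at h
  have := two_mul_card_splitTraces_le (l := l) hd
  omega

/-- The pairs with one determinant. -/
abbrev FibrePair (l : ℕ) [Fact l.Prime] :=
  {p : GL (Fin 2) (ZMod l) × GL (Fin 2) (ZMod l) //
    (p.1 : Matrix (Fin 2) (Fin 2) (ZMod l)).det = (p.2 : Matrix (Fin 2) (Fin 2) (ZMod l)).det}

/-- **At most fifteen sixteenths of the pairs** have discriminants of the same class. -/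
theorem card_sameClass_le (h7 : 7 ≤ l) :
    (Nat.card {p : FibrePair l // IsSquare (disc p.1.1 * disc p.1.2)} : ℝ) ≤
      15 / 16 * Nat.card (FibrePair l) := by
  classical
  have h2 : (2 : F) ≠ 0 := two_ne_zero_of h7
  -- matrices of given trace and determinant
  let mat : Fˣ → F → F → Fˣ → G := fun d t x y => GeneralLinearGroup.mkOfDetNeZero
    !![x, (y : F); (x * (t - x) - d) / y, t - x]
    (by rw [det_fin_two_of, mul_div_cancel₀ _ y.ne_zero]; simp [d.ne_zero])
  have hmd : ∀ d t x y, (mat d t x y : M2).det = d := fun d t x y => by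
    simp [mat, det_fin_two_of, mul_div_cancel₀ _ y.ne_zero]
  have hmt : ∀ d t x y, (mat d t x y : M2).trace = t := fun d t x y => by
    simp [mat, trace_fin_two]
  -- many pairs of opposite classes
  let D : Fˣ → Type := fun d =>
    {t : F // t ∈ ({t | IsSquare (t ^ 2 - 4 * (d : F)) ∧ t ^ 2 - 4 * (d : F) ≠ 0} : Finset F)} ×
      {t : F // t ∈ ({t | ¬ IsSquare (t ^ 2 - 4 * (d : F))} : Finset F)} × (F × Fˣ) × (F × Fˣ)
  have hcount : Nat.card (Σ d, D d) ≤
      Nat.card {p : FibrePair l // ¬ IsSquare (disc p.1.1 * disc p.1.2)} := by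
    refine Nat.card_le_card_of_injective (fun s => ⟨⟨(mat s.1 s.2.1.1 s.2.2.2.1.1 s.2.2.2.1.2,
      mat s.1 s.2.2.1.1 s.2.2.2.2.1 s.2.2.2.2.2), (hmd _ _ _ _).trans (hmd _ _ _ _).symm⟩,
      fun hsq => ?_⟩) fun s r e => ?_
    · obtain ⟨d, ⟨t, ht⟩, ⟨t', ht'⟩, q⟩ := s
      simp only [mem_filter, mem_univ, true_and] at ht ht'
      simp only [disc, hmd, hmt] at hsq
      obtain ⟨⟨a, ha⟩, hne⟩ := ht
      obtain ⟨b, hb⟩ := hsq
      have ha0 : a ≠ 0 := fun e => hne (by rw [ha, e, mul_zero])
      exact ht' ⟨b / a, by rw [ha] at hb; field_simp; linear_combination hb⟩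
    · obtain ⟨d, ⟨t, ht⟩, ⟨t', ht'⟩, ⟨x, y⟩, ⟨x', y'⟩⟩ := s
      obtain ⟨d₂, ⟨t₂, ht₂⟩, ⟨t₂', ht₂'⟩, ⟨x₂, y₂⟩, ⟨x₂', y₂'⟩⟩ := r
      simp only [Subtype.mk.injEq, Prod.mk.injEq] at e
      obtain ⟨e1, e2⟩ := e
      have ed : d = d₂ := Units.ext (by rw [← hmd d t x y, e1, hmd])
      subst ed
      have et : t = t₂ := by rw [← hmt d t x y, e1, hmt]
      have et' : t' = t₂' := by rw [← hmt d t' x' y', e2, hmt]
      subst et et'
      have a1 := congrFun (congrFun (congrArg (fun Z : G => (Z : M2)) e1) 0)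
      have a2 := congrFun (congrFun (congrArg (fun Z : G => (Z : M2)) e2) 0)
      obtain rfl : x = x₂ := a1 0
      obtain rfl : y = y₂ := Units.ext (a1 1)
      obtain rfl : x' = x₂' := a2 0
      obtain rfl : y' = y₂' := Units.ext (a2 1)
      rfl
  -- the fibre product is not larger
  set K := (GeneralLinearGroup.det : G →* Fˣ).ker with hK
  have hP : Nat.card (FibrePair l) ≤ Nat.card G * Nat.card K := by
    rw [← Nat.card_prod]
    refine Nat.card_le_card_of_injective (fun p => (p.1.1, ⟨p.1.1⁻¹ * p.1.2, ?_⟩)) fun p r e => ?_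
    · rw [hK, MonoidHom.mem_ker, map_mul, map_inv, inv_mul_eq_one]
      exact Units.ext p.2
    · simp only [Prod.mk.injEq, Subtype.mk.injEq] at e
      exact Subtype.ext (Prod.ext e.1 (mul_left_cancel (e.1 ▸ e.2)))
  have hF : Nat.card Fˣ = l - 1 := by rw [Nat.card_eq_fintype_card, ZMod.card_units]
  have hKG : Nat.card K * (l - 1) = Nat.card G := by
    rw [← K.card_mul_index, hK, Subgroup.index_ker, MonoidHom.range_eq_top_of_surjective _ fun d =>
      ⟨mat d 0 0 1, Units.ext (hmd d 0 0 1)⟩, Subgroup.card_top, hF]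
  have hG : Nat.card G = (l ^ 2 - 1) * (l ^ 2 - l) := by
    rw [Matrix.card_GL_field, ZMod.card, Fin.prod_univ_two]
    simp
  -- the size of the sample
  have hD : ∀ d, (l + 1) * (l + 1) * ((l ^ 2 - l) * (l ^ 2 - l)) ≤ 16 * Nat.card (D d) := fun d => by
    simp only [D]
    rw [Nat.card_prod, Nat.card_prod, Nat.card_prod, Nat.card_prod, Nat.card_zmod, hF,
      Nat.card_eq_finsetCard, Nat.card_eq_finsetCard]
    rw [show l * (l - 1) = l ^ 2 - l by rw [Nat.mul_sub, mul_one, sq]]
    have a := le_two_mul_card_split (l := l) (d : F)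
    have b := le_two_mul_card_inert (l := l) h2 d.ne_zero
    set A := #({t | IsSquare (t ^ 2 - 4 * (d : F)) ∧ t ^ 2 - 4 * (d : F) ≠ 0} : Finset F)
    set B := #({t | ¬ IsSquare (t ^ 2 - 4 * (d : F))} : Finset F)
    calc (l + 1) * (l + 1) * ((l ^ 2 - l) * (l ^ 2 - l))
        ≤ 4 * A * (4 * B) * ((l ^ 2 - l) * (l ^ 2 - l)) :=
          Nat.mul_le_mul_right _ (Nat.mul_le_mul (by omega) (by omega))
      _ = _ := by ring
  have hl1 : (l ^ 2 - 1 : ℕ) = (l + 1) * (l - 1) := by rw [← Nat.sq_sub_sq, one_pow]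
  have hKeq : Nat.card K = (l + 1) * (l ^ 2 - l) := Nat.eq_of_mul_eq_mul_right
    (show 0 < l - 1 by omega) (by rw [hKG, hG, hl1]; ring)
  have h16 : Nat.card (FibrePair l) ≤
      16 * Nat.card {p : FibrePair l // ¬ IsSquare (disc p.1.1 * disc p.1.2)} := by
    refine hP.trans (le_trans ?_ (Nat.mul_le_mul_left 16 hcount))
    rw [Nat.card_sigma, Finset.mul_sum]
    refine le_trans ?_ (card_nsmul_le_sum _ _ _ fun d _ => hD d)
    rw [card_univ, ZMod.card_units, smul_eq_mul, hKeq, hG, hl1]
    exact le_of_eq (by ring)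
  have hsum : Nat.card {p : FibrePair l // IsSquare (disc p.1.1 * disc p.1.2)} +
      Nat.card {p : FibrePair l // ¬ IsSquare (disc p.1.1 * disc p.1.2)} = Nat.card (FibrePair l) := by
    rw [← Nat.card_sum]
    exact Nat.card_congr (Equiv.sumCompl _)
  have h16' := (Nat.cast_le (α := ℝ)).mpr h16
  have hsum' := congrArg (Nat.cast (R := ℝ)) hsum
  push_cast at h16' hsum'
  linarith

end FA.Independence

end
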