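import Mathlib.Tactic
import Mathlib.Data.ZMod.Units
import Mathlib.Data.ZMod.QuotientRing
import Mathlib.RingTheory.Nilpotent.Lemmas
import Mathlib.LinearAlgebra.Matrix.Determinant.Basic

/-!
# Congruence subgroups of `SL₂(ℤ/N)` and elementary matrices

A uniform choice of a unit `u ≡ 1` modulo `m` whose `u² - 1` divides `m (m + 2)` modulo every `N`,
and the decomposition of a matrix of determinant one congruent to one modulo `D²` into elementary
matrices with entries divisible by `D`.
-/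

set_option autoImplicit false
set_option linter.style.haveILetI false

open Matrix

namespace FA.Independence.Family

/-- The upper elementary matrix. -/
def upMat {R : Type*} [CommRing R] (a : R) : Matrix (Fin 2) (Fin 2) R := !![1, a; 0, 1]

/-- The lower elementary matrix. -/
def lowMat {R : Type*} [CommRing R] (a : R) : Matrix (Fin 2) (Fin 2) R := !![1, 0; a, 1]

/-- In `ℤ/N` a combination `a + x b` of coprime `a`, `b` is a unit. -/
theorem exists_unit_add : ∀ (N : ℕ), N ≠ 0 → ∀ a b : ZMod N, IsCoprime a b →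
    ∃ x : ZMod N, IsUnit (a + x * b) := by
  intro N
  induction N using Nat.recOnPosPrimePosCoprime with
  | prime_pow p n hp hn =>
    intro _ a b hab
    haveI : NeZero (p ^ n) := ⟨pow_ne_zero _ hp.ne_zero⟩
    obtain ⟨r, t, hrt⟩ := hab
    have hiff : ∀ z : ZMod (p ^ n), IsUnit z ↔ ¬ p ∣ z.val := fun z => by
      conv_lhs => rw [← ZMod.natCast_zmod_val z]
      rw [ZMod.isUnit_iff_coprime, Nat.coprime_pow_right_iff hn, Nat.coprime_comm,
        hp.coprime_iff_not_dvd]
    by_cases ha : IsUnit a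
    · exact ⟨0, by rwa [zero_mul, add_zero]⟩
    refine ⟨1, ?_⟩
    rw [one_mul]
    haveI := Fact.mk hp
    set π : ZMod (p ^ n) →+* ZMod p := ZMod.castHom (dvd_pow_self p hn.ne') (ZMod p)
    have hπ : ∀ z, IsUnit z ↔ π z ≠ 0 := fun z => by
      rw [hiff z, ← ZMod.natCast_zmod_val z, map_natCast, Ne, ZMod.natCast_eq_zero_iff,
        ZMod.natCast_zmod_val]
    have ha0 : π a = 0 := by_contra fun h => ha ((hπ a).mpr h)
    rw [hπ, map_add, ha0, zero_add]
    intro hb0
    have h := congrArg π hrt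
    rw [map_add, map_mul, map_mul, ha0, hb0, mul_zero, mul_zero, add_zero, map_one] at h
    exact zero_ne_one h
  | zero => exact fun h => absurd rfl h
  | one => exact fun _ a b _ => ⟨0, isUnit_of_subsingleton _⟩
  | coprime M K _ _ hMK ihM ihK =>
    intro hN a b hab
    let c := ZMod.chineseRemainder hMK
    obtain ⟨x, hx⟩ := ihM (left_ne_zero_of_mul hN) (c a).1 (c b).1
      (hab.map ((RingHom.fst _ _).comp c.toRingHom))
    obtain ⟨y, hy⟩ := ihK (right_ne_zero_of_mul hN) (c a).2 (c b).2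
      (hab.map ((RingHom.snd _ _).comp c.toRingHom))
    refine ⟨c.symm (x, y), (isUnit_map_iff c _).mp ?_⟩
    rw [map_add, map_mul, c.apply_symm_apply, Prod.isUnit_iff]
    exact ⟨hx, hy⟩

/-- For `6 ∣ m`: units `1 + m y`, `1 + m z` inverse to each other with `u² - 1` dividing
`m (m + 2)`. -/
theorem exists_diag {m : ℕ} (h6 : 6 ∣ m) : ∀ (N : ℕ), N ≠ 0 → ∃ y z w : ZMod N,
    (1 + (m : ZMod N) * y) * (1 + (m : ZMod N) * z) = 1 ∧
      ((1 + (m : ZMod N) * y) ^ 2 - 1) * w = (m : ZMod N) * ((m : ZMod N) + 2) := by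
  intro N
  induction N using Nat.recOnPosPrimePosCoprime with
  | prime_pow p n hp hn =>
    intro _
    by_cases hpm : p ∣ m
    · -- `m` is nilpotent
      have hnil : IsNilpotent (m : ZMod (p ^ n)) := by
        obtain ⟨c, rfl⟩ := hpm
        exact ⟨n, by rw [Nat.cast_mul, mul_pow, ← Nat.cast_pow, ZMod.natCast_self, zero_mul]⟩
      obtain ⟨v, hv⟩ := hnil.isUnit_one_add.exists_right_inv
      exact ⟨1, -v, 1, by linear_combination -(m : ZMod (p ^ n)) * hv, by ring⟩
    · -- `m` and so `2`, `3` are units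
      have hu : IsUnit (m : ZMod (p ^ n)) := (ZMod.isUnit_iff_coprime _ _).mpr
        (Nat.Coprime.pow_right _ ((hp.coprime_iff_not_dvd.mpr hpm).symm))
      obtain ⟨c, hc⟩ := h6
      have h2 : IsUnit (2 : ZMod (p ^ n)) := isUnit_of_mul_isUnit_left
        (y := 3 * (c : ZMod (p ^ n))) (by rw [hc] at hu; convert hu using 1; push_cast; ring)
      have h3 : IsUnit (3 : ZMod (p ^ n)) := isUnit_of_mul_isUnit_left
        (y := 2 * (c : ZMod (p ^ n))) (by rw [hc] at hu; convert hu using 1; push_cast; ring)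
      obtain ⟨mi, hmi⟩ := hu.exists_right_inv
      obtain ⟨i2, hi2⟩ := h2.exists_right_inv
      obtain ⟨i3, hi3⟩ := h3.exists_right_inv
      refine ⟨mi, (i2 - 1) * mi, i3 * ((m : ZMod (p ^ n)) * ((m : ZMod (p ^ n)) + 2)), ?_, ?_⟩
      · rw [hmi]
        linear_combination 2 * (i2 - 1) * hmi + hi2
      · rw [hmi]
        linear_combination ((m : ZMod (p ^ n)) * ((m : ZMod (p ^ n)) + 2)) * hi3
  | zero => exact fun h => absurd rfl h
  | one => exact fun _ => ⟨0, 0, 0, Subsingleton.elim _ _, Subsingleton.elim _ _⟩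
  | coprime M K _ _ hMK ihM ihK =>
    intro hN
    obtain ⟨y, z, w, h1, h2⟩ := ihM (left_ne_zero_of_mul hN)
    obtain ⟨y', z', w', h1', h2'⟩ := ihK (right_ne_zero_of_mul hN)
    let c := ZMod.chineseRemainder hMK
    have h : ∀ k : ℕ, c k = ((k : ZMod M), (k : ZMod K)) := fun k => by
      rw [map_natCast]; rfl
    have h2c : c 2 = ((2 : ZMod M), (2 : ZMod K)) := by exact_mod_cast h 2
    refine ⟨c.symm (y, y'), c.symm (z, z'), c.symm (w, w'), c.injective ?_, c.injective ?_⟩
    · simp only [map_mul, map_add, map_one, h, c.apply_symm_apply, Prod.mk_mul_mk, Prod.mk_add_mk,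
        Prod.one_eq_mk, h1, h1']
    · simp only [map_mul, map_add, map_sub, map_pow, map_one, h, h2c, c.apply_symm_apply,
        Prod.mk_mul_mk, Prod.mk_add_mk, Prod.mk_sub_mk, Prod.one_eq_mk, Prod.pow_mk, h2, h2']

/-- What annihilates the annihilator of `D` is a multiple of `D`. -/
theorem exists_mul_of_ann {N : ℕ} [NeZero N] (D : ℕ) (x : ZMod N)
    (h : ∀ z : ZMod N, (D : ZMod N) * z = 0 → x * z = 0) : ∃ y, x = (D : ZMod N) * y := by
  set g := N.gcd D with hg
  obtain ⟨c, hc⟩ : g ∣ N := Nat.gcd_dvd_left _ _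
  obtain ⟨d, hd⟩ : g ∣ D := Nat.gcd_dvd_right _ _
  have hc0 : c ≠ 0 := fun e => NeZero.ne N (by rw [hc, e, mul_zero])
  have h1 := h (c : ZMod N) (by
    rw [← Nat.cast_mul, ZMod.natCast_eq_zero_iff]
    exact ⟨d, by rw [hd]; conv_rhs => rw [hc]
                 ring⟩)
  rw [← ZMod.natCast_zmod_val x, ← Nat.cast_mul, ZMod.natCast_eq_zero_iff] at h1
  obtain ⟨q, hq⟩ : g ∣ x.val := Nat.dvd_of_mul_dvd_mul_right (Nat.pos_of_ne_zero hc0) (hc ▸ h1)
  refine ⟨((N.gcdB D : ℤ) : ZMod N) * (q : ZMod N), ?_⟩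
  have hb := congrArg (Int.cast : ℤ → ZMod N) (Nat.gcd_eq_gcd_ab N D)
  push_cast at hb
  rw [ZMod.natCast_self, zero_mul, zero_add, ← hg] at hb
  rw [← mul_assoc, ← hb, ← Nat.cast_mul, ← hq, ZMod.natCast_zmod_val]

/-- A matrix fixing what `D` kills is congruent to one modulo `D`. -/
theorem exists_eq_one_add {N : ℕ} [NeZero N] (D : ℕ) (A : Matrix (Fin 2) (Fin 2) (ZMod N))
    (h : ∀ v : Fin 2 → ZMod N, (D : ZMod N) • v = 0 → A *ᵥ v = v) :
    ∃ Y, A = 1 + (D : ZMod N) • Y := by
  have hij : ∀ i j, ∃ y, (A - 1) i j = (D : ZMod N) * y := fun i j =>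
    exists_mul_of_ann D _ fun z hz => by
      have h1 := congrFun (h (z • Pi.single j 1) (by rw [smul_smul, hz, zero_smul])) i
      rw [mulVec_smul, mulVec_single_one] at h1
      simp only [Pi.smul_apply, col_apply, smul_eq_mul, Pi.single_apply] at h1
      rw [Matrix.sub_apply, Matrix.one_apply]
      linear_combination h1
  choose Y hY using hij
  exact ⟨Matrix.of Y, by ext i j; simp [← hY]⟩

/-- A congruent matrix has a congruent inverse. -/
theorem exists_inv_eq_one_add {N : ℕ} (D : ZMod N) (Y B : Matrix (Fin 2) (Fin 2) (ZMod N))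
    (h : (1 + D • Y) * B = 1) : ∃ Z, B = 1 + D • Z :=
  ⟨-(Y * B), by
    rw [add_mul, one_mul, smul_mul_assoc] at h
    rw [smul_neg, ← sub_eq_add_neg]
    exact eq_sub_of_add_eq h⟩

/-- **Decomposition**: a matrix of determinant one congruent to one modulo `D²` is a product of
elementary matrices with entries divisible by `D`. -/
theorem induction_congruence {N : ℕ} [NeZero N] (D : ZMod N)
    {P : Matrix (Fin 2) (Fin 2) (ZMod N) → Prop} (hmul : ∀ A B, P A → P B → P (A * B))
    (hup : ∀ a, P (upMat (D * a))) (hlow : ∀ a, P (lowMat (D * a)))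
    (X : Matrix (Fin 2) (Fin 2) (ZMod N)) (hd : (1 + (D * D) • X).det = 1) :
    P (1 + (D * D) • X) := by
  have hco : IsCoprime (1 + D * D * X 0 0) (D * (D * D * X 1 0)) := by
    have h := hd
    simp [det_fin_two] at h
    have h1 : IsCoprime (1 + D * D * X 0 0) (D * D * X 1 0) :=
      ⟨1 + D * D * X 1 1, -(D * D * X 0 1), by linear_combination h⟩
    exact (IsCoprime.mul_right ⟨1, -(D * X 0 0), by ring⟩ h1)
  obtain ⟨x, hx⟩ := exists_unit_add N (NeZero.ne N) _ _ hco
  obtain ⟨ai, hai⟩ := hx.exists_right_inv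
  set a := 1 + D * D * X 0 0 + x * (D * (D * D * X 1 0))
  set z := X 0 0 + x * D * X 1 0
  have haz : a = 1 + D * D * z := by simp only [a, z]; ring
  set b := D * (D * X 0 1 + x * (1 + D * D * X 1 1))
  -- the factors
  have key : 1 + (D * D) • X = upMat (D * -x) * (lowMat (D * (D * X 1 0 * ai)) *
      (lowMat (D * (-z * ai)) * (upMat (D * 1) * (lowMat (D * z) *
        (upMat (D * -ai) * upMat (b * ai)))))) := by
    simp [det_fin_two] at hd
    ext i j
    fin_cases i <;> fin_cases j <;>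
      simp [upMat, lowMat, Fin.sum_univ_two, Matrix.mul_apply] <;> grind
  rw [key]
  have hb : b * ai = D * ((D * X 0 1 + x * (1 + D * D * X 1 1)) * ai) := mul_assoc _ _ _
  rw [hb]
  exact hmul _ _ (hup _) (hmul _ _ (hlow _) (hmul _ _ (hlow _) (hmul _ _ (hup _)
    (hmul _ _ (hlow _) (hmul _ _ (hup _) (hup _))))))

end FA.Independence.Family
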