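import Mathlib.LinearAlgebra.Matrix.GeneralLinearGroup.Defs
import Mathlib.LinearAlgebra.Matrix.ToLinearEquiv
import Mathlib.LinearAlgebra.Matrix.Notation
import Mathlib.Algebra.Polynomial.Roots
import Mathlib.FieldTheory.Finite.Basic
import Mathlib.Tactic

/-!
# Subgroups of `GL₂(𝔽_l) × GL₂(𝔽_l)` with surjective projections

For `l ≥ 7` a subgroup with surjective projections and equal determinants contains every pair with
equal determinants, or all its pairs have equal squares of traces: otherwise the partner of a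
unipotent is one, the partner of an upper triangular matrix is upper triangular with the same
diagonal up to a common sign, and translating by the unipotents reaches every matrix.
-/

set_option autoImplicit false
set_option linter.style.haveILetI false

noncomputable section

open Matrix

namespace FA.Independence

variable {l : ℕ} [hl : Fact l.Prime]

local notation "G" => GL (Fin 2) (ZMod l)
local notation "M2" => Matrix (Fin 2) (Fin 2) (ZMod l)

/-- The upper unipotent matrices. -/
def up (x : ZMod l) : G :=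
  GeneralLinearGroup.mkOfDetNeZero !![1, x; 0, 1] (by simp [det_fin_two_of])

/-- The lower unipotent matrices. -/
def low (x : ZMod l) : G :=
  GeneralLinearGroup.mkOfDetNeZero !![1, 0; x, 1] (by simp [det_fin_two_of])

@[simp] theorem coe_up (x : ZMod l) : (up x : M2) = !![1, x; 0, 1] := rfl
@[simp] theorem coe_low (x : ZMod l) : (low x : M2) = !![1, 0; x, 1] := rfl

theorem up_mul (x y : ZMod l) : up x * up y = up (x + y) := Units.ext (by simp [add_comm])

theorem up_pow (x : ZMod l) : ∀ n : ℕ, up x ^ n = up ((n : ZMod l) * x)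
  | 0 => Units.ext (by simp [one_fin_two])
  | n + 1 => by rw [pow_succ, up_pow x n, up_mul]; push_cast; ring_nf

theorem det_ne_zero' (A : G) : (A : M2).det ≠ 0 := (A.isUnit.map detMonoidHom).ne_zero

/-- Not a scalar. -/
def NonScalar (A : G) : Prop := ¬ ∃ s : ZMod l, (A : M2) = scalar (Fin 2) s

theorem two_ne_zero_of (h7 : 7 ≤ l) : (2 : ZMod l) ≠ 0 := by
  rw [← Nat.cast_ofNat (R := ZMod l), Ne, ZMod.natCast_eq_zero_iff]
  exact fun h => absurd (Nat.le_of_dvd (by norm_num) h) (by omega)

theorem up_zero : up (0 : ZMod l) = 1 := Units.ext (by simp [one_fin_two])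

theorem trace_conj (A P : G) : ((P * A * P⁻¹ : G) : M2).trace = (A : M2).trace := by
  rw [Units.val_mul, Units.val_mul, trace_mul_cycle, ← Units.val_mul, inv_mul_cancel, Units.val_one,
    one_mul]

/-- A vector completes to a basis. -/
theorem exists_frame {v : Fin 2 → ZMod l} (hv : v ≠ 0) :
    ∃ P : G, ∀ i, (P : M2) i 0 = v i := by
  by_cases h0 : v 0 = 0
  · have h1 : v 1 ≠ 0 := fun h1 => hv (funext fun i => by fin_cases i <;> assumption)
    exact ⟨GeneralLinearGroup.mkOfDetNeZero !![v 0, 1; v 1, 0] (by simp [det_fin_two_of, h1]),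
      fun i => by fin_cases i <;> rfl⟩
  · exact ⟨GeneralLinearGroup.mkOfDetNeZero !![v 0, 0; v 1, 1] (by simp [det_fin_two_of, h0]),
      fun i => by fin_cases i <;> rfl⟩

/-- A matrix with an eigenvalue is conjugate to an upper triangular one. -/
theorem exists_triangular (A : G) {z : ZMod l} (h : ((A : M2) - scalar (Fin 2) z).det = 0) :
    ∃ P : G, ((P⁻¹ * A * P : G) : M2) 1 0 = 0 := by
  obtain ⟨v, hv, hAv⟩ := exists_mulVec_eq_zero_iff.mpr h
  obtain ⟨P, hP⟩ := exists_frame hv
  refine ⟨P, ?_⟩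
  have e : ((A * P : G) : M2).col 0 = z • (P : M2).col 0 := by
    rw [sub_mulVec, sub_eq_zero] at hAv
    funext i
    rw [Units.val_mul]
    have := congrFun hAv i
    simp only [mulVec, dotProduct, Fin.sum_univ_two, Matrix.col_apply, Matrix.mul_apply, hP,
      Pi.smul_apply, smul_eq_mul, scalar_apply, Matrix.diagonal_apply] at this ⊢
    rw [this]
    fin_cases i <;> simp
  have e' : ((P⁻¹ * A * P : G) : M2).col 0 = z • ((P⁻¹ * P : G) : M2).col 0 := by
    rw [mul_assoc, Units.val_mul P⁻¹ (A * P), Units.val_mul P⁻¹ P]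
    funext i
    simp only [Matrix.col_apply, Pi.smul_apply, smul_eq_mul, Matrix.mul_apply, Fin.sum_univ_two]
    have e0 := congrFun e 0
    have e1 := congrFun e 1
    simp only [Matrix.col_apply, Pi.smul_apply, smul_eq_mul] at e0 e1
    rw [e0, e1]
    ring
  have := congrFun e' 1
  rw [inv_mul_cancel] at this
  simpa using this

section normal

/-- A normal subgroup with a nonscalar element of determinant one has the lower unipotents. -/
theorem low_mem {K : Subgroup (GL (Fin 2) (ZMod l))} [hK : K.Normal] (h5 : 5 ≤ l) {A : G} (hA : A ∈ K) (hd : (A : M2).det = 1) (hns : NonScalar A) (x : ZMod l) :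
    low x ∈ K := by
  -- the companion matrix
  obtain ⟨v, hv⟩ : ∃ v : Fin 2 → ZMod l, v 0 * ((A : M2) *ᵥ v) 1 - v 1 * ((A : M2) *ᵥ v) 0 ≠ 0 := by
    by_contra hall
    push Not at hall
    have h1 := hall ![1, 0]
    have h2 := hall ![0, 1]
    have h3 := hall ![1, 1]
    simp [mulVec, dotProduct, Fin.sum_univ_two] at h1 h2 h3
    refine hns ⟨(A : M2) 0 0, ?_⟩
    ext i j
    fin_cases i <;> fin_cases j
    · simp [scalar_apply]
    · simp [scalar_apply, h2]
    · simp [scalar_apply, h1]
    · simp [scalar_apply]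
      linear_combination h3 - h1 + h2
  let P : G := GeneralLinearGroup.mkOfDetNeZero
    !![v 0, ((A : M2) *ᵥ v) 0; v 1, ((A : M2) *ᵥ v) 1] (by
      rw [det_fin_two_of]; intro e; exact hv (by linear_combination e))
  have hd' : (A : M2) 0 0 * (A : M2) 1 1 - (A : M2) 0 1 * (A : M2) 1 0 = 1 := by
    rw [← det_fin_two]; exact hd
  let C : G := GeneralLinearGroup.mkOfDetNeZero !![0, -1; 1, (A : M2).trace]
    (by simp [det_fin_two_of])
  have hC : C ∈ K := by
    have e : A * P = P * C := by
      refine Units.ext ?_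
      ext i j
      fin_cases i <;> fin_cases j
      · simp [P, C, mulVec, dotProduct, Matrix.mul_apply, Fin.sum_univ_two]
      · simp [P, C, mulVec, dotProduct, Matrix.mul_apply, Fin.sum_univ_two, trace_fin_two]
        linear_combination (-(v 0)) * hd'
      · simp [P, C, mulVec, dotProduct, Matrix.mul_apply, Fin.sum_univ_two]
      · simp [P, C, mulVec, dotProduct, Matrix.mul_apply, Fin.sum_univ_two, trace_fin_two]
        linear_combination (-(v 1)) * hd'
    have e' : C = P⁻¹ * A * P⁻¹⁻¹ := by rw [inv_inv, mul_assoc, e, inv_mul_cancel_left]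
    rw [e']
    exact hK.conj_mem A hA P⁻¹
  -- a triangular element with distinct diagonal entries
  have h2 : (2 : ZMod l) ≠ 0 := by
    rw [← Nat.cast_ofNat (R := ZMod l), Ne, ZMod.natCast_eq_zero_iff]
    exact fun h => absurd (Nat.le_of_dvd (by norm_num) h) (by omega)
  have h3 : (3 : ZMod l) ≠ 0 := by
    rw [← Nat.cast_ofNat (R := ZMod l), Ne, ZMod.natCast_eq_zero_iff]
    exact fun h => absurd (Nat.le_of_dvd (by norm_num) h) (by omega)
  let D : G := GeneralLinearGroup.mkOfDetNeZero !![2, 0; 0, 1] (by simp [det_fin_two_of, h2])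
  let T : G := GeneralLinearGroup.mkOfDetNeZero !![2⁻¹, 0; (A : M2).trace * 2⁻¹, 2]
    (by simp [det_fin_two_of, h2])
  have hT : T ∈ K := by
    have e : T * D * C = C * D := by
      refine Units.ext ?_
      ext i j
      fin_cases i <;> fin_cases j <;>
        · simp [T, D, C, Matrix.mul_apply, Fin.sum_univ_two, h2]
          try field_simp
          try ring
    have e' : T = C * (D * C⁻¹ * D⁻¹) := by
      rw [show C * (D * C⁻¹ * D⁻¹) = C * D * C⁻¹ * D⁻¹ by group, ← e]
      group
    rw [e']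
    exact K.mul_mem hC (hK.conj_mem _ (K.inv_mem hC) D)
  have hN : ∀ y : ZMod l, low (3 * y) ∈ K := fun y => by
    have e : low (3 * y) * low y * T = T * low y := by
      refine Units.ext ?_
      ext i j
      fin_cases i <;> fin_cases j <;>
        · simp [T, Matrix.mul_apply, Fin.sum_univ_two]
          try field_simp
          try ring
    have e' : low (3 * y) = T * (low y * T⁻¹ * (low y)⁻¹) := by
      rw [show T * (low y * T⁻¹ * (low y)⁻¹) = T * low y * T⁻¹ * (low y)⁻¹ by group, ← e]
      group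
    rw [e']
    exact K.mul_mem hT (hK.conj_mem _ (K.inv_mem hT) _)
  have := hN (x / 3)
  rwa [mul_div_cancel₀ _ h3] at this

/-- Such a subgroup contains everything of determinant one. -/
theorem mem_of_det_one {K : Subgroup (GL (Fin 2) (ZMod l))} [hK : K.Normal] (h5 : 5 ≤ l) {A : G} (hA : A ∈ K) (hd : (A : M2).det = 1) (hns : NonScalar A) {B : G}
    (hB : (B : M2).det = 1) : B ∈ K := by
  have hlow := low_mem h5 hA hd hns
  have hup : ∀ x, up x ∈ K := fun x => by
    let w : G := GeneralLinearGroup.mkOfDetNeZero !![0, 1; 1, 0] (by simp [det_fin_two_of])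
    have e : up x * w = w * low x := by
      refine Units.ext ?_
      ext i j
      fin_cases i <;> fin_cases j <;> simp [w, Matrix.mul_apply, Fin.sum_univ_two]
    rw [show up x = w * low x * w⁻¹ from eq_mul_inv_of_mul_eq e]
    exact hK.conj_mem _ (hlow x) w
  have key : ∀ B : G, (B : M2).det = 1 → (B : M2) 1 0 ≠ 0 → B ∈ K := fun B hB hc => by
    have e : B = up (((B : M2) 0 0 - 1) / (B : M2) 1 0) * low ((B : M2) 1 0) *
        up (((B : M2) 1 1 - 1) / (B : M2) 1 0) := by
      refine Units.ext ?_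
      have hB' := hB
      rw [det_fin_two] at hB'
      ext i j
      fin_cases i <;> fin_cases j <;> simp [Matrix.mul_apply, Fin.sum_univ_two] <;> field_simp
      all_goals first
        | linear_combination hB'
        | linear_combination -hB'
        | linear_combination -2 * hB'
        | linear_combination 2 * hB'
        | ring1
    rw [e]
    exact K.mul_mem (K.mul_mem (hup _) (hlow _)) (hup _)
  by_cases hc : (B : M2) 1 0 = 0
  · have h00 : (B : M2) 0 0 ≠ 0 := fun h => by simp [det_fin_two, hc, h] at hB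
    have := key (low 1 * B) (by rw [Units.val_mul, det_mul, hB, coe_low, det_fin_two_of]; ring)
      (by simp [Matrix.mul_apply, Fin.sum_univ_two, hc, h00])
    exact (K.mul_mem_cancel_left (hlow 1)).mp this
  · exact key B hB hc

end normal

/-- A matrix of trace `2` which is a unipotent times a scalar partner of the identity is that
unipotent. -/
theorem eq_up_of_mem (h2 : (2 : ZMod l) ≠ 0) {H : Subgroup (G × G)}
    (hk2 : ∀ B, (1, B) ∈ H → ¬ NonScalar B) {r : ZMod l} {B : G} (htr : (B : M2).trace = 2)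
    (h : (1, B * up (-r)) ∈ H) : B = up r := by
  obtain ⟨s, hs⟩ := not_not.mp (hk2 _ h)
  have hBe : B = (B * up (-r)) * up r := by
    rw [mul_assoc, up_mul, neg_add_cancel]
    simp [show up (0 : ZMod l) = 1 from Units.ext (by simp [one_fin_two])]
  have hs1 : s = 1 := by
    rw [hBe, Units.val_mul, hs] at htr
    simp [trace_fin_two, Matrix.mul_apply, Fin.sum_univ_two, scalar_apply] at htr
    exact mul_left_cancel₀ h2 (by linear_combination htr : (2 : ZMod l) * s = 2 * 1)
  rw [hBe, show B * up (-r) = 1 from Units.ext (by rw [hs, hs1]; simp), one_mul]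

/-- Upper triangular matrices have upper triangular partners, with the same diagonal up to a common
sign. -/
theorem partner_of_triangular (h2 : (2 : ZMod l) ≠ 0) {H : Subgroup (G × G)}
    (hdet : ∀ p ∈ H, (p.1 : M2).det = (p.2 : M2).det) (hk2 : ∀ B, (1, B) ∈ H → ¬ NonScalar B)
    {c : ZMod l} (hu : ((up c, up 1) : G × G) ∈ H) {A B : G} (hAB : (A, B) ∈ H)
    (h10 : (A : M2) 1 0 = 0) :
    (B : M2) 1 0 = 0 ∧ (B : M2) 0 0 = (A : M2) 0 0 / (A : M2) 1 1 * (B : M2) 1 1 ∧
      (B : M2) 1 1 ^ 2 = (A : M2) 1 1 ^ 2 := by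
  set a := (A : M2) 0 0
  set d := (A : M2) 1 1
  have hd := det_ne_zero' A
  rw [det_fin_two, h10, mul_zero, sub_zero] at hd
  have hd0 : d ≠ 0 := right_ne_zero_of_mul hd
  set r := a / d with hr
  have hA : A * up c * A⁻¹ = up (r * c) := by
    rw [mul_inv_eq_iff_eq_mul]
    refine Units.ext ?_
    ext i j
    fin_cases i <;> fin_cases j <;> simp [Matrix.mul_apply, Fin.sum_univ_two, h10]
    simp only [r, a, d]
    rw [div_mul_eq_mul_div, div_mul_cancel₀ _ hd0]
    ring
  have hk : ∀ k : ZMod l, (up (k * c), up k) ∈ H := fun k => by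
    have := H.pow_mem hu k.val
    rw [Prod.pow_mk, up_pow, up_pow, ZMod.natCast_val, ZMod.cast_id, mul_one] at this
    exact this
  have hmem : (1, B * up 1 * B⁻¹ * up (-r)) ∈ H := by
    have h := H.mul_mem (H.mul_mem (H.mul_mem hAB hu) (H.inv_mem hAB)) (hk (-r))
    simp only [Prod.mk_mul_mk, Prod.inv_mk, hA, up_mul] at h
    rwa [show r * c + -r * c = 0 by ring,
      show up (0 : ZMod l) = 1 from Units.ext (by simp [one_fin_two])] at h
  have hB := eq_up_of_mem h2 hk2 (by rw [trace_conj]; simp [trace_fin_two]; norm_num) hmem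
  rw [mul_inv_eq_iff_eq_mul] at hB
  have e := congrArg Units.val hB
  rw [Units.val_mul, Units.val_mul] at e
  have e00 := congrFun (congrFun e 0) 0
  have e01 := congrFun (congrFun e 0) 1
  simp [Matrix.mul_apply, Fin.sum_univ_two] at e00 e01
  have hr0 : r ≠ 0 := div_ne_zero (left_ne_zero_of_mul hd) hd0
  have g0 : (B : M2) 1 0 = 0 := e00.resolve_left hr0
  have e2 := hdet _ hAB
  simp only [det_fin_two, h10, g0, mul_zero, sub_zero] at e2
  have hBe : (B : M2) 0 0 = r * (B : M2) 1 1 := by linear_combination e01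
  rw [hBe] at e2
  have hh : (B : M2) 1 1 ^ 2 = d ^ 2 := by
    have : r * (B : M2) 1 1 ^ 2 = r * d ^ 2 := by
      have ha : (A : M2) 0 0 = r * d := by rw [hr, div_mul_cancel₀ _ hd0]
      linear_combination -e2 + d * ha
    exact mul_left_cancel₀ hr0 this
  exact ⟨g0, hBe, hh⟩

/-- Upper triangular matrices have partners with the same trace up to sign. -/
theorem trace_sq_of_triangular (h2 : (2 : ZMod l) ≠ 0) {H : Subgroup (G × G)}
    (hdet : ∀ p ∈ H, (p.1 : M2).det = (p.2 : M2).det) (hk2 : ∀ B, (1, B) ∈ H → ¬ NonScalar B)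
    {c : ZMod l} (hu : ((up c, up 1) : G × G) ∈ H) {A B : G} (hAB : (A, B) ∈ H)
    (h10 : (A : M2) 1 0 = 0) :
    (A : M2).trace ^ 2 = (B : M2).trace ^ 2 := by
  obtain ⟨-, hBe, hh⟩ := partner_of_triangular h2 hdet hk2 hu hAB h10
  have hd := det_ne_zero' A
  rw [det_fin_two, h10, mul_zero, sub_zero] at hd
  rw [trace_fin_two, trace_fin_two, hBe]
  set r := (A : M2) 0 0 / (A : M2) 1 1 with hr
  rw [show (A : M2) 0 0 = r * (A : M2) 1 1 by rw [hr, div_mul_cancel₀ _ (right_ne_zero_of_mul hd)]]
  linear_combination (-(r + 1) ^ 2) * hh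

/-- Off the triangular matrices the lower left entry and the trace change by one common sign. -/
theorem exists_sign (h7 : 7 ≤ l) {H : Subgroup (G × G)} (h1 : ∀ A, ∃ B, (A, B) ∈ H)
    (hdet : ∀ p ∈ H, (p.1 : M2).det = (p.2 : M2).det) (hk2 : ∀ B, (1, B) ∈ H → ¬ NonScalar B)
    {c : ZMod l} (hc : c ≠ 0) (hu : ((up c, up 1) : G × G) ∈ H) {A B : G} (hAB : (A, B) ∈ H)
    (h10 : (A : M2) 1 0 ≠ 0) :
    ∃ γ : ZMod l, γ ^ 2 = 1 ∧ (B : M2) 1 0 = γ * (c * (A : M2) 1 0) ∧
      (B : M2).trace = γ * (A : M2).trace := by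
  set t := (A : M2).trace with ht
  set t' := (B : M2).trace with ht'
  set δ := (A : M2).det with hδ
  set c₁ := (A : M2) 1 0
  set γ := (B : M2) 1 0 / (c * c₁) with hγ
  have h2 : (2 : ZMod l) ≠ 0 := two_ne_zero_of h7
  let p : Polynomial (ZMod l) := (Polynomial.X ^ 2 + Polynomial.C δ) ^ 2 -
    (Polynomial.C t' * Polynomial.X +
      Polynomial.C γ * (Polynomial.X ^ 2 + Polynomial.C δ - Polynomial.C t * Polynomial.X)) ^ 2
  have hroot : ∀ z : ZMod l, z ≠ 0 → p.eval z = 0 := fun z hz => by
    set x := (z + δ / z - t) / c₁ with hx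
    have hmem : (A * up x, B * up (x / c)) ∈ H := by
      have := H.pow_mem hu (x / c).val
      rw [Prod.pow_mk, up_pow, up_pow, ZMod.natCast_val, ZMod.cast_id, mul_one,
        div_mul_cancel₀ _ hc] at this
      exact H.mul_mem hAB this
    have htA : ((A * up x : G) : M2).trace = z + δ / z := by
      rw [Units.val_mul, trace_fin_two]
      simp [Matrix.mul_apply, Fin.sum_univ_two]
      rw [hx, ht, trace_fin_two]
      field_simp
      ring
    have hdA : ((A * up x : G) : M2).det = δ := by simp [Units.val_mul, det_mul, det_fin_two_of, hδ]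
    have hev : (((A * up x : G) : M2) - scalar (Fin 2) z).det = 0 := by
      rw [trace_fin_two] at htA
      rw [det_fin_two] at hdA
      simp [det_fin_two, scalar_apply] at htA hdA ⊢
      field_simp at htA
      linear_combination hdA - htA
    obtain ⟨P, hP⟩ := exists_triangular _ hev
    obtain ⟨Q, hQ⟩ := h1 P
    have h := trace_sq_of_triangular h2 hdet hk2 hu (H.mul_mem (H.mul_mem (H.inv_mem hQ) hmem) hQ) hP
    simp only [Prod.mk_mul_mk, Prod.inv_mk] at h
    have hconj : ∀ P X : G, ((P⁻¹ * X * P : G) : M2).trace = (X : M2).trace := fun P X => by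
      simpa using trace_conj X P⁻¹
    rw [hconj, hconj, htA] at h
    have htB : ((B * up (x / c) : G) : M2).trace = t' + (B : M2) 1 0 * (x / c) := by
      rw [Units.val_mul, trace_fin_two]
      simp [Matrix.mul_apply, Fin.sum_univ_two, ht', trace_fin_two]
      ring
    rw [htB] at h
    simp only [p, Polynomial.eval_sub, Polynomial.eval_pow, Polynomial.eval_add, Polynomial.eval_mul,
      Polynomial.eval_C, Polynomial.eval_X]
    rw [hx, show (B : M2) 1 0 = γ * (c * c₁) by rw [hγ, div_mul_cancel₀ _ (mul_ne_zero hc h10)]] at h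
    field_simp at h
    linear_combination h
  have hp0 : p = 0 := by
    refine Polynomial.eq_zero_of_natDegree_lt_card_of_eval_eq_zero' p
      (Finset.univ.erase (0 : ZMod l)) (fun z hz => hroot z (Finset.ne_of_mem_erase hz)) ?_
    rw [Finset.card_erase_of_mem (Finset.mem_univ _), Finset.card_univ, ZMod.card]
    have : p.natDegree ≤ 4 := by simp only [p]; compute_degree
    omega
  have h4 : p.coeff 4 = 0 := by rw [hp0, Polynomial.coeff_zero]
  have h3 : p.coeff 3 = 0 := by rw [hp0, Polynomial.coeff_zero]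
  have hp : p = Polynomial.C (1 - γ ^ 2) * Polynomial.X ^ 4 +
      Polynomial.C (-(2 * γ * (t' - γ * t))) * Polynomial.X ^ 3 +
      Polynomial.C (2 * δ - (t' - γ * t) ^ 2 - 2 * γ ^ 2 * δ) * Polynomial.X ^ 2 +
      Polynomial.C (-(2 * γ * δ * (t' - γ * t))) * Polynomial.X +
      Polynomial.C (δ ^ 2 - γ ^ 2 * δ ^ 2) := by
    simp only [p, map_sub, map_mul, map_pow, map_neg, map_one, map_ofNat]
    ring
  rw [hp] at h4 h3
  simp only [Polynomial.coeff_add, Polynomial.coeff_C_mul, Polynomial.coeff_X_pow,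
    Polynomial.coeff_X, Polynomial.coeff_C] at h4 h3
  norm_num at h4 h3
  have hg : γ ^ 2 = 1 := (sub_eq_zero.mp h4).symm
  have hg0 : γ ≠ 0 := fun e => by rw [e] at hg; simp at hg
  refine ⟨γ, hg, ?_, sub_eq_zero.mp (h3.resolve_left (not_or.mpr ⟨h2, hg0⟩))⟩
  rw [hγ, div_mul_cancel₀ _ (mul_ne_zero hc h10)]

/-- All pairs have the same trace up to sign. -/
theorem trace_sq_core (h7 : 7 ≤ l) {H : Subgroup (G × G)} (h1 : ∀ A, ∃ B, (A, B) ∈ H)
    (hdet : ∀ p ∈ H, (p.1 : M2).det = (p.2 : M2).det) (hk2 : ∀ B, (1, B) ∈ H → ¬ NonScalar B)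
    {c : ZMod l} (hc : c ≠ 0) (hu : ((up c, up 1) : G × G) ∈ H) {A B : G} (hAB : (A, B) ∈ H) :
    (A : M2).trace ^ 2 = (B : M2).trace ^ 2 := by
  by_cases h10 : (A : M2) 1 0 = 0
  · exact trace_sq_of_triangular (two_ne_zero_of h7) hdet hk2 hu hAB h10
  · obtain ⟨γ, hg, -, ht⟩ := exists_sign h7 h1 hdet hk2 hc hu hAB h10
    rw [ht]
    linear_combination (-(A : M2).trace ^ 2) * hg

/-- The second coordinate of a subgroup conjugated. -/
def conjSnd (Q : G) (H : Subgroup (G × G)) : Subgroup (G × G) :=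
  H.comap ((MonoidHom.id G).prodMap (MulAut.conj Q).toMonoidHom)

theorem mem_conjSnd {Q : G} {H : Subgroup (G × G)} {X Y : G} :
    (X, Y) ∈ conjSnd Q H ↔ (X, Q * Y * Q⁻¹) ∈ H := Iff.rfl

/-- Conjugating the second coordinate keeps the properties used here. -/
theorem conjSnd_props (Q : G) {H : Subgroup (G × G)} (h1 : ∀ A, ∃ B, (A, B) ∈ H)
    (hdet : ∀ p ∈ H, (p.1 : M2).det = (p.2 : M2).det) (hk2 : ∀ B, (1, B) ∈ H → ¬ NonScalar B) :
    (∀ A, ∃ B, (A, B) ∈ conjSnd Q H) ∧
      (∀ p ∈ conjSnd Q H, (p.1 : M2).det = (p.2 : M2).det) ∧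
      ∀ B, (1, B) ∈ conjSnd Q H → ¬ NonScalar B := by
  refine ⟨fun X => ?_, fun p hp => ?_, fun Y hY hns => hk2 _ (mem_conjSnd.mp hY) ?_⟩
  · obtain ⟨Y, hY⟩ := h1 X
    exact ⟨Q⁻¹ * Y * Q, mem_conjSnd.mpr (by simpa [mul_assoc] using hY)⟩
  · have := hdet _ (mem_conjSnd.mp (show (p.1, p.2) ∈ conjSnd Q H from hp))
    rwa [Units.val_mul, Units.val_mul, det_units_conj] at this
  · rintro ⟨s, hs⟩
    refine hns ⟨s, ?_⟩
    rw [show Y = Q⁻¹ * (Q * Y * Q⁻¹) * Q by group, Units.val_mul, Units.val_mul, hs,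
      ← scalar_commute s (fun r => mul_comm s r) (↑Q⁻¹ : M2), mul_assoc, ← Units.val_mul,
      inv_mul_cancel, Units.val_one, mul_one]

/-- A nonscalar partner of the identity gives every pair. -/
theorem full_of_nonscalar (h7 : 7 ≤ l) {H : Subgroup (G × G)} (h1 : ∀ A, ∃ B, (A, B) ∈ H)
    (hdet : ∀ p ∈ H, (p.1 : M2).det = (p.2 : M2).det) (h2 : ∀ B, ∃ A, (A, B) ∈ H)
    (hk : ¬ ((∀ A, (A, 1) ∈ H → ¬ NonScalar A) ∧ ∀ B, (1, B) ∈ H → ¬ NonScalar B))
    (A B : G) (hAB : (A : M2).det = (B : M2).det) : (A, B) ∈ H := by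
  rcases not_and_or.mp hk with hk | hk <;> push Not at hk <;> obtain ⟨N, hN, hns⟩ := hk
  · let K : Subgroup G := H.comap (MonoidHom.inl G G)
    haveI : K.Normal := ⟨fun X hX Y => by
      obtain ⟨Z, hZ⟩ := h1 Y
      have := H.mul_mem (H.mul_mem hZ hX) (H.inv_mem hZ)
      simpa [K] using this⟩
    obtain ⟨A', hA'⟩ := h2 B
    have hd := hdet _ hA'
    have hmem : A * A'⁻¹ ∈ K := mem_of_det_one (by omega) (show N ∈ K from hN)
      (by simpa using hdet _ hN) hns (by
        have e : ((A'⁻¹ : G) : M2).det * (A' : M2).det = 1 := by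
          rw [← det_mul, ← Units.val_mul, inv_mul_cancel, Units.val_one, det_one]
        rw [Units.val_mul, det_mul, hAB, ← hd, mul_comm]; exact e)
    have := H.mul_mem (show (A * A'⁻¹, 1) ∈ H from hmem) hA'
    simpa using this
  · let K : Subgroup G := H.comap (MonoidHom.inr G G)
    haveI : K.Normal := ⟨fun X hX Y => by
      obtain ⟨Z, hZ⟩ := h2 Y
      have := H.mul_mem (H.mul_mem hZ hX) (H.inv_mem hZ)
      simpa [K] using this⟩
    obtain ⟨B', hB'⟩ := h1 A
    have hd := hdet _ hB'
    have hmem : B * B'⁻¹ ∈ K := mem_of_det_one (by omega) (show N ∈ K from hN)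
      (by simpa using (hdet _ hN).symm) hns (by
        have e : ((B'⁻¹ : G) : M2).det * (B' : M2).det = 1 := by
          rw [← det_mul, ← Units.val_mul, inv_mul_cancel, Units.val_one, det_one]
        rw [Units.val_mul, det_mul, ← hAB, hd, mul_comm]; exact e)
    have := H.mul_mem (show (1, B * B'⁻¹) ∈ H from hmem) hB'
    simpa using this


/-- Otherwise the partner of the unipotent is one, after conjugation. -/
theorem exists_conj_unipotent (h7 : 7 ≤ l) {H : Subgroup (G × G)} (h1 : ∀ A, ∃ B, (A, B) ∈ H)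
    (hdet : ∀ p ∈ H, (p.1 : M2).det = (p.2 : M2).det) (hk1 : ∀ A, (A, 1) ∈ H → ¬ NonScalar A)
    (hk2 : ∀ B, (1, B) ∈ H → ¬ NonScalar B) :
    ∃ Q : G, ((up 1, Q * up 1 * Q⁻¹) : G × G) ∈ H := by
  have h20 : (2 : ZMod l) ≠ 0 := two_ne_zero_of h7
  obtain ⟨v, hv⟩ := h1 (up 1)
  -- the square of the partner of a unipotent is unipotent
  have hne : v * v ≠ 1 := fun e => by
    have h := H.mul_mem hv hv
    rw [Prod.mk_mul_mk, e, up_mul] at h
    refine hk1 _ h fun ⟨s, hs⟩ => h20 ?_
    have := congrFun (congrFun hs 0) 1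
    simpa [scalar_apply, ← two_mul, one_add_one_eq_two] using this
  obtain ⟨s, hs⟩ := not_not.mp (hk2 (v ^ l) (by
    have := H.pow_mem hv l
    rwa [Prod.pow_mk, up_pow, ZMod.natCast_self, zero_mul,
      show up (0 : ZMod l) = 1 from Units.ext (by simp [one_fin_two])] at this))
  have hdv : (v : M2).det = 1 := by simpa [det_fin_two_of] using (hdet _ hv).symm
  have hpow : ((v * v : G) : M2) ^ l = 1 := by
    have : s * s = 1 := by
      have := congrArg Matrix.det hs
      rw [Units.val_pow_eq_pow_val, det_pow, hdv, one_pow, scalar_apply, det_diagonal,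
        Fin.prod_univ_two] at this
      exact this.symm
    rw [← Units.val_pow_eq_pow_val, (Commute.refl v).mul_pow, Units.val_mul, hs,
      ← map_mul, this, map_one]
  set N := ((v * v : G) : M2) - 1 with hN
  haveI : CharP M2 l := charP_of_injective_algebraMap (FaithfulSMul.algebraMap_injective (ZMod l) M2) l
  have hNl : N ^ l = 0 := by
    rw [hN, sub_pow_char_of_commute (p := l) (Commute.one_right _), hpow, one_pow, sub_self]
  have hdN : N.det = 0 := by
    have := congrArg Matrix.det hNl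
    rw [det_pow, det_zero] at this
    exact pow_eq_zero_iff hl.out.ne_zero |>.mp this
  have hdvv : ((v * v : G) : M2).det = 1 := by rw [Units.val_mul, det_mul, hdv, one_mul]
  have htN : N.trace = 0 := by
    rw [hN, det_fin_two] at hdN
    rw [det_fin_two] at hdvv
    simp [hN, trace_fin_two] at hdN hdvv ⊢
    linear_combination hdvv - hdN
  have hNN : N * N = 0 := by
    rw [det_fin_two] at hdN
    rw [trace_fin_two] at htN
    ext i j
    fin_cases i <;> fin_cases j <;> simp [Matrix.mul_apply, Fin.sum_univ_two]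
    · linear_combination N 0 0 * htN - hdN
    · linear_combination N 0 1 * htN
    · linear_combination N 1 0 * htN
    · linear_combination N 1 1 * htN - hdN
  obtain ⟨w, hw⟩ : ∃ w, N *ᵥ w ≠ 0 := by
    by_contra hall
    push Not at hall
    refine hne (Units.ext ?_)
    rw [Units.val_one]
    exact sub_eq_zero.mp (show N = 0 from
      Matrix.ext_of_mulVec_single fun i => by rw [hall, zero_mulVec])
  let P : M2 := !![(N *ᵥ w) 0, w 0; (N *ᵥ w) 1, w 1]
  have hPN : N * P = P * !![0, 1; 0, 0] := by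
    have h := congrArg (· *ᵥ w) hNN
    simp only [← mulVec_mulVec, zero_mulVec] at h
    have h0 := congrFun h 0
    have h1 := congrFun h 1
    simp [mulVec, dotProduct, Fin.sum_univ_two] at h0 h1
    ext i j
    fin_cases i <;> fin_cases j <;> simp [P, Matrix.mul_apply, Fin.sum_univ_two, mulVec, dotProduct]
    exacts [h0, h1]
  have hP : P.det ≠ 0 := fun h => by
    obtain ⟨x, hx, hPx⟩ := exists_mulVec_eq_zero_iff.mpr h
    have e := congrArg (N *ᵥ ·) hPx
    simp only [mulVec_mulVec, hPN, mulVec_zero] at e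
    have e0 := congrFun e 0
    have e1 := congrFun e 1
    have f0 := congrFun hPx 0
    have f1 := congrFun hPx 1
    simp [P, mulVec, dotProduct, Fin.sum_univ_two, Matrix.mul_apply] at e0 e1 f0 f1
    by_cases hx1 : x 1 = 0
    · have hx0 : x 0 ≠ 0 := fun h0 => hx (funext fun i => by fin_cases i <;> assumption)
      refine hw (funext fun i => ?_)
      simp [hx1] at f0 f1
      fin_cases i <;> simp [mulVec, dotProduct, Fin.sum_univ_two]
      exacts [f0.resolve_right hx0, f1.resolve_right hx0]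
    · refine hw (funext fun i => ?_)
      fin_cases i <;> simp [mulVec, dotProduct, Fin.sum_univ_two]
      exacts [e0.resolve_right hx1, e1.resolve_right hx1]
  let Q : G := GeneralLinearGroup.mkOfDetNeZero P hP
  have hu' : ((up 2, Q * up 1 * Q⁻¹) : G × G) ∈ H := by
    have e : Q * up 1 = v * v * Q := by
      refine Units.ext ?_
      rw [Units.val_mul, Units.val_mul, show ((v * v : G) : M2) = N + 1 by rw [hN, sub_add_cancel],
        add_mul, one_mul, show (Q : M2) = P from rfl, hPN, ← mul_add_one, coe_up]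
      congr 1
      simp [one_fin_two]
    rw [e, mul_inv_cancel_right]
    have := H.mul_mem hv hv
    rwa [Prod.mk_mul_mk, up_mul, one_add_one_eq_two] at this
  let D : G := GeneralLinearGroup.mkOfDetNeZero !![2⁻¹, 0; 0, 1]
    (by simp [det_fin_two_of, h20])
  refine ⟨Q * D, ?_⟩
  have e : Q * D * up 1 * (Q * D)⁻¹ = (Q * up 1 * Q⁻¹) ^ (2⁻¹ : ZMod l).val := by
    have hD : D * up 1 = up 2⁻¹ * D := by
      refine Units.ext ?_
      ext i j
      fin_cases i <;> fin_cases j <;> simp [D, Matrix.mul_apply, Fin.sum_univ_two]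
    rw [conj_pow, up_pow, ZMod.natCast_val, ZMod.cast_id, mul_one, mul_assoc Q D, hD]
    group
  have := H.pow_mem hu' (2⁻¹ : ZMod l).val
  rw [Prod.pow_mk, up_pow, ZMod.natCast_val, ZMod.cast_id, inv_mul_cancel₀ h20, ← e] at this
  exact this

/-- **Goursat for two copies of `GL₂(𝔽_l)`**: a subgroup with surjective projections and equal
determinants has every such pair, or all its pairs have equal squares of traces. -/
theorem full_or_trace_sq (h7 : 7 ≤ l) {H : Subgroup (G × G)} (h1 : ∀ A, ∃ B, (A, B) ∈ H)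
    (hdet : ∀ p ∈ H, (p.1 : M2).det = (p.2 : M2).det) (h2 : ∀ B, ∃ A, (A, B) ∈ H) :
    (∀ A B : G, (A : M2).det = (B : M2).det → (A, B) ∈ H) ∨
      ∀ A B : G, (A, B) ∈ H → (A : M2).trace ^ 2 = (B : M2).trace ^ 2 := by
  by_cases hk : (∀ A, (A, 1) ∈ H → ¬ NonScalar A) ∧ ∀ B, (1, B) ∈ H → ¬ NonScalar B
  · refine Or.inr fun A B hAB => ?_
    obtain ⟨Q, hQ⟩ := exists_conj_unipotent h7 h1 hdet hk.1 hk.2
    obtain ⟨g1, gdet, gk⟩ := conjSnd_props Q h1 hdet hk.2
    have h := trace_sq_core h7 g1 gdet gk one_ne_zero (mem_conjSnd.mpr hQ) (A := A)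
      (B := Q⁻¹ * B * Q) (mem_conjSnd.mpr (by simpa [mul_assoc] using hAB))
    rw [h]
    congr 1
    simpa using trace_conj B Q⁻¹
  · exact Or.inl (full_of_nonscalar h7 h1 hdet h2 hk)

end FA.Independence

end
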