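import Fermat.Agent.Root.SummaryIndependence
import Fermat.Agent.OpenImageJ.KWOdd
import Mathlib.RingTheory.ZMod.UnitsCyclic
import Mathlib.NumberTheory.LSeries.PrimesInAP
import Mathlib.Algebra.Group.Subgroup.Finite
import Mathlib.LinearAlgebra.Matrix.GeneralLinearGroup.Card

/-!
# Two curves at several primes at once

If the pair of curves is independent modulo each of the primes `l_i`, and `l_i` never divides the
order of `GL₂(𝔽_{l_j})` for `j ≠ i`, then it is independent modulo all of them at once: a power of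
an element of Galois separates the unipotents, their conjugates give the matrices of determinant
one, and the cyclotomic character gives the determinants.
-/

set_option autoImplicit false
set_option linter.style.haveILetI false

noncomputable section

open Matrix WeierstrassCurve FA.Frob FA.RT

local notation "Qb" => AlgebraicClosure ℚ
local notation "GQ" => AlgebraicClosure ℚ ≃ₐ[ℚ] AlgebraicClosure ℚ

namespace FA.Independence

variable (W W' : WeierstrassCurve ℤ) [(ratCurve W).IsElliptic] [(ratCurve W').IsElliptic]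

/-- The pairs modulo several primes together. -/
def jointRep {k : ℕ} (l : Fin k → ℕ) [∀ i, Fact (l i).Prime] :
    GQ →* ∀ i, GL (Fin 2) (ZMod (l i)) × GL (Fin 2) (ZMod (l i)) :=
  MonoidHom.pi fun i => pairRep W W' (l i)

theorem jointRep_apply {k : ℕ} (l : Fin k → ℕ) [∀ i, Fact (l i).Prime] (σ : GQ) (i : Fin k) :
    jointRep W W' l σ i = pairRep W W' (l i) σ := rfl

theorem isOpen_ker_jointRep {k : ℕ} (l : Fin k → ℕ) [∀ i, Fact (l i).Prime] :
    IsOpen ((jointRep W W' l).ker : Set GQ) := by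
  refine Subgroup.isOpen_mono (H₁ := ⨅ i, (curveRep (l i) W).ker ⊓ (curveRep (l i) W').ker)
    (fun σ hσ => MonoidHom.mem_ker.mpr (funext fun i => ?_)) ?_
  · obtain ⟨h1, h2⟩ := Subgroup.mem_iInf.mp hσ i
    exact Prod.ext (Units.ext (MonoidHom.mem_ker.mp h1)) (Units.ext (MonoidHom.mem_ker.mp h2))
  · rw [Subgroup.coe_iInf]
    exact isOpen_iInter_of_finite fun i =>
      (isOpen_ker_curveRep W).inter (isOpen_ker_curveRep W')

/-- A prime dividing none of `l - 1`, `l`, `l + 1` is prime to the order of `GL₂(𝔽_l)`. -/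
theorem coprime_card_GL {p l : ℕ} [Fact l.Prime] (hp : p.Prime) (h0 : ¬ p ∣ l - 1) (h1 : ¬ p ∣ l)
    (h2 : ¬ p ∣ l + 1) : p.Coprime (Nat.card (GL (Fin 2) (ZMod l))) := by
  rw [hp.coprime_iff_not_dvd, Matrix.card_GL_field, Fin.prod_univ_two, ZMod.card]
  simp only [Fin.val_zero, Fin.val_one, pow_zero, pow_one]
  rw [show l ^ 2 - 1 = (l + 1) * (l - 1) by rw [← Nat.sq_sub_sq, one_pow],
    show l ^ 2 - l = l * (l - 1) by rw [Nat.mul_sub, mul_one, sq]]
  simp only [hp.dvd_mul, not_or]
  exact ⟨⟨h2, h0⟩, h1, h0⟩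

variable {W W'}

/-- **Independence at several primes at once.** -/
theorem exists_joint {k : ℕ} (l : Fin k → ℕ) [∀ i, Fact (l i).Prime] (h7 : ∀ i, 7 ≤ l i)
    (hinj : Function.Injective l)
    (hcop : ∀ i j, i ≠ j → (l i).Coprime (Nat.card (GL (Fin 2) (ZMod (l j)))))
    (hfull : ∀ (i : Fin k) (A B : GL (Fin 2) (ZMod (l i))),
      (A : Matrix (Fin 2) (Fin 2) (ZMod (l i))).det = (B : Matrix (Fin 2) (Fin 2) (ZMod (l i))).det →
        ∃ σ : GQ, pairRep W W' (l i) σ = (A, B))
    (g : ∀ i, GL (Fin 2) (ZMod (l i)) × GL (Fin 2) (ZMod (l i)))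
    (hg : ∀ i, ((g i).1 : Matrix (Fin 2) (Fin 2) (ZMod (l i))).det =
      ((g i).2 : Matrix (Fin 2) (Fin 2) (ZMod (l i))).det) :
    ∃ σ : GQ, jointRep W W' l σ = g := by
  classical
  set R := (jointRep W W' l).range
  -- the matrices of determinant one, one prime at a time
  have hsingle : ∀ (i : Fin k) (A B : GL (Fin 2) (ZMod (l i))),
      (A : Matrix (Fin 2) (Fin 2) (ZMod (l i))).det = 1 →
      (B : Matrix (Fin 2) (Fin 2) (ZMod (l i))).det = 1 → Pi.mulSingle i (A, B) ∈ R := by
    intro i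
    let H : Subgroup (GL (Fin 2) (ZMod (l i)) × GL (Fin 2) (ZMod (l i))) :=
      R.comap (MonoidHom.mulSingle (fun j => GL (Fin 2) (ZMod (l j)) × GL (Fin 2) (ZMod (l j))) i)
    have hconj : ∀ τ : GQ, ∀ x ∈ H, pairRep W W' (l i) τ * x * (pairRep W W' (l i) τ)⁻¹ ∈ H :=
      fun τ x hx => by
        show Pi.mulSingle i _ ∈ R
        have e : (Pi.mulSingle i (pairRep W W' (l i) τ * x * (pairRep W W' (l i) τ)⁻¹) :
            ∀ j, GL (Fin 2) (ZMod (l j)) × GL (Fin 2) (ZMod (l j))) =
            jointRep W W' l τ * Pi.mulSingle i x * (jointRep W W' l τ)⁻¹ := by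
          funext j
          by_cases hj : j = i
          · subst hj; simp [jointRep_apply]
          · simp [hj]
        rw [e]
        exact R.mul_mem (R.mul_mem ⟨τ, rfl⟩ hx) (R.inv_mem ⟨τ, rfl⟩)
    -- elements of order `l` give elements trivial at the other primes
    have hunip : ∀ x : GL (Fin 2) (ZMod (l i)) × GL (Fin 2) (ZMod (l i)), x ^ l i = 1 →
        (x.1 : Matrix (Fin 2) (Fin 2) (ZMod (l i))).det =
          (x.2 : Matrix (Fin 2) (Fin 2) (ZMod (l i))).det → x ∈ H := fun x hx hd => by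
      obtain ⟨τ, hτ⟩ := hfull i x.1 x.2 hd
      set m := ∏ j ∈ Finset.univ.erase i, Nat.card (GL (Fin 2) (ZMod (l j)))
      have hm : (l i).Coprime m :=
        Nat.Coprime.prod_right fun j hj => hcop i j (Finset.ne_of_mem_erase hj).symm
      obtain ⟨n, -, hn⟩ := Nat.exists_mul_mod_eq_one_of_coprime hm.symm
        (Fact.out : (l i).Prime).one_lt
      refine ⟨τ ^ (m * n), funext fun j => ?_⟩
      rw [map_pow, Pi.pow_apply, jointRep_apply]
      by_cases hj : j = i
      · subst hj
        rw [MonoidHom.mulSingle_apply, Pi.mulSingle_eq_same, hτ, Prod.mk.eta,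
          pow_eq_pow_mod (m * n) hx, hn, pow_one]
      · rw [MonoidHom.mulSingle_apply, Pi.mulSingle_eq_of_ne hj]
        obtain ⟨c, hc⟩ : Nat.card (GL (Fin 2) (ZMod (l j))) ∣ m * n :=
          (Finset.dvd_prod_of_mem _ (Finset.mem_erase.mpr ⟨hj, Finset.mem_univ j⟩)).mul_right n
        refine Prod.ext ?_ ?_ <;>
          simp only [Prod.pow_fst, Prod.pow_snd, hc, pow_mul, pow_card_eq_one', one_pow,
            Prod.fst_one, Prod.snd_one]
    have hup : ((up 1 : GL (Fin 2) (ZMod (l i))) ^ l i) = 1 := by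
      rw [up_pow, ZMod.natCast_self, zero_mul, up_zero]
    have hdup : ((up 1 : GL (Fin 2) (ZMod (l i))) : Matrix (Fin 2) (Fin 2) (ZMod (l i))).det = 1 :=
      by simp [det_fin_two_of]
    have hns : NonScalar (up 1 : GL (Fin 2) (ZMod (l i))) := fun ⟨s, hs⟩ => by
      have := congrFun (congrFun hs 0) 1
      simp [scalar_apply] at this
    intro A B hA hB
    have h5 : 5 ≤ l i := le_trans (by norm_num) (h7 i)
    have h1 : (A, (1 : GL (Fin 2) (ZMod (l i)))) ∈ H := by
      haveI : (H.comap (MonoidHom.inl _ _)).Normal := ⟨fun x hx y => by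
        obtain ⟨τ, hτ⟩ := hfull i y y rfl
        simpa [hτ] using hconj τ _ hx⟩
      exact mem_of_det_one (K := H.comap (MonoidHom.inl _ _)) h5
        (hunip (up 1, 1) (by rw [Prod.pow_mk, hup, one_pow]; rfl) (by simp [det_fin_two_of])) hdup hns hA
    have h2 : ((1 : GL (Fin 2) (ZMod (l i))), B) ∈ H := by
      haveI : (H.comap (MonoidHom.inr _ _)).Normal := ⟨fun x hx y => by
        obtain ⟨τ, hτ⟩ := hfull i y y rfl
        simpa [hτ] using hconj τ _ hx⟩
      exact mem_of_det_one (K := H.comap (MonoidHom.inr _ _)) h5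
        (hunip (1, up 1) (by rw [Prod.pow_mk, hup, one_pow]; rfl) (by simp [det_fin_two_of])) hdup
        hns hB
    have := H.mul_mem h1 h2
    rwa [Prod.mk_mul_mk, one_mul, mul_one] at this
  -- the determinants
  have hpair : Pairwise (Function.onFun Nat.Coprime l) := fun i j hij =>
    (Nat.coprime_primes Fact.out Fact.out).mpr (hinj.ne hij)
  set N := ∏ i, l i
  have hN : 0 < N := Finset.prod_pos fun i _ => (Fact.out : (l i).Prime).pos
  haveI : NeZero N := ⟨hN.ne'⟩
  haveI : NeZero (N : Qb) := ⟨Nat.cast_ne_zero.mpr hN.ne'⟩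
  let e := ZMod.prodEquivPi l hpair
  have hu : IsUnit (e.symm fun i => ((g i).1 : Matrix (Fin 2) (Fin 2) (ZMod (l i))).det) :=
    IsUnit.map e.symm (Pi.isUnit_iff.mpr fun i => (det_ne_zero' (g i).1).isUnit)
  obtain ⟨ζ, hζ⟩ := HasEnoughRootsOfUnity.exists_primitiveRoot Qb N
  set u := hu.unit
  obtain ⟨τ, hτ⟩ := FA.OpenImageJ.exists_apply_eq_pow hN hζ (ZMod.val_coe_unit_coprime u)
  have hdet : ∀ i, (curveRep (l i) W τ).det =
      ((g i).1 : Matrix (Fin 2) (Fin 2) (ZMod (l i))).det := fun i => by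
    have hroot : ∀ μ : Qb, μ ^ l i = 1 → τ μ = μ ^ (u : ZMod N).val := fun μ hμ => by
      obtain ⟨c, hc⟩ : l i ∣ N := Finset.dvd_prod_of_mem _ (Finset.mem_univ i)
      obtain ⟨r, -, rfl⟩ := hζ.eq_pow_of_pow_eq_one (ξ := μ) (by rw [hc, pow_mul, hμ, one_pow])
      rw [map_pow, hτ, ← pow_mul, ← pow_mul, mul_comm]
    rw [det_curveRep W τ _ hroot]
    have h1 := congrFun (e.apply_symm_apply
      fun i => ((g i).1 : Matrix (Fin 2) (Fin 2) (ZMod (l i))).det) i
    rw [← h1, show e.symm _ = (u : ZMod N) from rfl]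
    conv_rhs => rw [← ZMod.natCast_zmod_val (u : ZMod N), map_natCast, Pi.natCast_apply]
  -- what is left has determinants one
  set x := g * (jointRep W W' l τ)⁻¹ with hx
  suffices x ∈ R by
    obtain ⟨σ, hσ⟩ := this
    exact ⟨σ * τ, by rw [map_mul, hσ, hx, inv_mul_cancel_right]⟩
  refine Subgroup.pi_mem_of_mulSingle_mem x fun i => ?_
  have hone : ∀ (X Y : GL (Fin 2) (ZMod (l i))),
      (X : Matrix (Fin 2) (Fin 2) (ZMod (l i))).det = (Y : Matrix (Fin 2) (Fin 2) (ZMod (l i))).det →
        ((X * Y⁻¹ : GL (Fin 2) (ZMod (l i))) : Matrix (Fin 2) (Fin 2) (ZMod (l i))).det = 1 :=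
    fun X Y h => by
      rw [Units.val_mul, det_mul, h, ← det_mul, ← Units.val_mul, mul_inv_cancel, Units.val_one,
        det_one]
  exact hsingle i _ _ (hone _ _ (hdet i).symm)
    (hone _ _ ((hg i).symm.trans ((hdet i).symm.trans (det_eq W W' τ))))

/-- **Primes to which this applies**: arbitrarily many, beyond any bound. -/
theorem exists_separated_primes (M : ℕ) : ∀ k : ℕ, ∃ l : Fin k → ℕ,
    (∀ i, (l i).Prime ∧ M < l i ∧ 7 ≤ l i) ∧
      ∀ i j, i < j → l i + 1 < l j ∧ l j ≡ 2 [MOD l i]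
  | 0 => ⟨Fin.elim0, fun i => i.elim0, fun i => i.elim0⟩
  | k + 1 => by
    obtain ⟨l, hl, hlt⟩ := exists_separated_primes M k
    set P := ∏ i, l i
    have hP : P ≠ 0 := Finset.prod_ne_zero_iff.mpr fun i _ => (hl i).1.ne_zero
    have hP2 : Nat.Coprime 2 P := Nat.Coprime.prod_right fun i _ =>
      (Nat.coprime_primes Nat.prime_two (hl i).1).mpr (by have := (hl i).2.2; omega)
    obtain ⟨p, hp, hpp, hp2⟩ := Nat.forall_exists_prime_gt_and_modEq (max (max M 7) (P + 1)) hP hP2
    refine ⟨Fin.snoc l p, fun i => ?_, fun i j hij => ?_⟩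
    · induction i using Fin.lastCases with
      | last => simp only [Fin.snoc_last]; exact ⟨hpp, by omega, by omega⟩
      | cast i => simp only [Fin.snoc_castSucc]; exact hl i
    · induction i using Fin.lastCases with
      | last => exact absurd hij (Fin.le_last j).not_gt
      | cast i =>
        induction j using Fin.lastCases with
        | last =>
          simp only [Fin.snoc_last, Fin.snoc_castSucc]
          have hdvd : l i ∣ P := Finset.dvd_prod_of_mem _ (Finset.mem_univ i)
          have := Nat.le_of_dvd (Nat.pos_of_ne_zero hP) hdvd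
          exact ⟨by omega, hp2.of_dvd hdvd⟩
        | cast j =>
          simp only [Fin.snoc_castSucc]
          exact hlt i j (by simpa using hij)

/-- Separated primes are prime to each other's groups. -/
theorem coprime_of_separated {k : ℕ} (l : Fin k → ℕ) [∀ i, Fact (l i).Prime] (h7 : ∀ i, 7 ≤ l i)
    (h : ∀ i j, i < j → l i + 1 < l j ∧ l j ≡ 2 [MOD l i]) (i j : Fin k) (hij : i ≠ j) :
    (l i).Coprime (Nat.card (GL (Fin 2) (ZMod (l j)))) := by
  have hp : (l i).Prime := Fact.out
  have hq : (l j).Prime := Fact.out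
  have hi := h7 i
  rcases lt_or_gt_of_ne hij with hlt | hlt
  · obtain ⟨h1, h2⟩ := h i j hlt
    rw [Nat.ModEq, Nat.mod_eq_of_lt (show 2 < l i by omega)] at h2
    have hmod := Nat.mod_add_div (l j) (l i)
    refine coprime_card_GL hp ?_ ?_ ?_ <;>
    · rintro hd
      rw [Nat.dvd_iff_mod_eq_zero] at hd
      rw [show l j = 2 + l i * (l j / l i) by omega] at hd
      first
        | (rw [show 2 + l i * (l j / l i) - 1 = 1 + l i * (l j / l i) by omega,
            Nat.add_mul_mod_self_left, Nat.mod_eq_of_lt (by omega)] at hd; omega)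
        | (rw [show 2 + l i * (l j / l i) + 1 = 3 + l i * (l j / l i) by omega,
            Nat.add_mul_mod_self_left, Nat.mod_eq_of_lt (by omega)] at hd; omega)
        | (rw [Nat.add_mul_mod_self_left, Nat.mod_eq_of_lt (by omega)] at hd; omega)
  · obtain ⟨h1, -⟩ := h j i hlt
    have := hq.two_le
    refine coprime_card_GL hp ?_ ?_ ?_ <;>
    · intro hd
      have := Nat.le_of_dvd (by omega) hd
      omega

end FA.Independence

end
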