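import Fermat.Agent.Independence.AdelicGlue
import Fermat.Agent.Root.AdelicTransvection
import Fermat.Agent.OpenImageJ.KWOdd

/-!
# Full pairs at every odd level

Let each of two curves have, for every prime `l`, a multiplicative prime other than `l` at which
the other curve is good and whose exponent in the discriminant is prime to `l`. Inertia there is a
transvection on the one Tate module and trivial on the other, so with irreducible torsion and full
images of each curve every pair of matrices of equal determinant occurs at each prime power; the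
glueing of pairs then gives all of them at every odd level.
-/

set_option autoImplicit false
set_option linter.style.haveILetI false

noncomputable section

open Matrix WeierstrassCurve FA.EC FA.Frob FA.RT FA.RT.Tate FA.PadicImage
open scoped WeierstrassCurve.Affine

local notation "Qb" => AlgebraicClosure ℚ
local notation "GQ" => AlgebraicClosure ℚ ≃ₐ[ℚ] AlgebraicClosure ℚ

namespace FA.Independence.OddLevels

variable {W W' : WeierstrassCurve ℤ} [(ratCurve W).IsElliptic] [(ratCurve W').IsElliptic]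

/-- A transvection prime of the first curve at which the second is good gives all matrices on the
first Tate module with a given one on the second. -/
theorem exists_pair_of_good {l : ℕ} [hl : Fact l.Prime] (hirr : W.ModRepIsIrreducible l)
    (hreach' : ReachAll l W') {q : ℕ} {A : ValuationSubring Qb} (hm : MultAt W q A) (hql : q ≠ l)
    (hv : ¬ l ∣ padicValInt q W.Δ) (hgood : W'.IsGoodPrimeFor q) (B : TateBasis l W)
    (B' : TateBasis l W') (n : ℕ) (M : Matrix (Fin 2) (Fin 2) ℤ_[l]) (hM : IsUnit M.det) :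
    ∃ g, (∃ Y, B.rep g = M + (l : ℤ_[l]) ^ n • Y) ∧
      ∃ Y, B'.rep g = !![M.det, 0; 0, 1] + (l : ℤ_[l]) ^ n • Y := by
  obtain ⟨g₀, Y₀, hY₀⟩ := hreach' B' n !![M.det, 0; 0, 1] (by simpa [det_fin_two_of] using hM)
  -- the determinant on the first module
  have hd : ∃ y, (B.rep g₀⁻¹ * M).det = 1 + (l : ℤ_[l]) ^ n * y := by
    refine toZModPow_eq_iff.mp ?_
    have h1 : PadicInt.toZModPow n (B.rep g₀).det = PadicInt.toZModPow n M.det := by
      rw [show (B.rep g₀).det = (B'.rep g₀).det by rw [B.det_rep, B'.det_rep], hY₀,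
        RingHom.map_det, RingHom.map_det]
      have e : (PadicInt.toZModPow (p := l) n).mapMatrix (!![M.det, 0; 0, 1] + (l : ℤ_[l]) ^ n • Y₀)
          = (PadicInt.toZModPow (p := l) n).mapMatrix !![M.det, 0; 0, 1] := by
        ext i j
        simp only [RingHom.mapMatrix_apply, Matrix.map_apply, Matrix.add_apply, Matrix.smul_apply,
          smul_eq_mul, map_add, map_mul, map_natCast, ← Nat.cast_pow, ZMod.natCast_self,
          zero_mul, add_zero]
      rw [e, ← RingHom.map_det, det_fin_two_of, mul_one, mul_zero, sub_zero, RingHom.map_det]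
    have h2 := congrArg (PadicInt.toZModPow n) (congrArg Matrix.det
      (show B.rep g₀⁻¹ * B.rep g₀ = 1 by rw [← map_mul, inv_mul_cancel, map_one]))
    rw [det_mul, map_mul, h1, det_one, map_one] at h2
    rw [det_mul, map_mul, h2, map_one]
  obtain ⟨σ, hσ, hne⟩ := exists_inertia_curveRep_ne_one hm hv
  have hσ' : B'.rep σ = 1 := B'.rep_inertia_good hm.prime hm.lies hql hgood hσ
  obtain ⟨y, hy⟩ := hd
  obtain ⟨h, hh, Y, hY⟩ := exists_mem_congr_of_transvection B.rep (MonoidHom.mker B'.rep)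
    (fun v hv => by
      obtain ⟨k, hk⟩ := FA.Ribet.exists_moves_line hirr hv
      exact ⟨k, by rw [rep_map_toZMod]; exact hk⟩)
    (fun g => MonoidHom.mem_mker.mpr (by
      rw [map_mul, map_mul, hσ', mul_one, ← map_mul, mul_inv_cancel, map_one]))
    (FA.Two.rep_inertia_mult B hm hql hσ hσ) (by rwa [rep_map_toZMod]) n hy
  refine ⟨g₀ * h, ⟨B.rep g₀ * Y, ?_⟩, Y₀, ?_⟩
  · rw [map_mul, hY, mul_add, Algebra.mul_smul_comm, ← mul_assoc, ← map_mul, mul_inv_cancel,
      map_one, one_mul]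
  · rw [map_mul, MonoidHom.mem_mker.mp hh, mul_one, hY₀]

/-- **All pairs of equal determinant at odd levels**, from full pairs at the odd primes. -/
theorem exists_pair_of_odd
    (hhigh : ∀ (l : ℕ) [Fact l.Prime], 3 ≤ l → ∀ (B : TateBasis l W) (B' : TateBasis l W'),
      (∀ (n : ℕ) (M : Matrix (Fin 2) (Fin 2) ℤ_[l]), IsUnit M.det →
        ∃ g, (∃ Y, B.rep g = M + (l : ℤ_[l]) ^ n • Y) ∧
          ∃ Y, B'.rep g = !![M.det, 0; 0, 1] + (l : ℤ_[l]) ^ n • Y) ∧
      ∀ (n : ℕ) (M : Matrix (Fin 2) (Fin 2) ℤ_[l]), IsUnit M.det →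
        ∃ g, (∃ Y, B'.rep g = M + (l : ℤ_[l]) ^ n • Y) ∧
          ∃ Y, B.rep g = !![M.det, 0; 0, 1] + (l : ℤ_[l]) ^ n • Y)
    {N : ℕ} (hN : Odd N) (e : Submodule.torsionBy ℤ (Pts W) (N : ℤ) ≃+ (Fin 2 → ZMod N))
    (e' : Submodule.torsionBy ℤ (Pts W') (N : ℤ) ≃+ (Fin 2 → ZMod N))
    {X X' : Matrix (Fin 2) (Fin 2) (ZMod N)} (hdet : X.det = X'.det) (hu : IsUnit X.det) :
    ∃ σ : GQ, (∀ x, σ • x.1 = (e.symm (X *ᵥ e x)).1) ∧
      ∀ x, σ • x.1 = (e'.symm (X' *ᵥ e' x)).1 := by
  haveI : NeZero N := ⟨hN.pos.ne'⟩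
  obtain ⟨a, ha⟩ : ∃ a, X.det.val = a := ⟨_, rfl⟩
  have hXa : X.det = (a : ZMod N) := by rw [← ha, ZMod.natCast_zmod_val]
  have hcop : a.Coprime N := by rw [← ha, ← hu.unit_spec]; exact ZMod.val_coe_unit_coprime _
  have : NeZero ((N : ℕ) : Qb) := ⟨Nat.cast_ne_zero.mpr hN.pos.ne'⟩
  obtain ⟨ζ, hζ⟩ := HasEnoughRootsOfUnity.exists_primitiveRoot Qb N
  obtain ⟨σ₀, hσ₀⟩ := FA.OpenImageJ.exists_apply_eq_pow hN.pos hζ hcop
  have hlow : ∀ l ∈ N.primeFactors, l ∉ FA.OpenImage.lowPrimes 3 := fun l hl hlow => by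
    obtain ⟨hlp, hl3⟩ := FA.OpenImage.mem_lowPrimes.mp hlow
    obtain rfl : l = 2 := by have := hlp.two_le; omega
    exact Nat.not_even_iff_odd.mpr hN (even_iff_two_dvd.mpr (Nat.dvd_of_mem_primeFactors hl))
  obtain ⟨σ, hσ⟩ := Adelic.exists_glue_pair (W := W) (W' := W') (L := 3) le_rfl (fun _ => 0) hhigh
    (fun l => N.factorization l) (T := N.primeFactors)
    (fun l hl => Nat.prime_of_mem_primeFactors hl)
    (Or.inr fun h2 => hlow 2 h2 (FA.OpenImage.mem_lowPrimes.mpr ⟨Nat.prime_two, by norm_num⟩))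
    (fun l _ => Nat.ordProj_dvd N l) e e' hXa (hdet.symm.trans hXa)
    (fun l hl hlow' => absurd hlow' (hlow l hl)) (fun l hl hlow' => absurd hlow' (hlow l hl)) σ₀
    (fun l _ μ hμ => by
      obtain ⟨j, hj⟩ := Nat.ordProj_dvd N l
      obtain ⟨i, -, rfl⟩ := hζ.eq_pow_of_pow_eq_one (ξ := μ) (by rw [hj, pow_mul, hμ, one_pow])
      rw [map_pow, hσ₀, ← pow_mul, ← pow_mul, mul_comm])
    fun l hl hlow' => absurd hlow' (hlow l hl)
  obtain ⟨φ, hφ⟩ := Adelic.exists_addEquiv e hu
  obtain ⟨φ', hφ'⟩ := Adelic.exists_addEquiv e' (hdet ▸ hu)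
  refine ⟨σ, fun x => ?_, fun x => ?_⟩
  · rw [← hφ]
    exact smul_eq_of_prime_powers hN.pos.ne' φ σ
      (fun l hl y hy => by rw [hφ]; exact (hσ l hl).1 y hy) x
  · rw [← hφ']
    exact smul_eq_of_prime_powers hN.pos.ne' φ' σ
      (fun l hl y hy => by rw [hφ']; exact (hσ l hl).2 y hy) x

end FA.Independence.OddLevels

end
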