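import Fermat.Agent.Independence.Rigid
import Fermat.Agent.Root.SummaryIndependence
import Fermat.Agent.Root.SummaryCongruenceReciprocity
import Fermat.Agent.OpenImageAll.Traces
import Mathlib.NumberTheory.LSeries.PrimesInAP

/-!
# Equal squares of traces: a quadratic twist

For two curves with full image modulo every large prime, equal squares of traces of Frobenius at
almost all primes give modulo each large `l` a sign character `ε_l` with `a'_q ≡ ε_l a_q`. The
primes dividing a given trace are few, so the signs agree for large `l`, and by Kronecker and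
Weber the common sign is a quadratic Dirichlet character.
-/

set_option autoImplicit false
set_option linter.style.haveILetI false

noncomputable section

open NumberField IsDedekindDomain Filter Topology Matrix WeierstrassCurve FA.Frob FA.RT
open FA.OpenImageAll (SurjectiveLarge)
open FA.Supersingular (finite_absNorm_mem)

local notation "Qb" => AlgebraicClosure ℚ
local notation "GQ" => AlgebraicClosure ℚ ≃ₐ[ℚ] AlgebraicClosure ℚ

namespace FA.Independence

/-- Densities are subadditive, up to finitely many primes. -/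
theorem density_le_add {S X Y F : Set (HeightOneSpectrum (𝓞 ℚ))} {a x y : ℝ}
    (hS : S.HasDirichletDensity a) (hX : X.HasDirichletDensity x) (hY : Y.HasDirichletDensity y)
    (hF : F.Finite) (h : S ⊆ X ∪ Y ∪ F) : a ≤ x + y := by
  have h0 := (hX.add hY).add (FA.Supersingular.tendsto_univ_atTop.const_div_atTop (F.ncard : ℝ))
  rw [add_zero] at h0
  refine le_of_tendsto_of_tendsto hS h0 ?_
  filter_upwards [self_mem_nhdsWithin, FA.Supersingular.tendsto_univ_atTop.eventually_gt_atTop 0]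
    with s hs hU
  rw [← add_div, ← add_div, div_le_div_iff_of_pos_right hU]
  have hsub : S \ (X ∪ Y) ⊆ F := fun v hv => (h hv.1).resolve_left hv.2
  refine (FA.Chebotarev.primeIdealZetaSum_le_add (hF.subset hsub) hs).trans
    (add_le_add ?_ (Nat.cast_le.mpr (Set.ncard_le_ncard hsub hF)))
  simp only [FA.Chebotarev.primeIdealZetaSum_eq]
  rw [← Set.union_sdiff_self, Summable.tsum_union_disjoint
    (f := fun v : HeightOneSpectrum (𝓞 ℚ) => FA.Ext.zN s (FA.Ext.primeIdeal v))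
    disjoint_sdiff_self_right (FA.Chebotarev.summable_subtype_zN X hs)
    (FA.Chebotarev.summable_subtype_zN (Y \ X) hs)]
  exact add_le_add le_rfl ((FA.Chebotarev.summable_subtype_zN (Y \ X) hs).tsum_le_tsum_of_inj
    (Set.inclusion Set.sdiff_subset) (Set.inclusion_injective _) (fun _ _ => FA.Ext.zN_nonneg _ _)
    (fun _ => le_rfl) (FA.Chebotarev.summable_subtype_zN _ hs))

variable {W W' : WeierstrassCurve ℤ} [(ratCurve W).IsElliptic] [(ratCurve W').IsElliptic]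

/-- Outside a finite set: the primes of good reduction of both models. -/
theorem good_of_not_mem {q : ℕ} (hq : q.Prime)
    (h : q ∉ (W.Δ * W'.Δ).natAbs.primeFactors) : W.IsGoodPrimeFor q ∧ W'.IsGoodPrimeFor q := by
  have hΔ : ∀ {V : WeierstrassCurve ℤ} [(ratCurve V).IsElliptic], V.Δ ≠ 0 := fun {V} _ e =>
    (ratCurve V).isUnit_Δ.ne_zero (by simp [ratCurve, e])
  rw [Nat.mem_primeFactors, not_and, not_and_not_right] at h
  have h0 : (W.Δ * W'.Δ).natAbs ≠ 0 := Int.natAbs_ne_zero.mpr (mul_ne_zero hΔ hΔ)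
  exact ⟨fun hd => h0 (h hq (Int.natCast_dvd.mp (hd.mul_right _))),
    fun hd => h0 (h hq (Int.natCast_dvd.mp (hd.mul_left _)))⟩

/-- The image of the pair has surjective projections, for large primes. -/
theorem surjective_pairRep (hs : SurjectiveLarge W) (hs' : SurjectiveLarge W') :
    ∃ M : ℕ, ∀ (l : ℕ) [Fact l.Prime], M < l →
      (∀ X, ∃ Y, (X, Y) ∈ (pairRep W W' l).range) ∧
        ∀ Y, ∃ X, (X, Y) ∈ (pairRep W W' l).range := by
  obtain ⟨M, hM⟩ := hs
  obtain ⟨M', hM'⟩ := hs'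
  refine ⟨max M M', fun l _ hl => ⟨fun X => ?_, fun Y => ?_⟩⟩
  · obtain ⟨σ, hσ⟩ := hM l ((le_max_left _ _).trans_lt hl) X.1 (det_ne_zero' X)
    exact ⟨_, σ, Prod.ext (Units.ext hσ) rfl⟩
  · obtain ⟨σ, hσ⟩ := hM' l ((le_max_right _ _).trans_lt hl) Y.1 (det_ne_zero' Y)
    exact ⟨_, σ, Prod.ext rfl (Units.ext hσ)⟩

/-- By Chebotarev all pairs have equal squares of traces. -/
theorem trace_sq_eq {S : Finset ℕ}
    (hsq : ∀ q : ℕ, q.Prime → q ∉ S → W.IsGoodPrimeFor q → W'.IsGoodPrimeFor q →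
      W.apOfModel q ^ 2 = W'.apOfModel q ^ 2)
    (l : ℕ) [Fact l.Prime] (σ : GQ) :
    (curveRep l W σ).trace ^ 2 = (curveRep l W' σ).trace ^ 2 := by
  by_contra hne
  obtain ⟨q, hq, hqS, hF⟩ := FA.OpenImageAll.exists_frobenius_mem_of_mem (pairRep W W' l)
    (isOpen_ker_pairRep W W' l) (X := {g | g.1.1.trace ^ 2 ≠ g.2.1.trace ^ 2}) (fun g hg x => by
      show _ ≠ _
      simp only [Prod.fst_mul, Prod.snd_mul, Prod.fst_inv, Prod.snd_inv, Units.val_mul,
        Matrix.trace_units_conj]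
      exact hg) (σ := σ) hne (S ∪ {l} ∪ (W.Δ * W'.Δ).natAbs.primeFactors)
  simp only [Finset.mem_union, Finset.mem_singleton, not_or] at hqS
  obtain ⟨hg, hg'⟩ := good_of_not_mem hq hqS.2
  obtain ⟨A, hA⟩ := FA.Deform.exists_liesOverPrime hq
  obtain ⟨τ, hτ⟩ := FA.Deform.exists_isFrobeniusAt hq hA
  have h := hF A hA τ hτ
  change (curveRep l W τ).trace ^ 2 ≠ (curveRep l W' τ).trace ^ 2 at h
  rw [(FA.Ribet.curveRep_frobenius (p := l) hq hqS.1.2 hg hA hτ).1,
    (FA.Ribet.curveRep_frobenius (p := l) hq hqS.1.2 hg' hA hτ).1, ← Int.cast_pow, ← Int.cast_pow,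
    hsq q hq hqS.1.1 hg hg'] at h
  exact h rfl

/-- **A sign character modulo each large prime.** -/
theorem exists_sign_mod (hs : SurjectiveLarge W) (hs' : SurjectiveLarge W') {S : Finset ℕ}
    (hsq : ∀ q : ℕ, q.Prime → q ∉ S → W.IsGoodPrimeFor q → W'.IsGoodPrimeFor q →
      W.apOfModel q ^ 2 = W'.apOfModel q ^ 2) :
    ∃ M : ℕ, ∀ (l : ℕ) [Fact l.Prime], M < l → ∃ ε : GQ →* ℤˣ, IsOpen (ε.ker : Set GQ) ∧
      ∀ q : ℕ, q.Prime → q ≠ l → W.IsGoodPrimeFor q → W'.IsGoodPrimeFor q →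
        ∀ A : ValuationSubring Qb, A.LiesOverPrime q → ∀ σ : GQ, A.IsFrobeniusAt σ q →
          (W'.apOfModel q : ZMod l) = (((ε σ : ℤ) * W.apOfModel q : ℤ) : ZMod l) := by
  classical
  obtain ⟨M, hM⟩ := surjective_pairRep hs hs'
  refine ⟨max M 7, fun l _ hl => ?_⟩
  simp only [max_lt_iff] at hl
  obtain ⟨h1, h2⟩ := hM l hl.1
  have h20 : (2 : ZMod l) ≠ 0 := two_ne_zero_of hl.2.le
  obtain ⟨Q, hQ⟩ := exists_conj_eq_or_neg hl.2.le h1 (fun p ⟨σ, hσ⟩ => hσ ▸ det_eq W W' σ) h2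
    (fun X Y ⟨σ, hσ⟩ => by
      obtain ⟨rfl, rfl⟩ := Prod.ext_iff.mp hσ
      exact trace_sq_eq hsq l σ)
  set π' := (curveRep l W').toHomUnits
  set c : GQ →* GL (Fin 2) (ZMod l) :=
    (MulAut.conj Q).toMonoidHom.comp (curveRep l W).toHomUnits with hc
  have hor : ∀ σ, π' σ = c σ ∨ π' σ = -c σ := fun σ => hQ _ _ ⟨σ, rfl⟩
  have hne : ∀ X : GL (Fin 2) (ZMod l), -X ≠ X := fun X e => by
    have e' : -(1 : GL (Fin 2) (ZMod l)) = 1 := mul_right_cancel (b := X) (by simpa using e)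
    have := Matrix.ext_iff.mpr
      (congrArg (fun Y : GL (Fin 2) (ZMod l) => (Y : Matrix (Fin 2) (Fin 2) (ZMod l))) e') 0 0
    simp at this
    exact h20 (by linear_combination -this)
  let f : GQ → ℤˣ := fun σ => if π' σ = c σ then 1 else -1
  have hf : ∀ σ, π' σ = -c σ → f σ = -1 := fun σ e => if_neg (by rw [e]; exact hne _)
  let ε : GQ →* ℤˣ := MonoidHom.mk' f fun σ τ => by
    rcases hor σ with a | a <;> rcases hor τ with b | b
    · simp [f, a, b, map_mul]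
    · rw [hf (σ * τ) (by rw [map_mul, map_mul, a, b, mul_neg]), hf τ b]; simp [f, a]
    · rw [hf (σ * τ) (by rw [map_mul, map_mul, a, b, neg_mul]), hf σ a]; simp [f, b]
    · rw [hf σ a, hf τ b]; simp [f, a, b, map_mul]
  refine ⟨ε, Subgroup.isOpen_mono (fun σ hσ => ?_) (isOpen_ker_pairRep W W' l),
    fun q hq hql hg hg' A hA σ hσ => ?_⟩
  · rw [MonoidHom.mem_ker] at hσ ⊢
    have e1 : (curveRep l W).toHomUnits σ = 1 := congrArg Prod.fst hσ
    have e2 : π' σ = 1 := congrArg Prod.snd hσ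
    exact if_pos (by rw [e2, hc]; simp [e1])
  rw [Int.cast_mul, ← (FA.Ribet.curveRep_frobenius (p := l) hq hql hg hA hσ).1,
    ← (FA.Ribet.curveRep_frobenius (p := l) hq hql hg' hA hσ).1,
    show curveRep l W' σ = (π' σ : Matrix (Fin 2) (Fin 2) (ZMod l)) from rfl,
    show curveRep l W σ = ((curveRep l W).toHomUnits σ : Matrix (Fin 2) (Fin 2) (ZMod l)) from rfl,
    ← trace_conj ((curveRep l W).toHomUnits σ) Q]
  rcases hor σ with a | a
  · rw [show ε σ = 1 from if_pos a, a]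
    simp [hc]
  · rw [show ε σ = -1 from hf σ a, a]
    simp [hc]

/-- The primes at which a large `l` divides the trace have small density. -/
theorem exists_dvd_density (hs : SurjectiveLarge W) :
    ∃ M : ℕ, ∀ (l : ℕ) [Fact l.Prime], M < l → ∃ (X : Set (HeightOneSpectrum (𝓞 ℚ))) (δ : ℝ),
      X.HasDirichletDensity δ ∧ δ ≤ 4 / l ∧ ∀ v, Ideal.absNorm v.asIdeal ≠ l →
        W.IsGoodPrimeFor (Ideal.absNorm v.asIdeal) →
        (l : ℤ) ∣ W.apOfModel (Ideal.absNorm v.asIdeal) → v ∈ X := by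
  obtain ⟨M, hM⟩ := hs
  refine ⟨M, fun l _ hl => ?_⟩
  let π := (curveRep l W).toHomUnits
  have hπ : Function.Surjective π := fun g => by
    obtain ⟨σ, hσ⟩ := hM l hl g.1 (det_ne_zero' g)
    exact ⟨σ, Units.ext hσ⟩
  let X : Set (GL (Fin 2) (ZMod l)) := {g | g.1.trace = 0}
  refine ⟨_, _, FA.Chebotarev.hasDirichletDensity_frobSet π hπ
    (FA.OpenImageAll.isOpen_ker_toHomUnits l) (X := X) (fun g hg x => (trace_conj g x).trans hg),
    FA.Supersingular.card_trace_le 0, fun v hvl hg hd A hA σ hσ => ?_⟩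
  show (curveRep l W σ).trace = 0
  rw [(FA.Ribet.curveRep_frobenius (p := l) (FA.Chebotarev.absNorm_prime v) hvl hg hA hσ).1,
    (ZMod.intCast_zmod_eq_zero_iff_dvd _ _).mpr hd]

/-- A unit congruent to the true sign is that sign. -/
theorem unit_eq_of_cast {l : ℕ} [Fact l.Prime] (hl : 2 < l) {a : ℤ} (ha : ¬ (l : ℤ) ∣ a)
    {u w : ℤˣ} (h : (((w : ℤ) * a : ℤ) : ZMod l) = (((u : ℤ) * a : ℤ) : ZMod l)) : u = w := by
  rw [Int.cast_mul, Int.cast_mul] at h
  have h' := mul_right_cancel₀ (fun e => ha ((ZMod.intCast_zmod_eq_zero_iff_dvd _ _).mp e)) h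
  haveI : Fact (2 < l) := ⟨hl⟩
  rcases Int.units_eq_one_or u with rfl | rfl <;> rcases Int.units_eq_one_or w with rfl | rfl <;>
    simp [ZMod.neg_one_ne_one, ZMod.neg_one_ne_one.symm] at h' ⊢

/-- **One sign character for all good primes.** -/
theorem exists_signChar (hs : SurjectiveLarge W) (hs' : SurjectiveLarge W') {S : Finset ℕ}
    (hsq : ∀ q : ℕ, q.Prime → q ∉ S → W.IsGoodPrimeFor q → W'.IsGoodPrimeFor q →
      W.apOfModel q ^ 2 = W'.apOfModel q ^ 2) :
    ∃ ε : GQ →* ℤˣ, IsOpen (ε.ker : Set GQ) ∧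
      ∀ q : ℕ, q.Prime → W.IsGoodPrimeFor q → W'.IsGoodPrimeFor q →
        ∀ A : ValuationSubring Qb, A.LiesOverPrime q → ∀ σ : GQ, A.IsFrobeniusAt σ q →
          W'.apOfModel q = (ε σ : ℤ) * W.apOfModel q := by
  obtain ⟨M₁, hM₁⟩ := exists_sign_mod hs hs' hsq
  obtain ⟨M₂, hM₂⟩ := exists_dvd_density hs
  obtain ⟨l₀, hl₀, hp₀⟩ := Nat.exists_infinite_primes (max (max M₁ M₂) 16 + 1)
  haveI := Fact.mk hp₀
  obtain ⟨ε₀, hε₀, h₀⟩ := hM₁ l₀ (by omega)
  refine ⟨ε₀, hε₀, fun q hq hg hg' A hA σ hσ => ?_⟩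
  obtain ⟨l, hl, hp⟩ := Nat.exists_infinite_primes
    (max (max M₁ M₂) 16 + q + (W.apOfModel q).natAbs + (W'.apOfModel q).natAbs + 1)
  haveI := Fact.mk hp
  obtain ⟨ε, hε, h⟩ := hM₁ l (by omega)
  suffices e : ε = ε₀ by
    have hd := h q hq (by omega) hg hg' A hA σ hσ
    rw [e, ZMod.intCast_eq_intCast_iff_dvd_sub] at hd
    have := Int.eq_zero_of_dvd_of_natAbs_lt_natAbs hd (by
      rcases Int.units_eq_one_or (ε₀ σ) with u | u <;> rw [u] <;> simp <;> omega)
    linarith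
  by_contra hne
  obtain ⟨τ, hτ⟩ := DFunLike.ne_iff.mp hne
  let ψ : GQ →* ℤˣ := ε * ε₀
  have hψ : ψ τ = -1 := by
    rcases Int.units_eq_one_or (ε τ) with u | u <;> rcases Int.units_eq_one_or (ε₀ τ) with w | w <;>
      simp [ψ, u, w] at hτ ⊢
  have hsurj : Function.Surjective ψ := fun u => by
    rcases Int.units_eq_one_or u with rfl | rfl
    exacts [⟨1, map_one ψ⟩, ⟨τ, hψ⟩]
  have hker : IsOpen (ψ.ker : Set GQ) := Subgroup.isOpen_mono (H₁ := ε.ker ⊓ ε₀.ker)
    (fun σ hσ => by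
      rw [MonoidHom.mem_ker, MonoidHom.mul_apply, MonoidHom.mem_ker.mp hσ.1,
        MonoidHom.mem_ker.mp hσ.2, mul_one]) (hε.inter hε₀)
  obtain ⟨X, x, hX, hx, hX'⟩ := hM₂ l (by omega)
  obtain ⟨Y, y, hY, hy, hY'⟩ := hM₂ l₀ (by omega)
  have hle := density_le_add (FA.Chebotarev.hasDirichletDensity_frobSet ψ hsurj hker
    (X := {-1}) (fun g hg x => by
      show x * g * x⁻¹ = -1
      rw [mul_comm x g, mul_inv_cancel_right]
      exact hg)) hX hY
    (finite_absNorm_mem (S ∪ {l, l₀} ∪ (W.Δ * W'.Δ).natAbs.primeFactors)) fun v hv => ?_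
  · rw [Nat.card_coe_set_eq, Set.ncard_singleton, Fintype.card_units_int] at hle
    have h16 : (16 : ℝ) < l ∧ (16 : ℝ) < l₀ := ⟨by exact_mod_cast (by omega : 16 < l),
      by exact_mod_cast (by omega : 16 < l₀)⟩
    have e1 : (4 : ℝ) / l < 1 / 4 := by
      rw [div_lt_div_iff₀ (by linarith) (by norm_num)]; linarith
    have e2 : (4 : ℝ) / l₀ < 1 / 4 := by
      rw [div_lt_div_iff₀ (by linarith) (by norm_num)]; linarith
    norm_num at hle
    linarith
  · refine or_iff_not_imp_right.mpr fun hvF => ?_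
    simp only [Set.mem_ofPred_eq, Finset.mem_union, Finset.mem_insert, Finset.mem_singleton,
      not_or] at hvF
    obtain ⟨⟨hvS, hvl, hvl₀⟩, hvΔ⟩ := hvF
    have hn := FA.Chebotarev.absNorm_prime v
    obtain ⟨g1, g2⟩ := good_of_not_mem hn hvΔ
    by_contra hnot
    simp only [Set.mem_union, not_or] at hnot
    obtain ⟨B, hB⟩ := FA.Deform.exists_liesOverPrime hn
    obtain ⟨ρ, hρ⟩ := FA.Deform.exists_isFrobeniusAt hn hB
    obtain ⟨w, hw⟩ : ∃ w : ℤˣ, W'.apOfModel (Ideal.absNorm v.asIdeal) =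
        (w : ℤ) * W.apOfModel (Ideal.absNorm v.asIdeal) := by
      rcases sq_eq_sq_iff_eq_or_eq_neg.mp (hsq _ hn hvS g1 g2).symm with e | e
      exacts [⟨1, by simp [e]⟩, ⟨-1, by simp [e]⟩]
    have k := h _ hn hvl g1 g2 B hB ρ hρ
    have k₀ := h₀ _ hn hvl₀ g1 g2 B hB ρ hρ
    rw [hw] at k k₀
    have e := unit_eq_of_cast (by omega) (fun hd => hnot.1 (hX' v hvl g1 hd)) k
    have e₀ := unit_eq_of_cast (by omega) (fun hd => hnot.2 (hY' v hvl₀ g1 hd)) k₀
    have hψρ : ψ ρ = -1 := hv B hB ρ hρ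
    rw [MonoidHom.mul_apply, e, e₀, Int.units_mul_self] at hψρ
    exact absurd hψρ (by decide)

/-- **A quadratic twist by a Dirichlet character.** -/
theorem exists_quadraticCharacter (hs : SurjectiveLarge W) (hs' : SurjectiveLarge W')
    {S : Finset ℕ}
    (hsq : ∀ q : ℕ, q.Prime → q ∉ S → W.IsGoodPrimeFor q → W'.IsGoodPrimeFor q →
      W.apOfModel q ^ 2 = W'.apOfModel q ^ 2) :
    ∃ N : ℕ, 0 < N ∧ ∃ χ : DirichletCharacter ℤ N, χ.IsQuadratic ∧
      ∀ q : ℕ, q.Prime → ¬ q ∣ N → W.IsGoodPrimeFor q → W'.IsGoodPrimeFor q →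
        W'.apOfModel q = χ q * W.apOfModel q := by
  classical
  obtain ⟨ε, hε, h⟩ := exists_signChar hs hs' hsq
  obtain ⟨N, hN, ψ, hψ⟩ := FA.Summary.galoisCharacter_dirichlet
    ((Units.map (Int.castRingHom ℂ).toMonoidHom).comp ε)
    (Subgroup.isOpen_mono (fun σ hσ => by
      rw [MonoidHom.mem_ker, MonoidHom.comp_apply, MonoidHom.mem_ker.mp hσ, map_one]) hε)
  haveI : NeZero N := ⟨hN.ne'⟩
  -- the values of the character
  have hval : ∀ u : (ZMod N)ˣ, ∃ w : ℤˣ, ψ u = ((w : ℤ) : ℂ) := fun u => by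
    obtain ⟨p, hpN, hp, hpu⟩ := Nat.forall_exists_prime_gt_and_eq_mod (q := N) u.isUnit N
    obtain ⟨A, hA⟩ := FA.Deform.exists_liesOverPrime hp
    obtain ⟨σ, hσ⟩ := FA.Deform.exists_isFrobeniusAt hp hA
    refine ⟨ε σ, ?_⟩
    rw [← hpu, ← hψ p hp (fun hd => absurd (Nat.le_of_dvd hN hd) (not_le.mpr hpN)) A hA σ hσ]
    rfl
  choose w hw using hval
  let f : (ZMod N)ˣ →* ℤˣ := MonoidHom.mk' w fun u v => Units.ext (Int.cast_injective (α := ℂ) (by
    rw [← hw, Units.val_mul, map_mul, hw, hw, Units.val_mul, Int.cast_mul]))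
  refine ⟨N, hN, MulChar.ofUnitHom f, fun a => ?_, fun q hq hqN hg hg' => ?_⟩
  · by_cases ha : IsUnit a
    · obtain ⟨u, rfl⟩ := ha
      rw [MulChar.ofUnitHom_coe]
      rcases Int.units_eq_one_or (f u) with e | e <;> simp [e]
    · exact Or.inl (MulChar.map_nonunit _ ha)
  obtain ⟨A, hA⟩ := FA.Deform.exists_liesOverPrime hq
  obtain ⟨σ, hσ⟩ := FA.Deform.exists_isFrobeniusAt hq hA
  have hcop : q.Coprime N := hq.coprime_iff_not_dvd.mpr hqN
  rw [h q hq hg hg' A hA σ hσ, ← ZMod.coe_unitOfCoprime q hcop, MulChar.ofUnitHom_coe]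
  congr 1
  refine Int.cast_injective (α := ℂ) ?_
  rw [show ((f (ZMod.unitOfCoprime q hcop) : ℤ) : ℂ) = _ from (hw _).symm, ZMod.coe_unitOfCoprime,
    ← hψ q hq hqN A hA σ hσ]
  rfl

end FA.Independence

end
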