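import Fermat.Agent.Independence.PadicRigid
import Fermat.Agent.Independence.Twist
import Fermat.Agent.Root.SummaryTateIsogenyAll

/-!
# The image of Galois on two Tate modules

For two equations with full images at the large primes and different squares of traces at one good
prime, the image of Galois on the two `p`-adic Tate modules contains all pairs of matrices congruent
to one modulo some power of `p` with equal determinants, for every prime `p`.
-/

set_option autoImplicit false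
set_option linter.unusedSectionVars false
set_option linter.style.haveILetI false

noncomputable section

open Filter Matrix WeierstrassCurve FA.EC FA.Frob FA.RT FA.RT.Tate
open FA.OpenImageAll (SurjectiveLarge)
open scoped WeierstrassCurve.Affine Topology

local notation "Qb" => AlgebraicClosure ℚ
local notation "GQ" => AlgebraicClosure ℚ ≃ₐ[ℚ] AlgebraicClosure ℚ

namespace FA.Independence.Padic

variable {p : ℕ} [hp : Fact p.Prime]

local notation "Mp" => Matrix (Fin 2) (Fin 2) ℤ_[p]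
local notation "π" => (p : ℤ_[p])

section Group

variable {G : Type*} [Group G] {r r' : G →* Matrix (Fin 2) (Fin 2) ℤ_[p]}

/-- A level in one kernel excludes that the deep kernel of that representation is trivial. -/
theorem false_of_level_of_injective (hdet : ∀ g, (r g).det = (r' g).det) (hlev' : HasLevel r')
    (hl : ∃ k : ℕ, ∀ Y : Mp, (1 + π ^ k • Y).det = 1 → ∃ g, r g = 1 + π ^ k • Y ∧ r' g = 1)
    (h2 : ∀ g ∈ deep r r' 2, r g = 1 → r' g = 1) : False := by
  obtain ⟨k, hk⟩ := hl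
  obtain ⟨a, ha, hu⟩ := hlev'.unipotents
  obtain ⟨⟨x, hx⟩, -⟩ := hu 1
  haveI := deep_normal r r' (k + 2)
  haveI := deep_finiteIndex r r' (k + 2)
  set i := (deep r r' (k + 2)).index
  have hx' : x ^ i ∈ deep r r' (k + 2) := Subgroup.pow_index_mem _ x
  obtain ⟨⟨Y, hY⟩, Y', hY'⟩ := exists_eq_one_add hx'
  have hup : r' (x ^ i) = upp ((i : ℤ_[p]) * (a * 1)) := by rw [map_pow, hx, upp_nsmul]
  obtain ⟨y, hy, hy'⟩ := hk (π ^ 2 • Y) (by
    rw [smul_smul, ← pow_add, ← hY, hdet, hup, det_upp])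
  have hrz : r (x ^ i * y⁻¹) = 1 := by
    have e : r (x ^ i) = r y := by rw [hY, hy, smul_smul, ← pow_add]
    rw [map_mul, e, ← map_mul, mul_inv_cancel, map_one]
  have hrz' : r' (x ^ i * y⁻¹) = r' (x ^ i) := by
    have e : r' y⁻¹ = 1 :=
      calc r' y⁻¹ = r' y⁻¹ * r' y := by rw [hy', mul_one]
        _ = 1 := by rw [← map_mul, inv_mul_cancel, map_one]
    rw [map_mul, e, mul_one]
  have h := h2 _ (mem_deep (Y := 0) (Y' := π ^ k • Y') (by rw [hrz, smul_zero, add_zero])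
    (by rw [hrz', hY', smul_smul, ← pow_add, add_comm 2 k])) hrz
  rw [hrz', hup] at h
  have h01 := congrFun (congrFun h 0) 1
  simp [upp, ha, Subgroup.FiniteIndex.index_ne_zero, i] at h01

/-- A level at `k` is a level at every larger exponent. -/
theorem level_mono {P : G → Prop} {k k' : ℕ} (hkk : k ≤ k')
    (h : ∀ Y : Mp, (1 + π ^ k • Y).det = 1 → ∃ g, r g = 1 + π ^ k • Y ∧ P g) (Y : Mp)
    (hY : (1 + π ^ k' • Y).det = 1) : ∃ g, r g = 1 + π ^ k' • Y ∧ P g := by
  obtain ⟨c, rfl⟩ := Nat.le.dest hkk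
  rw [pow_add, mul_smul] at hY ⊢
  exact h _ hY

variable [TopologicalSpace G] [CompactSpace G]

/-- **Two levels**: two representations with equal determinants and different squares of traces
each have a level in the kernel of the other. -/
theorem level_both (hc : Continuous r) (hc' : Continuous r')
    (hdet : ∀ g, (r g).det = (r' g).det) (hlev : HasLevel r) (hlev' : HasLevel r')
    (hne : ∃ g, (r g).trace ^ 2 ≠ (r' g).trace ^ 2) :
    ∃ k : ℕ, (∀ Y : Mp, (1 + π ^ k • Y).det = 1 → ∃ g, r g = 1 + π ^ k • Y ∧ r' g = 1) ∧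
      ∀ Y : Mp, (1 + π ^ k • Y).det = 1 → ∃ g, r' g = 1 + π ^ k • Y ∧ r g = 1 := by
  have hsymm : deep r' r 2 = deep r r' 2 := inf_comm _ _
  rcases level_or_injective hc hc' hdet hlev with ⟨k, hk⟩ | h1 <;>
    rcases level_or_injective hc' hc (fun g => (hdet g).symm) hlev' with ⟨k', hk'⟩ | h2
  · exact ⟨k + k', level_mono (Nat.le_add_right k k') hk,
      level_mono (Nat.le_add_left k' k) hk'⟩
  · exact (false_of_level_of_injective hdet hlev' ⟨k, hk⟩ (hsymm ▸ h2)).elim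
  · exact (false_of_level_of_injective (fun g => (hdet g).symm) hlev ⟨k', hk'⟩
      (hsymm.symm ▸ h1)).elim
  · obtain ⟨g, hg⟩ := hne
    exact absurd (trace_sq_eq_of_injective hdet hlev' h1 (hsymm ▸ h2) g) hg

end Group

/-- The quotient by an element congruent to one modulo `p ^ j`. -/
theorem exists_inv_mul_eq {G : Type*} [Group G] (r : G →* Matrix (Fin 2) (Fin 2) ℤ_[p]) {g : G}
    {j m : ℕ} {Z : Mp} (hg : r g = 1 + π ^ j • Z) (Y : Mp) :
    ∃ W : Mp, r g⁻¹ * (1 + π ^ (j + m) • Y) = 1 + π ^ j • W := by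
  have hgi : r g⁻¹ * r g = 1 := by rw [← map_mul, inv_mul_cancel, map_one]
  refine ⟨r g⁻¹ * (π ^ m • Y - Z), ?_⟩
  have e : r g⁻¹ = 1 - π ^ j • (r g⁻¹ * Z) := by
    rw [eq_sub_iff_add_eq, ← Algebra.mul_smul_comm]
    conv_lhs => arg 1; rw [← mul_one (r g⁻¹)]
    rw [← mul_add, ← hg, hgi]
  rw [mul_add, mul_one, Algebra.mul_smul_comm, mul_sub, Algebra.mul_smul_comm, smul_sub,
    smul_smul, ← pow_add]
  conv_lhs => arg 1; rw [e]
  abel

section Curve

variable {W W' : WeierstrassCurve ℤ} [(ratCurve W).IsElliptic] [(ratCurve W').IsElliptic]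
  (B : TateBasis p W) (B' : TateBasis p W')

/-- Both representations have the cyclotomic determinant. -/
theorem det_rep_eq (σ : GQ) : (B.rep σ).det = (B'.rep σ).det := by rw [B.det_rep, B'.det_rep]

/-- A level on every Tate module, from full images at the large primes. -/
theorem hasLevel_rep (hs : SurjectiveLarge W) : HasLevel B.rep := by
  obtain ⟨k, -, hk⟩ := FA.OpenImageAll.exists_level_of_surjective B
    (FA.TateIsogenyAll.noStableLine_all B) hs
  exact ⟨k, fun Y hY => hk Y (hY ▸ isUnit_one)⟩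

/-- Different squares of traces at one good prime are seen on every pair of Tate modules. -/
theorem exists_trace_sq_ne {q : ℕ} (hq : q.Prime) (hg : W.IsGoodPrimeFor q)
    (hg' : W'.IsGoodPrimeFor q) (hne : W.apOfModel q ^ 2 ≠ W'.apOfModel q ^ 2) :
    ∃ σ, (B.rep σ).trace ^ 2 ≠ (B'.rep σ).trace ^ 2 := by
  by_contra! hall
  have hsq : ∀ r : ℕ, r.Prime → r ∉ ({p} : Finset ℕ) → W.IsGoodPrimeFor r →
      W'.IsGoodPrimeFor r → W.apOfModel r ^ 2 = W'.apOfModel r ^ 2 := by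
    intro r hr hrp hgr hgr'
    obtain ⟨A, hA⟩ := FA.Deform.exists_liesOverPrime hr
    obtain ⟨σ, hσ⟩ := FA.Deform.exists_isFrobeniusAt hr hA
    have h := hall σ
    rw [(B.rep_frobenius hr hA (by simpa using hrp) hgr hσ).1,
      (B'.rep_frobenius hr hA (by simpa using hrp) hgr' hσ).1, ← Int.cast_pow, ← Int.cast_pow,
      Int.cast_inj] at h
    exact h
  set D := (W.apOfModel q ^ 2 - W'.apOfModel q ^ 2).natAbs
  obtain ⟨l, hl, hlp⟩ := Nat.exists_infinite_primes (q + D + 1)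
  haveI := Fact.mk hlp
  obtain ⟨A, hA⟩ := FA.Deform.exists_liesOverPrime hq
  obtain ⟨σ, hσ⟩ := FA.Deform.exists_isFrobeniusAt hq hA
  have h := FA.Independence.trace_sq_eq hsq l σ
  rw [(FA.Ribet.curveRep_frobenius (p := l) hq (by omega) hg hA hσ).1,
    (FA.Ribet.curveRep_frobenius (p := l) hq (by omega) hg' hA hσ).1, ← sub_eq_zero,
    ← Int.cast_pow, ← Int.cast_pow, ← Int.cast_sub, ZMod.intCast_zmod_eq_zero_iff_dvd,
    Int.natCast_dvd] at h
  have := Nat.le_of_dvd (Int.natAbs_pos.mpr (sub_ne_zero.mpr hne)) h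
  omega

/-- The determinants of the elements congruent to one modulo `p ^ j` on both modules fill a
neighbourhood of one. -/
theorem exists_level_det_pair (j : ℕ) : ∃ k : ℕ, ∀ y : ℤ_[p], ∃ (g : GQ) (Z Z' : Mp),
    B.rep g = 1 + π ^ j • Z ∧ B'.rep g = 1 + π ^ j • Z' ∧ (B.rep g).det = 1 + π ^ k * y := by
  haveI : IsGalois ℚ Qb := FA.EC.isGalois_algebraicClosure
  let d : GQ →* ℤ_[p] := Matrix.detMonoidHom.comp B.rep
  have hd : Continuous d := (FA.PadicImage.continuous_rep B).matrix_det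
  let χ : GQ →* ℤ_[p]ˣ := d.toHomUnits
  have hχ : Continuous χ := FA.PadicImage.continuous_toHomUnits hd
  have hsurj : Function.Surjective χ := fun u => by
    suffices h : (u : ℤ_[p]) ∈ Set.range d by
      obtain ⟨σ, hσ⟩ := h
      exact ⟨σ, Units.ext hσ⟩
    choose σ y hy using fun n => FA.PadicImage.exists_det_rep_eq B n (u : ℤ_[p]) u.isUnit
    suffices ht : Tendsto (fun n => d (σ n)) atTop (𝓝 (u : ℤ_[p])) from
      (isCompact_range hd).isClosed.mem_of_tendsto ht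
        (Eventually.of_forall fun n => Set.mem_range_self _)
    refine Metric.tendsto_atTop.mpr fun ε hε => ?_
    obtain ⟨k, hk⟩ := PadicInt.exists_pow_neg_lt p hε
    refine ⟨k, fun n hn => lt_of_le_of_lt ?_ hk⟩
    rw [dist_eq_norm, show d (σ n) = _ from hy n, add_sub_cancel_left,
      PadicInt.norm_le_pow_iff_mem_span_pow, Ideal.mem_span_singleton]
    exact (pow_dvd_pow _ hn).mul_right _
  obtain ⟨L, hL, hfix⟩ := B.exists_field j
  obtain ⟨L', hL', hfix'⟩ := B'.exists_field j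
  set H : Subgroup GQ := L.fixingSubgroup ⊓ L'.fixingSubgroup
  have hHo : IsOpen (H : Set GQ) :=
    (IntermediateField.fixingSubgroup_isOpen L).inter (IntermediateField.fixingSubgroup_isOpen L')
  have hfin : H.FiniteIndex := @Subgroup.finiteIndex_of_finite_quotient _ _ _
    (Subgroup.quotient_finite_of_isOpen _ hHo)
  have hclosed : IsClosed (H.map χ : Set ℤ_[p]ˣ) := by
    rw [Subgroup.coe_map]
    exact (((IntermediateField.fixingSubgroup_isClosed L).inter
      (IntermediateField.fixingSubgroup_isClosed L')).isCompact.image hχ).isClosed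
  haveI : (H.map χ).FiniteIndex :=
    ⟨ne_zero_of_dvd_ne_zero hfin.index_ne_zero (Subgroup.index_map_dvd _ hsurj)⟩
  have hopen := Units.isOpenEmbedding_val.isOpenMap _
    (Subgroup.isOpen_of_isClosed_of_finiteIndex _ hclosed)
  obtain ⟨ε, hε, hball⟩ := Metric.isOpen_iff.mp hopen 1 ⟨1, one_mem _, rfl⟩
  obtain ⟨k, hk⟩ := PadicInt.exists_pow_neg_lt p hε
  refine ⟨k, fun y => ?_⟩
  obtain ⟨u, ⟨g, hg, rfl⟩, hu⟩ := hball (show 1 + π ^ k * y ∈ Metric.ball (1 : ℤ_[p]) ε by
    rw [Metric.mem_ball]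
    refine lt_of_le_of_lt ?_ hk
    rw [dist_eq_norm, add_sub_cancel_left, PadicInt.norm_le_pow_iff_mem_span_pow,
      Ideal.mem_span_singleton]
    exact dvd_mul_right _ _)
  obtain ⟨Z, hZ⟩ := FA.PadicImage.exists_eq_one_add_of_map
    (hfix g ((IntermediateField.mem_fixingSubgroup_iff L g).mp hg.1))
  obtain ⟨Z', hZ'⟩ := FA.PadicImage.exists_eq_one_add_of_map
    (hfix' g ((IntermediateField.mem_fixingSubgroup_iff L' g).mp hg.2))
  exact ⟨g, Z, Z', hZ, hZ', hu⟩

/-- **The image on two Tate modules**: all pairs congruent to one modulo some power of `p` with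
equal determinants. -/
theorem exists_level_pair (hs : SurjectiveLarge W) (hs' : SurjectiveLarge W') {q : ℕ}
    (hq : q.Prime) (hg : W.IsGoodPrimeFor q) (hg' : W'.IsGoodPrimeFor q)
    (hne : W.apOfModel q ^ 2 ≠ W'.apOfModel q ^ 2) :
    ∃ k : ℕ, 0 < k ∧ ∀ Y Y' : Mp, (1 + π ^ k • Y).det = (1 + π ^ k • Y').det →
      ∃ σ, B.rep σ = 1 + π ^ k • Y ∧ B'.rep σ = 1 + π ^ k • Y' := by
  haveI : IsGalois ℚ Qb := FA.EC.isGalois_algebraicClosure
  obtain ⟨j, hj, hj'⟩ := level_both (FA.PadicImage.continuous_rep B)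
    (FA.PadicImage.continuous_rep B') (det_rep_eq B B') (hasLevel_rep B hs) (hasLevel_rep B' hs')
    (exists_trace_sq_ne B B' hq hg hg' hne)
  obtain ⟨m, hm⟩ := exists_level_det_pair B B' (j + 1)
  refine ⟨j + 1 + m, by omega, fun Y Y' hYY => ?_⟩
  obtain ⟨y, hy⟩ : ∃ y, (1 + π ^ (j + 1 + m) • Y).det = 1 + π ^ m * y :=
    ⟨π ^ (j + 1) * (Y 0 0 + Y 1 1) +
      π ^ (2 * (j + 1) + m) * (Y 0 0 * Y 1 1 - Y 0 1 * Y 1 0), by simp [det_fin_two]; ring⟩
  obtain ⟨g, Z, Z', hZ, hZ', hd⟩ := hm y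
  obtain ⟨A, hA⟩ := exists_inv_mul_eq B.rep (m := m) hZ Y
  obtain ⟨A', hA'⟩ := exists_inv_mul_eq B'.rep (m := m) hZ' Y'
  have hdd : ∀ {s : GQ →* Mp}, (s g⁻¹).det * (s g).det = 1 := fun {s} => by
    rw [← det_mul, ← map_mul, inv_mul_cancel, map_one, det_one]
  obtain ⟨h, hh, hh'⟩ := level_mono (Nat.le_add_right j 1) hj A (by
    rw [← hA, det_mul, hy, ← hd]; exact hdd)
  obtain ⟨h', hk', hk⟩ := level_mono (Nat.le_add_right j 1) hj' A' (by
    rw [← hA', det_mul, ← hYY, hy, ← hd, det_rep_eq B B']; exact hdd)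
  refine ⟨g * h * h', ?_, ?_⟩
  · rw [map_mul, map_mul, hh, hk, mul_one, ← hA, ← mul_assoc, ← map_mul, mul_inv_cancel, map_one,
      one_mul]
  · rw [map_mul, map_mul, hh', hk', mul_one, ← hA', ← mul_assoc, ← map_mul, mul_inv_cancel, map_one,
      one_mul]

/-- The torsion of order `p ^ n` in the coordinates of a basis of the Tate module. -/
theorem exists_coord (n : ℕ) :
    ∃ e : Submodule.torsionBy ℤ (Pts W) (((p ^ n : ℕ) : ℤ)) ≃+ (Fin 2 → ZMod (p ^ n)),
      ∀ (σ : GQ) P Q, e Q = (B.rep σ).map (PadicInt.toZModPow n) *ᵥ e P → σ • P.1 = Q.1 := by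
  haveI : NeZero (p ^ n) := ⟨pow_ne_zero _ hp.out.ne_zero⟩
  let lift : (Fin 2 → ZMod (p ^ n)) → (Fin 2 → ℤ_[p]) := fun v i => ((v i).val : ℤ_[p])
  have hl : ∀ v i, PadicInt.toZModPow n (lift v i) = v i := fun v i => by
    rw [map_natCast, ZMod.natCast_zmod_val]
  let f : (Fin 2 → ZMod (p ^ n)) →+ Submodule.torsionBy ℤ (Pts W) (((p ^ n : ℕ) : ℤ)) :=
    AddMonoidHom.mk' (fun v => ⟨B.φ n (lift v), (mem_torsion_iff W).mpr (B.nsmul_phi n _)⟩)
      fun v w => Subtype.ext (by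
        show B.φ n (lift (v + w)) = B.φ n (lift v) + B.φ n (lift w)
        rw [← map_add, B.phi_eq_iff]
        intro i
        rw [Pi.add_apply, map_add, hl, hl, hl]
        rfl)
  have hb : Function.Bijective f := by
    refine ⟨fun v w h => funext fun i => ?_, fun x => ?_⟩
    · have := B.phi_eq_iff.mp (congrArg Subtype.val h) i
      rwa [hl, hl] at this
    · obtain ⟨v, hv⟩ := B.surj n x.1 ((mem_torsion_iff W).mp x.2)
      refine ⟨fun i => PadicInt.toZModPow n (v i), Subtype.ext ?_⟩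
      exact (B.phi_eq_iff.mpr (hl fun i => PadicInt.toZModPow n (v i))).trans hv
  refine ⟨(AddEquiv.ofBijective f hb).symm, fun σ P Q h => ?_⟩
  obtain ⟨v, rfl⟩ := hb.2 P
  obtain ⟨w, rfl⟩ := hb.2 Q
  have e : ∀ u, (AddEquiv.ofBijective f hb).symm (f u) = u := fun u =>
    (AddEquiv.ofBijective f hb).symm_apply_apply u
  rw [e, e] at h
  show σ • B.φ n (lift v) = B.φ n (lift w)
  rw [B.rep_spec, B.phi_eq_iff]
  intro i
  rw [RingHom.map_mulVec, hl, h,
    show ⇑(PadicInt.toZModPow (p := p) n) ∘ lift v = v from funext (hl v)]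

/-- **Modulo every power of `p`**: pairs of matrices congruent to one modulo `p ^ k` with equal
determinants. -/
theorem exists_torsion_pairs (hs : SurjectiveLarge W) (hs' : SurjectiveLarge W') {q : ℕ}
    (hq : q.Prime) (hg : W.IsGoodPrimeFor q) (hg' : W'.IsGoodPrimeFor q)
    (hne : W.apOfModel q ^ 2 ≠ W'.apOfModel q ^ 2) :
    ∃ k : ℕ, 0 < k ∧ ∀ n : ℕ,
      ∃ (e : Submodule.torsionBy ℤ (Pts W) (((p ^ n : ℕ) : ℤ)) ≃+ (Fin 2 → ZMod (p ^ n)))
        (e' : Submodule.torsionBy ℤ (Pts W') (((p ^ n : ℕ) : ℤ)) ≃+ (Fin 2 → ZMod (p ^ n))),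
        ∀ X X' : Matrix (Fin 2) (Fin 2) (ZMod (p ^ n)),
          (1 + (p : ZMod (p ^ n)) ^ k • X).det = (1 + (p : ZMod (p ^ n)) ^ k • X').det →
          ∃ σ : GQ, (∀ P Q, e Q = (1 + (p : ZMod (p ^ n)) ^ k • X) *ᵥ e P → σ • P.1 = Q.1) ∧
            ∀ P Q, e' Q = (1 + (p : ZMod (p ^ n)) ^ k • X') *ᵥ e' P → σ • P.1 = Q.1 := by
  obtain ⟨B⟩ := exists_tateBasis (p := p) W
  obtain ⟨B'⟩ := exists_tateBasis (p := p) W'
  obtain ⟨k, hk0, hk⟩ := exists_level_pair B B' hs hs' hq hg hg' hne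
  refine ⟨k, hk0, fun n => ?_⟩
  obtain ⟨e, he⟩ := exists_coord B n
  obtain ⟨e', he'⟩ := exists_coord B' n
  refine ⟨e, e', fun X X' hXX => ?_⟩
  haveI : NeZero (p ^ n) := ⟨pow_ne_zero _ hp.out.ne_zero⟩
  set ρ := PadicInt.toZModPow (p := p) n
  have hρp : ρ π = (p : ZMod (p ^ n)) := map_natCast ρ p
  have hpn : (p : ZMod (p ^ n)) ^ n = 0 := by rw [← Nat.cast_pow, ZMod.natCast_self]
  rcases le_or_gt n k with hnk | hkn
  · have h0 : (p : ZMod (p ^ n)) ^ k = 0 := pow_eq_zero_of_le hnk hpn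
    refine ⟨1, fun P Q h => he 1 P Q ?_, fun P Q h => he' 1 P Q ?_⟩ <;>
      rw [h, h0, zero_smul, add_zero, map_one] <;>
      simp
  let Y : Mp := X.map fun x => ((x.val : ℕ) : ℤ_[p])
  let Y₁ : Mp := X'.map fun x => ((x.val : ℕ) : ℤ_[p])
  have hY : ∀ Z : Matrix (Fin 2) (Fin 2) (ZMod (p ^ n)),
      (1 + π ^ k • Z.map fun x => ((x.val : ℕ) : ℤ_[p])).map ρ =
        1 + (p : ZMod (p ^ n)) ^ k • Z := fun Z => by
    ext i l
    fin_cases i <;> fin_cases l <;> simp [ρ]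
  obtain ⟨z, hz⟩ : ∃ z, (1 + π ^ k • Y).det - (1 + π ^ k • Y₁).det = π ^ n * z := by
    refine Ideal.mem_span_singleton.mp ?_
    rw [← PadicInt.ker_toZModPow, RingHom.mem_ker, map_sub, RingHom.map_det, RingHom.map_det,
      RingHom.mapMatrix_apply, RingHom.mapMatrix_apply, hY, hY, hXX, sub_self]
  obtain ⟨u, hu⟩ : ∃ u : ℤ_[p], (1 + π ^ k • Y₁).det * u = 1 := by
    refine IsUnit.exists_right_inv ?_
    rw [FA.PadicImage.isUnit_iff_toZMod, det_fin_two]
    simp [zero_pow hk0.ne']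
  obtain ⟨c, rfl⟩ := Nat.le.dest hkn.le
  set t := π ^ (k + c) * (z * u) with ht
  -- correct the second lift to the same determinant
  let D : Mp := !![1 + t, 0; 0, 1]
  obtain ⟨Y₂, hY₂⟩ : ∃ Y₂ : Mp, D * (1 + π ^ k • Y₁) = 1 + π ^ k • Y₂ :=
    ⟨Y₁ + !![π ^ c * (z * u) * (1 + π ^ k * Y₁ 0 0), π ^ c * (z * u) * (π ^ k * Y₁ 0 1); 0, 0], by
      ext i l
      fin_cases i <;> fin_cases l <;>
        simp [D, ht, Matrix.mul_apply, Fin.sum_univ_two, pow_add] <;> ring⟩
  obtain ⟨σ, hσ, hσ'⟩ := hk Y Y₂ (by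
    rw [← hY₂, det_mul, show D.det = 1 + t by simp [D, det_fin_two_of]]
    linear_combination hz - (π ^ (k + c) * z) * hu)
  refine ⟨σ, fun P Q h => he σ P Q ?_, fun P Q h => he' σ P Q ?_⟩
  · rw [hσ, hY, h]
  · rw [hσ', ← hY₂, Matrix.map_mul, hY, h,
      show D.map ρ = 1 by
        ext i l
        fin_cases i <;> fin_cases l <;> simp [D, ht, hρp, hpn],
      one_mul]

end Curve

end FA.Independence.Padic

end
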