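import Fermat.Agent.OpenImageAll.Criterion
import Mathlib.FieldTheory.IsAlgClosed.AlgebraicClosure
import Mathlib.NumberTheory.Padics.ProperSpace

/-!
# Goursat's alternative for two open representations on `ℤ_p²`

Let two representations with equal determinants both contain a congruence subgroup of `SL₂(ℤ_p)`.
Either the elements trivial in one of them fill a congruence subgroup in the other, or on a subgroup
of finite index each determines the other. In the second case the partners of two opposite unipotent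
one-parameter groups are unipotent one-parameter groups, the relation
`v(-s/a) u(t) v(s) u(-t/a) = diag(a, 1/a)`, `a = 1 + ts`, fixes their scaling, and one matrix
intertwines the two representations up to a sign. No Lie algebra is used.
-/

set_option autoImplicit false
set_option linter.unusedSectionVars false
set_option linter.style.haveILetI false

noncomputable section

open Matrix

namespace FA.Independence.Padic

variable {p : ℕ} [hp : Fact p.Prime]

local notation "Mp" => Matrix (Fin 2) (Fin 2) ℤ_[p]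
local notation "π" => (p : ℤ_[p])

/-! ### Matrices -/

/-- A matrix of square zero has determinant and trace zero. -/
theorem det_trace_eq_zero {R : Type*} [CommRing R] [IsDomain R] {N : Matrix (Fin 2) (Fin 2) R}
    (h : N * N = 0) : N.det = 0 ∧ N.trace = 0 := by
  have hd : N.det = 0 := mul_self_eq_zero.mp (by rw [← det_mul, h, det_zero])
  refine ⟨hd, mul_self_eq_zero.mp ?_⟩
  have h0 := congrFun (congrFun h 0) 0
  have h1 := congrFun (congrFun h 1) 1
  simp [Matrix.mul_apply, Fin.sum_univ_two] at h0 h1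
  rw [det_fin_two] at hd
  rw [trace_fin_two]
  linear_combination h0 + h1 + 2 * hd

/-- A matrix of rank at most one reproduces itself around any other. -/
theorem mul_mul_self_of_det {R : Type*} [CommRing R] {N : Matrix (Fin 2) (Fin 2) R}
    (hd : N.det = 0) (M : Matrix (Fin 2) (Fin 2) R) : N * M * N = (M * N).trace • N := by
  rw [det_fin_two] at hd
  ext i j
  fin_cases i <;> fin_cases j <;>
    simp [Matrix.mul_apply, Fin.sum_univ_two, trace_fin_two]
  · linear_combination -(M 1 1) * hd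
  · linear_combination (M 0 1) * hd
  · linear_combination (M 1 0) * hd
  · linear_combination -(M 0 0) * hd

/-- Square zero matrices with traceless product commute. -/
theorem commute_of_trace_mul {R : Type*} [CommRing R] [IsDomain R]
    {N N' : Matrix (Fin 2) (Fin 2) R} (h : N * N = 0) (h' : N' * N' = 0)
    (hs : (N * N').trace = 0) : N * N' = N' * N := by
  obtain ⟨hd, ht⟩ := det_trace_eq_zero h
  obtain ⟨hd', ht'⟩ := det_trace_eq_zero h'
  rw [trace_fin_two, ← eq_neg_iff_add_eq_zero] at ht ht'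
  rw [det_fin_two, ht] at hd
  rw [det_fin_two, ht'] at hd'
  simp only [trace_fin_two, Matrix.mul_apply, Fin.sum_univ_two, ht, ht'] at hs
  have e1 : N 0 1 * N' 1 0 - N 1 0 * N' 0 1 = 0 := mul_self_eq_zero.mp (by
    linear_combination (N 0 1 * N' 1 0 + N 1 0 * N' 0 1 - 2 * (N 1 1 * N' 1 1)) * hs +
      4 * (N' 0 1 * N' 1 0) * hd - 4 * (N 1 1 * N 1 1) * hd')
  have e2 : N 1 1 * N' 0 1 - N' 1 1 * N 0 1 = 0 := mul_self_eq_zero.mp (by
    linear_combination (-(N 0 1 * N' 0 1)) * hs - (N' 0 1 * N' 0 1) * hd - (N 0 1 * N 0 1) * hd')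
  have e3 : N 1 1 * N' 1 0 - N' 1 1 * N 1 0 = 0 := mul_self_eq_zero.mp (by
    linear_combination (-(N 1 0 * N' 1 0)) * hs - (N' 1 0 * N' 1 0) * hd - (N 1 0 * N 1 0) * hd')
  ext i j
  fin_cases i <;> fin_cases j <;> simp [Matrix.mul_apply, Fin.sum_univ_two, ht, ht']
  · linear_combination e1
  · linear_combination (-2) * e2
  · linear_combination 2 * e3
  · linear_combination -e1

/-- A matrix of determinant one conjugate to a power of itself has a unipotent power. -/
theorem unipotent_pow_of_conj {A P P' : Mp} (hA : A.det = 1) (hP : P' * P = 1) {m : ℕ}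
    (h : P * A * P' = A ^ m) {N : ℕ} (hN : (m - 1) * (m + 1) = N) (hm : 1 ≤ m) :
    (A ^ N - 1) * (A ^ N - 1) = 0 := by
  let K := AlgebraicClosure ℚ_[p]
  let ι : ℤ_[p] →+* K := (algebraMap ℚ_[p] K).comp PadicInt.Coe.ringHom
  have hι : Function.Injective ι :=
    (algebraMap ℚ_[p] K).injective.comp Subtype.val_injective
  obtain ⟨l, hl⟩ : ∃ l : K, l * l - ι A.trace * l + 1 = 0 := by
    obtain ⟨l, hl⟩ := IsAlgClosed.exists_eq_mul_self (ι A.trace * ι A.trace / 4 - 1)
    exact ⟨ι A.trace / 2 + l, by linear_combination -hl⟩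
  set μ := ι A.trace - l with hμ
  have hlμ : l * μ = 1 := by rw [hμ]; linear_combination -hl
  have hch : A * A = A.trace • A - 1 := by
    rw [det_fin_two] at hA
    ext i j
    fin_cases i <;> fin_cases j <;> simp [Matrix.mul_apply, Fin.sum_univ_two, trace_fin_two]
    · linear_combination -hA
    · ring
    · ring
    · linear_combination -hA
  have key : ∀ n : ℕ, ι (A ^ n).trace = l ^ n + μ ^ n ∧
      ι (A ^ (n + 1)).trace = l ^ (n + 1) + μ ^ (n + 1) := by
    intro n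
    induction n with
    | zero => simp [hμ, map_ofNat]; norm_num
    | succ n ih =>
      refine ⟨ih.2, ?_⟩
      rw [pow_succ, pow_succ, mul_assoc, hch, mul_sub, mul_smul_comm, mul_one, trace_sub,
        trace_smul, ← pow_succ, smul_eq_mul, map_sub, map_mul, ih.1, ih.2]
      rw [show ι A.trace = l + μ by rw [hμ]; ring]
      linear_combination (l ^ n + μ ^ n) * hlμ
  have htr : l ^ m + μ ^ m = l + μ := by
    rw [← (key m).1, ← h, trace_mul_cycle, hP, one_mul, hμ]; ring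
  have hprod : (l ^ m - l) * (l ^ m - μ) = 0 := by
    have e : l ^ m * μ ^ m = 1 := by rw [← mul_pow, hlμ, one_pow]
    linear_combination l ^ m * htr - e + hlμ
  obtain ⟨k, rfl⟩ := Nat.exists_eq_add_of_le hm
  rw [add_tsub_cancel_left] at hN
  have hl0 : l ≠ 0 := fun e => by rw [e, zero_mul] at hlμ; exact zero_ne_one hlμ
  have hlN : l ^ N = 1 := by
    rw [← hN]
    rcases mul_eq_zero.mp hprod with e | e
    · rw [pow_mul, show l ^ k = 1 from mul_left_cancel₀ hl0 (by
        rw [mul_one, ← pow_succ', add_comm]; exact sub_eq_zero.mp e), one_pow]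
    · rw [mul_comm, pow_mul, show l ^ (1 + k + 1) = 1 from by
        rw [pow_succ, sub_eq_zero.mp e, mul_comm, hlμ], one_pow]
  have hμN : μ ^ N = 1 := by
    have := congrArg (· ^ N) hlμ
    simpa [mul_pow, hlN] using this
  have h2 : (A ^ N).trace = 2 := hι (by rw [(key N).1, hlN, hμN, map_ofNat]; norm_num)
  have hd : (A ^ N).det = 1 := by rw [det_pow, hA, one_pow]
  generalize A ^ N = B at h2 hd
  rw [det_fin_two] at hd
  rw [trace_fin_two] at h2
  have e11 : B 1 1 = 2 - B 0 0 := by linear_combination h2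
  ext i j
  fin_cases i <;> fin_cases j <;>
    simp [Matrix.mul_apply, Fin.sum_univ_two, e11] <;> rw [e11] at hd
  · linear_combination -hd
  · ring
  · ring
  · linear_combination -hd

/-- An additive map on `ℤ_p` into matrices is linear. -/
theorem linear_of_additive (f : ℤ_[p] →+ Mp) (z : ℤ_[p]) : f z = z • f 1 := by
  ext i j
  refine PadicInt.ext_of_toZModPow.mp fun n => ?_
  obtain ⟨y, hy⟩ : ∃ y, z = (z.appr n : ℤ_[p]) + π ^ n * y :=
    (Ideal.mem_span_singleton.mp (PadicInt.appr_spec n z)).imp fun _ h => by linear_combination h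
  have e : f z = (z.appr n : ℤ_[p]) • f 1 + π ^ n • f y := by
    have e1 : (z.appr n : ℤ_[p]) = z.appr n • (1 : ℤ_[p]) := by rw [nsmul_one]
    have e2 : π ^ n * y = p ^ n • y := by rw [nsmul_eq_mul, Nat.cast_pow]
    conv_lhs => rw [hy, map_add, e1, e2, map_nsmul, map_nsmul]
    rw [← Nat.cast_pow, Nat.cast_smul_eq_nsmul, Nat.cast_smul_eq_nsmul]
  rw [e]
  conv_rhs => rw [hy]
  have h0 : PadicInt.toZModPow n (π ^ n) = 0 := by
    rw [← RingHom.mem_ker, PadicInt.ker_toZModPow]; exact Ideal.mem_span_singleton_self _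
  simp only [Matrix.add_apply, Matrix.smul_apply, smul_eq_mul, map_add, map_mul, h0, zero_mul,
    add_zero]

/-- The upper unipotent matrix with entry `x`. -/
def upp (x : ℤ_[p]) : Mp := !![1, x; 0, 1]

/-- The lower unipotent matrix with entry `x`. -/
def dwn (x : ℤ_[p]) : Mp := !![1, 0; x, 1]

theorem upp_add (x y : ℤ_[p]) : upp (x + y) = upp x * upp y := by
  simp [upp, add_comm]

theorem dwn_add (x y : ℤ_[p]) : dwn (x + y) = dwn x * dwn y := by
  simp [dwn]

theorem det_upp (x : ℤ_[p]) : (upp x).det = 1 := by simp [upp, det_fin_two_of]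

theorem det_dwn (x : ℤ_[p]) : (dwn x).det = 1 := by simp [dwn, det_fin_two_of]

theorem upp_zero : upp (0 : ℤ_[p]) = 1 := by simp [upp, one_fin_two]

theorem dwn_zero : dwn (0 : ℤ_[p]) = 1 := by simp [dwn, one_fin_two]

theorem upp_nsmul (x : ℤ_[p]) : ∀ n : ℕ, upp x ^ n = upp ((n : ℤ_[p]) * x)
  | 0 => by simp [upp_zero]
  | n + 1 => by rw [pow_succ, upp_nsmul x n, ← upp_add]; push_cast; ring_nf

theorem dwn_nsmul (x : ℤ_[p]) : ∀ n : ℕ, dwn x ^ n = dwn ((n : ℤ_[p]) * x)
  | 0 => by simp [dwn_zero]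
  | n + 1 => by rw [pow_succ, dwn_nsmul x n, ← dwn_add]; push_cast; ring_nf

/-- The diagonal product of four unipotents. -/
theorem dwn_upp_dwn_upp {t s a u : ℤ_[p]} (ha : a = 1 + t * s) (hu : a * u = 1) :
    dwn (-(s * u)) * upp t * dwn s * upp (-(t * u)) = !![a, 0; 0, u] := by
  subst ha
  ext i j
  fin_cases i <;> fin_cases j <;> simp [upp, dwn, Matrix.mul_apply, Fin.sum_univ_two]
  · linear_combination -t * hu
  · linear_combination -s * hu
  · linear_combination (-1 + s * t * u) * hu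

/-! ### Two representations -/

variable {G : Type*} [Group G] (r r' : G →* Matrix (Fin 2) (Fin 2) ℤ_[p])

/-- Reduction modulo `p ^ n`. -/
def redPow (n : ℕ) : G →* (Matrix (Fin 2) (Fin 2) (ZMod (p ^ n)))ˣ :=
  (((PadicInt.toZModPow (p := p) n).mapMatrix.toMonoidHom).comp r).toHomUnits

/-- The elements congruent to one modulo `p ^ n` in both representations. -/
def deep (n : ℕ) : Subgroup G := (redPow r n).ker ⊓ (redPow r' n).ker

theorem deep_normal (n : ℕ) : (deep r r' n).Normal :=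
  Subgroup.normal_inf_normal _ _

theorem deep_finiteIndex (n : ℕ) : (deep r r' n).FiniteIndex := by
  haveI : NeZero (p ^ n) := ⟨pow_ne_zero _ hp.out.ne_zero⟩
  unfold deep
  infer_instance

variable {r r'}

theorem exists_eq_one_add {n : ℕ} {g : G} (hg : g ∈ deep r r' n) :
    (∃ Y : Mp, r g = 1 + π ^ n • Y) ∧ ∃ Y : Mp, r' g = 1 + π ^ n • Y := by
  have main : ∀ {s : G →* Mp}, g ∈ (redPow s n).ker → ∃ Y : Mp, s g = 1 + π ^ n • Y := by
    intro s hs
    have h : (s g).map (PadicInt.toZModPow n) = 1 :=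
      congrArg (fun u : (Matrix (Fin 2) (Fin 2) (ZMod (p ^ n)))ˣ => u.val) (MonoidHom.mem_ker.mp hs)
    have hdvd : ∀ i j, π ^ n ∣ s g i j - (1 : Mp) i j := fun i j => by
      rw [← Ideal.mem_span_singleton, ← PadicInt.ker_toZModPow, RingHom.mem_ker, map_sub,
        sub_eq_zero]
      calc PadicInt.toZModPow n (s g i j) = (s g).map (PadicInt.toZModPow n) i j := rfl
        _ = (1 : Matrix (Fin 2) (Fin 2) (ZMod (p ^ n))) i j := by rw [h]
        _ = _ := by rw [Matrix.one_apply, Matrix.one_apply]; split <;> simp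
    choose Y hY using hdvd
    exact ⟨Matrix.of Y, Matrix.ext fun i j => by simp [← hY]⟩
  exact ⟨main hg.1, main hg.2⟩

theorem mem_deep {n : ℕ} {g : G} {Y Y' : Mp} (h : r g = 1 + π ^ n • Y)
    (h' : r' g = 1 + π ^ n • Y') : g ∈ deep r r' n := by
  have main : ∀ {s : G →* Mp} {Z : Mp}, s g = 1 + π ^ n • Z → g ∈ (redPow s n).ker := by
    intro s Z hs
    refine MonoidHom.mem_ker.mpr (Units.ext ?_)
    show (PadicInt.toZModPow n).mapMatrix (s g) = 1
    have h0 : PadicInt.toZModPow n (π ^ n) = 0 := by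
      rw [← RingHom.mem_ker, PadicInt.ker_toZModPow]; exact Ideal.mem_span_singleton_self _
    ext i j
    simp only [RingHom.mapMatrix_apply, Matrix.map_apply, hs, Matrix.add_apply, Matrix.smul_apply,
      smul_eq_mul, map_add, map_mul, h0, zero_mul, add_zero, Matrix.one_apply]
    split <;> simp
  exact ⟨main h, main h'⟩

/-- A congruence level for the matrices of determinant one. -/
def HasLevel (r : G →* Mp) : Prop :=
  ∃ k : ℕ, ∀ Y : Mp, (1 + π ^ k • Y).det = 1 → ∃ g, r g = 1 + π ^ k • Y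

theorem HasLevel.unipotents (h : HasLevel r) :
    ∃ a : ℤ_[p], a ≠ 0 ∧ ∀ z, (∃ g, r g = upp (a * z)) ∧ ∃ g, r g = dwn (a * z) := by
  obtain ⟨k, hk⟩ := h
  have eu : ∀ z, (1 : Mp) + π ^ k • !![0, π * z; 0, 0] = upp (π ^ (k + 1) * z) := fun z => by
    ext i j; fin_cases i <;> fin_cases j <;> simp [upp, pow_succ]; ring
  have ed : ∀ z, (1 : Mp) + π ^ k • !![0, 0; π * z, 0] = dwn (π ^ (k + 1) * z) := fun z => by
    ext i j; fin_cases i <;> fin_cases j <;> simp [dwn, pow_succ]; ring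
  refine ⟨π ^ (k + 1), pow_ne_zero _ (NeZero.ne π), fun z => ⟨?_, ?_⟩⟩
  · rw [← eu]; exact hk _ (by rw [eu]; exact det_upp _)
  · rw [← ed]; exact hk _ (by rw [ed]; exact det_dwn _)

/-- A level leaves no line stable. -/
theorem HasLevel.noLine (h : HasLevel r) (e : Fin 2 → ℤ_[p]) (he : e ≠ 0) :
    ∃ g, e 0 * (r g *ᵥ e) 1 - e 1 * (r g *ᵥ e) 0 ≠ 0 := by
  obtain ⟨a, ha, h⟩ := h.unipotents
  obtain ⟨⟨g, hg⟩, g', hg'⟩ := h 1
  rw [mul_one] at hg hg'
  by_contra hc
  push Not at hc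
  have h1 := hc g
  have h2 := hc g'
  rw [hg] at h1
  rw [hg'] at h2
  simp [upp, dwn, mulVec, dotProduct, Fin.sum_univ_two] at h1 h2
  have e1 : a * (e 1 * e 1) = 0 := by linear_combination -h1
  have e0 : a * (e 0 * e 0) = 0 := by linear_combination h2
  refine he (funext fun i => ?_)
  fin_cases i
  · exact mul_self_eq_zero.mp ((mul_eq_zero.mp e0).resolve_left ha)
  · exact mul_self_eq_zero.mp ((mul_eq_zero.mp e1).resolve_left ha)

/-- A level normalises no Cartan subalgebra. -/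
theorem HasLevel.not_dihedral (h : HasLevel r) : ¬ FA.OpenImageAll.Dihedral r := by
  rintro ⟨X, hdet, htr, hX⟩
  obtain ⟨a, ha, h⟩ := h.unipotents
  obtain ⟨⟨g, hg⟩, -⟩ := h 1
  rw [trace_fin_two, ← eq_neg_iff_add_eq_zero] at htr
  refine hdet ?_
  have hX' := hX g
  rw [hg, mul_one] at hX'
  rcases hX' with e | e <;>
    have e00 := congrFun (congrFun e 0) 0 <;> have e01 := congrFun (congrFun e 0) 1 <;>
    have e10 := congrFun (congrFun e 1) 0 <;>
    simp [upp, Matrix.mul_apply, Fin.sum_univ_two, htr] at e00 e01 e10 <;>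
    rw [det_fin_two, htr]
  · have h10 : X 1 0 = 0 := e00.resolve_left ha
    have h11 : X 1 1 = 0 := (mul_eq_zero.mp (show (2 * a) * X 1 1 = 0 by
      linear_combination e01)).resolve_left (mul_ne_zero two_ne_zero ha)
    rw [h10, h11]; ring
  · have h10 : X 1 0 = 0 := (mul_eq_zero.mp (show (2 : ℤ_[p]) * X 1 0 = 0 by
      linear_combination e10)).resolve_left two_ne_zero
    have h11 : X 1 1 = 0 := (mul_eq_zero.mp (show (2 : ℤ_[p]) * X 1 1 = 0 by
      linear_combination -e00 + a * h10)).resolve_left two_ne_zero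
    rw [h10, h11]; ring

/-- A scalar of determinant one congruent to one modulo `p ^ 2` is one. -/
theorem eq_one_of_tl_eq_zero {M Y : Mp} (hY : M = 1 + π ^ 2 • Y) (hd : M.det = 1)
    (h : FA.OpenImageAll.tl M = 0) : M = 1 := by
  have hc := FA.OpenImageAll.eq_smul_one_of_tl_eq_zero h
  rw [hc, det_smul, det_one, mul_one, Fintype.card_fin] at hd
  rcases sq_eq_one_iff.mp hd with h1 | h1
  · rw [hc, h1, one_smul]
  · exfalso
    have h2 : (p : ℤ_[p]) ^ 2 ∣ ((2 : ℤ) : ℤ_[p]) :=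
      ⟨-(Y 0 0), by rw [hY] at h1; simp at h1; push_cast; linear_combination h1⟩
    rw [PadicInt.pow_p_dvd_int_iff] at h2
    have h3 := Int.le_of_dvd two_pos h2
    have h4 : (4 : ℤ) ≤ (p : ℤ) ^ 2 := by
      exact_mod_cast Nat.pow_le_pow_left hp.out.two_le 2
    omega

/-- The two cases of Goursat's alternative on one side. -/
theorem level_or_injective [TopologicalSpace G] [CompactSpace G] (hc : Continuous r)
    (hc' : Continuous r') (hdet : ∀ g, (r g).det = (r' g).det) (hlev : HasLevel r) :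
    (∃ k : ℕ, ∀ Y : Mp, (1 + π ^ k • Y).det = 1 → ∃ g, r g = 1 + π ^ k • Y ∧ r' g = 1) ∨
      ∀ g ∈ deep r r' 2, r' g = 1 → r g = 1 := by
  let N : Subgroup G := (r'.toHomUnits).ker
  have hN : ∀ g, g ∈ N ↔ r' g = 1 := fun g =>
    ⟨fun h => congrArg Units.val (MonoidHom.mem_ker.mp h),
      fun h => MonoidHom.mem_ker.mpr (Units.ext h)⟩
  haveI := deep_normal r r' 2
  have hd1 : ∀ g ∈ N, (r g).det = 1 := fun g hg => by rw [hdet, (hN g).mp hg, det_one]
  by_cases h0 : ∀ g ∈ deep r r' 2 ⊓ N, FA.OpenImageAll.tl (r g) = 0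
  · refine Or.inr fun g hg hg' => ?_
    obtain ⟨⟨Y, hY⟩, -⟩ := exists_eq_one_add hg
    exact eq_one_of_tl_eq_zero hY (hd1 g ((hN g).mpr hg')) (h0 g ⟨hg, (hN g).mpr hg'⟩)
  push Not at h0
  obtain ⟨g₀, hg₀, hne⟩ := h0
  rcases FA.OpenImageAll.dihedral_or_triple hlev.noLine
    (T := {t | ∃ g ∈ deep r r' 2 ⊓ N, FA.OpenImageAll.tl (r g) = t})
    (by rintro t ⟨g, -, rfl⟩; exact FA.OpenImageAll.trace_tl _)
    (by
      rintro g t ⟨a, ⟨ha, ha'⟩, rfl⟩
      refine ⟨g * a * g⁻¹, ⟨(deep_normal r r' 2).conj_mem a ha g,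
        (MonoidHom.normal_ker _).conj_mem a ha' g⟩, ?_⟩
      rw [map_mul, map_mul, FA.OpenImageAll.tl_conj (FA.OpenImageAll.rep_inv_mul g)
        (FA.OpenImageAll.rep_mul_inv g)])
    ⟨_, ⟨g₀, hg₀, rfl⟩, hne⟩ with h | ⟨_, ⟨a₁, h₁, rfl⟩, _, ⟨a₂, h₂, rfl⟩, _, ⟨a₃, h₃, rfl⟩, ht⟩
  · exact absurd h hlev.not_dihedral
  obtain ⟨⟨Y₁, hY₁⟩, -⟩ := exists_eq_one_add h₁.1
  obtain ⟨⟨Y₂, hY₂⟩, -⟩ := exists_eq_one_add h₂.1
  obtain ⟨⟨Y₃, hY₃⟩, -⟩ := exists_eq_one_add h₃.1
  have hcl : IsClosed (Set.range (r.comp N.subtype)) := by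
    have hNc : IsClosed {g : G | r' g = 1} := isClosed_eq hc' continuous_const
    have e : Set.range (r.comp N.subtype) = r '' {g : G | r' g = 1} := by
      ext x
      exact ⟨fun ⟨g, hg⟩ => ⟨g.1, (hN _).mp g.2, hg⟩,
        fun ⟨g, hg, hgx⟩ => ⟨⟨g, (hN g).mpr hg⟩, hgx⟩⟩
    rw [e]
    exact (hNc.isCompact.image hc).isClosed
  obtain ⟨k, hk⟩ := FA.OpenImageAll.exists_level_of_triple (r.comp N.subtype) hcl
    (a₁ := ⟨a₁, h₁.2⟩) (a₂ := ⟨a₂, h₂.2⟩) (a₃ := ⟨a₃, h₃.2⟩) hY₁ hY₂ hY₃ (hd1 _ h₁.2)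
    (hd1 _ h₂.2) (hd1 _ h₃.2) ht
  exact Or.inl ⟨k, fun Y hY => by
    obtain ⟨g, hg⟩ := hk Y hY
    exact ⟨g.1, hg, (hN _).mp g.2⟩⟩

/-- **Rigidity**: if on the deep subgroup each representation determines the other, the squares of
the traces agree. -/
theorem trace_sq_eq_of_injective (hdet : ∀ g, (r g).det = (r' g).det) (hlev : HasLevel r')
    (h1 : ∀ g ∈ deep r r' 2, r' g = 1 → r g = 1) (h2 : ∀ g ∈ deep r r' 2, r g = 1 → r' g = 1)
    (g : G) : (r g).trace ^ 2 = (r' g).trace ^ 2 := by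
  haveI := deep_normal r r' 2
  haveI := deep_finiteIndex r r' 2
  set D := deep r r' 2
  have hinv : ∀ {s : G →* Mp} (x : G), s x⁻¹ * s x = 1 ∧ s x * s x⁻¹ = 1 := fun {s} x => by
    constructor <;> rw [← map_mul] <;> simp
  have heq : ∀ x ∈ D, ∀ y ∈ D, r' x = r' y → r x = r y := fun x hx y hy h => by
    have e := h1 (x⁻¹ * y) (mul_mem (inv_mem hx) hy) (by rw [map_mul, ← h, (hinv x).1])
    calc r x = r x * r (x⁻¹ * y) := by rw [e, mul_one]
      _ = r y := by rw [map_mul, ← mul_assoc, (hinv x).2, one_mul]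
  have heq' : ∀ x ∈ D, ∀ y ∈ D, r x = r y → r' x = r' y := fun x hx y hy h => by
    have e := h2 (x⁻¹ * y) (mul_mem (inv_mem hx) hy) (by rw [map_mul, ← h, (hinv x).1])
    calc r' x = r' x * r' (x⁻¹ * y) := by rw [e, mul_one]
      _ = r' y := by rw [map_mul, ← mul_assoc, (hinv x).2, one_mul]
  -- unipotents of `r'` in the deep subgroup, with entries divisible by a natural number `b`
  obtain ⟨b, hb0, hbp, hu, hv⟩ : ∃ b : ℕ, b ≠ 0 ∧ p ∣ b ∧
      (∀ z, ∃ x ∈ D, r' x = upp ((b : ℤ_[p]) * z)) ∧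
        ∀ z, ∃ x ∈ D, r' x = dwn ((b : ℤ_[p]) * z) := by
    obtain ⟨a, ha, h⟩ := hlev.unipotents
    obtain ⟨j, w, hw⟩ : ∃ j : ℕ, a ∣ π ^ j := by
      refine ⟨a.valuation, ?_⟩
      conv_lhs => rw [PadicInt.unitCoeff_spec ha]
      exact Units.mul_left_dvd.mpr dvd_rfl
    refine ⟨p ^ (j + 1) * D.index, mul_ne_zero (pow_ne_zero _ hp.out.ne_zero)
      Subgroup.FiniteIndex.index_ne_zero, (dvd_pow_self p j.succ_ne_zero).mul_right _, ?_, ?_⟩ <;>
      intro z
    · obtain ⟨⟨x, hx⟩, -⟩ := h (w * π * z)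
      refine ⟨x ^ D.index, D.pow_index_mem x, ?_⟩
      rw [map_pow, hx, upp_nsmul]
      congr 1
      push_cast
      linear_combination -((D.index : ℤ_[p]) * π * z) * hw
    · obtain ⟨-, x, hx⟩ := h (w * π * z)
      refine ⟨x ^ D.index, D.pow_index_mem x, ?_⟩
      rw [map_pow, hx, dwn_nsmul]
      congr 1
      push_cast
      linear_combination -((D.index : ℤ_[p]) * π * z) * hw
  choose σ hσD hσ using hu
  choose τ hτD hτ using hv
  -- the torus element at parameters `(1, 1)`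
  have htorus : ∀ c : ℕ, (∃ z, (c : ℤ_[p]) = (b : ℤ_[p]) * z) → ∃ T ∈ D, ∃ a u : ℤ_[p],
      a = 1 + (c : ℤ_[p]) * c ∧ a * u = 1 ∧ r' T = !![a, 0; 0, u] := by
    rintro c ⟨z, hz⟩
    obtain ⟨u, hu⟩ :=
      (FA.OpenImageAll.isUnit_one_add (((b / p : ℕ) : ℤ_[p]) * z * (c : ℤ_[p]))).exists_right_inv
    have ha : (1 : ℤ_[p]) + π * ((b / p : ℕ) * z * c) = 1 + (c : ℤ_[p]) * c := by
      have hbe : (b : ℤ_[p]) = π * (b / p : ℕ) := by
        rw [← Nat.cast_mul, Nat.mul_div_cancel' hbp]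
      linear_combination -(c : ℤ_[p]) * hz - (z * c) * hbe
    rw [ha] at hu
    refine ⟨τ (-(z * u)) * σ z * τ z * σ (-(z * u)),
      mul_mem (mul_mem (mul_mem (hτD _) (hσD _)) (hτD _)) (hσD _), _, u, rfl, hu, ?_⟩
    rw [map_mul, map_mul, map_mul, hτ, hτ, hσ, hσ,
      show (b : ℤ_[p]) * -(z * u) = -((c : ℤ_[p]) * u) by rw [hz]; ring, ← hz]
    exact dwn_upp_dwn_upp rfl hu
  -- the partners of the one-parameter groups become unipotent after a fixed power
  obtain ⟨T, hTD, a, u, ha, hau, hT⟩ := htorus b ⟨1, (mul_one _).symm⟩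
  set m := (1 + b * b) ^ 2 with hm
  have hm1 : 2 ≤ m := by
    have : 1 ≤ b * b := Nat.one_le_iff_ne_zero.mpr (mul_ne_zero hb0 hb0)
    rw [hm]; nlinarith
  have ham : (m : ℤ_[p]) = a * a := by rw [ha, hm]; push_cast; ring
  set N := (m - 1) * (m + 1) with hN
  have hN0 : N ≠ 0 := mul_ne_zero (by omega) (by omega)
  have hconjD : ∀ {x y : G}, y ∈ D → x * y * x⁻¹ ∈ D := fun {x y} hy =>
    (inferInstance : D.Normal).conj_mem y hy x
  have hU : ∀ z, (r (σ ((N : ℤ_[p]) * z)) - 1) * (r (σ ((N : ℤ_[p]) * z)) - 1) = 0 := fun z => by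
    have e : r (σ ((N : ℤ_[p]) * z)) = r (σ z) ^ N := by
      rw [← map_pow]
      exact heq _ (hσD _) _ (pow_mem (hσD _) _) (by rw [map_pow, hσ, hσ, upp_nsmul]; ring_nf)
    rw [e]
    refine unipotent_pow_of_conj (P := r T) (P' := r T⁻¹)
      (by rw [hdet, hσ, det_upp]) (hinv T).1 ?_ hN.symm (by omega)
    rw [← map_mul, ← map_mul, ← map_pow]
    refine heq _ (hconjD (hσD z)) _ (pow_mem (hσD z) _) ?_
    rw [map_mul, map_mul, map_pow, hσ, upp_nsmul, ham]
    have e' : !![a, 0; 0, u] * upp ((b : ℤ_[p]) * z) =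
        upp (a * a * ((b : ℤ_[p]) * z)) * r' T := by
      rw [hT]; ext i j
      fin_cases i <;> fin_cases j <;> simp [upp, Matrix.mul_apply, Fin.sum_univ_two]
      linear_combination -(a * ((b : ℤ_[p]) * z)) * hau
    rw [hT, e', mul_assoc, (hinv T).2, mul_one]
  have hV : ∀ z, (r (τ ((N : ℤ_[p]) * z)) - 1) * (r (τ ((N : ℤ_[p]) * z)) - 1) = 0 := fun z => by
    have e : r (τ ((N : ℤ_[p]) * z)) = r (τ z) ^ N := by
      rw [← map_pow]
      exact heq _ (hτD _) _ (pow_mem (hτD _) _) (by rw [map_pow, hτ, hτ, dwn_nsmul]; ring_nf)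
    rw [e]
    refine unipotent_pow_of_conj (P := r T⁻¹) (P' := r T)
      (by rw [hdet, hτ, det_dwn]) (hinv T).2 ?_ hN.symm (by omega)
    rw [← map_mul, ← map_mul, ← map_pow]
    refine heq _ (mul_mem (mul_mem (inv_mem hTD) (hτD z)) hTD) _ (pow_mem (hτD z) _) ?_
    rw [map_mul, map_mul, map_pow, hτ, dwn_nsmul, ham, mul_assoc]
    have e' : dwn ((b : ℤ_[p]) * z) * !![a, 0; 0, u] =
        r' T * dwn (a * a * ((b : ℤ_[p]) * z)) := by
      rw [hT]; ext i j
      fin_cases i <;> fin_cases j <;> simp [dwn, Matrix.mul_apply, Fin.sum_univ_two]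
      linear_combination -(a * ((b : ℤ_[p]) * z)) * hau
    rw [hT, e', ← mul_assoc, (hinv T).1, one_mul]
  -- they are linear
  set c : ℕ := b * N with hc
  have hc0 : (c : ℤ_[p]) ≠ 0 := Nat.cast_ne_zero.mpr (mul_ne_zero hb0 hN0)
  let x : ℤ_[p] → G := fun z => σ ((N : ℤ_[p]) * z)
  let y : ℤ_[p] → G := fun z => τ ((N : ℤ_[p]) * z)
  have hx : ∀ z, r' (x z) = upp ((c : ℤ_[p]) * z) := fun z => by
    rw [hσ, hc]; push_cast; ring_nf
  have hy : ∀ z, r' (y z) = dwn ((c : ℤ_[p]) * z) := fun z => by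
    rw [hτ, hc]; push_cast; ring_nf
  have lin : ∀ (w : ℤ_[p] → G), (∀ z, w z ∈ D) → (∀ z z', r' (w (z + z')) = r' (w z) * r' (w z')) →
      (∀ z, (r (w z) - 1) * (r (w z) - 1) = 0) →
      ∃ M : Mp, M * M = 0 ∧ ∀ z, r (w z) = 1 + z • M := by
    intro w hwD hadd hsq
    have hmul : ∀ z z', r (w (z + z')) = r (w z) * r (w z') := fun z z' => by
      rw [← map_mul]
      exact heq _ (hwD _) _ (mul_mem (hwD z) (hwD z')) (by rw [map_mul, hadd])
    have hkey : ∀ z z', (r (w (z + z')) - 1) = (r (w z) - 1) + (r (w z') - 1) := fun z z' => by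
      have hab : (r (w z) - 1) * (r (w z') - 1) = (r (w z') - 1) * (r (w z) - 1) := by
        have hcomm : r (w z) * r (w z') = r (w z') * r (w z) := by
          rw [← hmul, add_comm, hmul]
        simp only [sub_mul, mul_sub, one_mul, mul_one, hcomm]; abel
      have h3 := hsq (z + z')
      rw [hmul] at h3 ⊢
      obtain ⟨A, hA⟩ : ∃ A, r (w z) - 1 = A := ⟨_, rfl⟩
      obtain ⟨B, hB⟩ : ∃ B, r (w z') - 1 = B := ⟨_, rfl⟩
      rw [hA, hB] at hab
      rw [show r (w z) * r (w z') - 1 = A + B + A * B by rw [← hA, ← hB]; noncomm_ring] at h3 ⊢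
      have hA2 : A * A = 0 := hA ▸ hsq z
      have hB2 : B * B = 0 := hB ▸ hsq z'
      have e1 : ∀ M : Mp, A * (A * M) = 0 := fun M => by rw [← mul_assoc, hA2, zero_mul]
      have e2 : ∀ M : Mp, B * (A * M) = A * (B * M) := fun M => by
        rw [← mul_assoc, ← hab, mul_assoc]
      have h4 : (A + B + A * B) * (A + B + A * B) = (2 : ℤ_[p]) • (A * B) := by
        simp only [mul_add, add_mul, mul_assoc, e1, e2, hA2, hB2, ← hab, mul_zero, add_zero,
          zero_add, two_smul]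
      rw [h4] at h3
      rw [(smul_eq_zero.mp h3).resolve_left two_ne_zero, add_zero, hA, hB]
    let f : ℤ_[p] →+ Mp := AddMonoidHom.mk' (fun z => r (w z) - 1) hkey
    refine ⟨r (w 1) - 1, hsq 1, fun z => ?_⟩
    have := linear_of_additive f z
    rw [← show r (w z) - 1 = z • (r (w 1) - 1) from this, add_sub_cancel]
  obtain ⟨N₁, hN₁, hr₁⟩ := lin x (fun z => hσD _)
    (fun z z' => by rw [hx, hx, hx, ← upp_add, mul_add]) hU
  obtain ⟨N₂, hN₂, hr₂⟩ := lin y (fun z => hτD _)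
    (fun z z' => by rw [hy, hy, hy, ← dwn_add, mul_add]) hV
  have hN₂0 : N₂ ≠ 0 := fun h => hc0 (by
    have e := h2 (y 1) (hτD _) (by rw [hr₂, h, smul_zero, add_zero])
    rw [hy] at e
    simpa [dwn] using congrFun (congrFun e 1) 0)
  -- the scaling
  have hs : (N₁ * N₂).trace = (c : ℤ_[p]) * c := by
    obtain ⟨T', hT'D, a', u', ha', hau', hT'⟩ := htorus c ⟨N, by rw [hc]; push_cast; ring⟩
    have hTr : r T' = (1 + (-u') • N₂) * (1 + N₁) * (1 + N₂) * (1 + (-u') • N₁) := by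
      have e : r T' = r (y (-u') * x 1 * y 1 * x (-u')) := by
        refine heq _ hT'D _ (mul_mem (mul_mem (mul_mem (hτD _) (hσD _)) (hτD _)) (hσD _)) ?_
        rw [map_mul, map_mul, map_mul, hy, hy, hx, hx, hT', mul_one, mul_neg,
          dwn_upp_dwn_upp ha' hau']
      rw [e, map_mul, map_mul, map_mul, hr₁, hr₂, hr₂, hr₁, one_smul, one_smul]
    have hrel : r (y 1) * r T' = r T' * r (y (a' * a')) := by
      rw [← map_mul, ← map_mul]
      refine heq _ (mul_mem (hτD _) hT'D) _ (mul_mem hT'D (hτD _)) ?_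
      rw [map_mul, map_mul, hy, hy, hT']
      ext i j
      fin_cases i <;> fin_cases j <;> simp [dwn, Matrix.mul_apply, Fin.sum_univ_two]
      linear_combination -(a' * c) * hau'
    rw [hr₂, hr₂, one_smul, add_mul, mul_add, one_mul, mul_one, add_right_inj,
      Algebra.mul_smul_comm] at hrel
    have hsand : N₂ * r T' * N₂ = 0 := by
      rw [hrel, smul_mul_assoc, mul_assoc, hN₂, mul_zero, smul_zero]
    set s := (N₁ * N₂).trace
    have h212 : N₂ * N₁ * N₂ = s • N₂ := mul_mul_self_of_det (det_trace_eq_zero hN₂).1 N₁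
    have eN : ∀ M : Mp, N₂ * (N₂ * M) = 0 := fun M => by rw [← mul_assoc, hN₂, zero_mul]
    have e2 : ∀ M : Mp, N₂ * (N₁ * (N₂ * M)) = s • (N₂ * M) := fun M => by
      rw [← mul_assoc, ← mul_assoc, h212, smul_mul_assoc]
    have hval : N₂ * r T' * N₂ = ((1 - u') * s - u' * (s * s)) • N₂ := by
      rw [hTr]
      simp only [mul_add, add_mul, mul_one, one_mul, smul_mul_assoc, mul_smul_comm, mul_assoc, eN,
        e2, hN₁, hN₂, smul_zero, mul_zero, add_zero, zero_add,
        show N₂ * (N₁ * N₂) = s • N₂ by rw [← mul_assoc]; exact h212, smul_smul]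
      module
    rw [hval, smul_eq_zero, or_iff_left hN₂0] at hsand
    have hs0 : s ≠ 0 := fun h => by
      have hcomm := commute_of_trace_mul hN₁ hN₂ h
      have e : r (x 1 * y 1) = r (y 1 * x 1) := by
        rw [map_mul, map_mul, hr₁, hr₂, one_smul, one_smul]
        simp only [mul_add, add_mul, mul_one, one_mul, hcomm]
        abel
      have e' := heq' _ (mul_mem (hσD _) (hτD _)) _ (mul_mem (hτD _) (hσD _)) e
      rw [map_mul, map_mul, hx, hy, mul_one] at e'
      simpa [upp, dwn, Matrix.mul_apply, Fin.sum_univ_two, hc0] using congrFun (congrFun e' 0) 0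
    have h5 : s * (1 - u' - u' * s) = 0 := by linear_combination hsand
    linear_combination (-a') * ((mul_eq_zero.mp h5).resolve_left hs0) - (1 + s) * hau' + ha'
  have h121 : N₁ * N₂ * N₁ = ((c : ℤ_[p]) * c) • N₁ := by
    rw [mul_mul_self_of_det (det_trace_eq_zero hN₁).1 N₂, trace_mul_comm, hs]
  -- the intertwiner
  obtain ⟨w, hw⟩ : ∃ w, N₁ *ᵥ w ≠ 0 := by
    by_contra! hall
    have h0 : N₁ = 0 := Matrix.ext_of_mulVec_single fun k => by rw [hall, zero_mulVec]
    rw [h0, zero_mul, trace_zero] at hs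
    exact mul_ne_zero hc0 hc0 hs.symm
  set v := N₁ *ᵥ w with hvdef
  set v' := N₂ *ᵥ v with hv'def
  have h1v : N₁ *ᵥ v = 0 := by rw [hvdef, mulVec_mulVec, hN₁, zero_mulVec]
  have h1v' : N₁ *ᵥ v' = ((c : ℤ_[p]) * c) • v := by
    rw [hv'def, hvdef, mulVec_mulVec, mulVec_mulVec, h121, smul_mulVec]
  have h2v' : N₂ *ᵥ v' = 0 := by rw [hv'def, mulVec_mulVec, hN₂, zero_mulVec]
  let Q : Mp := !![(c : ℤ_[p]) * v 0, v' 0; (c : ℤ_[p]) * v 1, v' 1]
  have hQ : Q.det ≠ 0 := fun h => by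
    simp [Q, det_fin_two_of] at h
    have h' : v 0 * v' 1 - v' 0 * v 1 = 0 :=
      (mul_eq_zero.mp (show (c : ℤ_[p]) * (v 0 * v' 1 - v' 0 * v 1) = 0 by
        linear_combination h)).resolve_left hc0
    obtain ⟨i, hi⟩ := Function.ne_iff.mp hw
    have e : v i • v' = v' i • v := funext fun j => by
      fin_cases i <;> fin_cases j <;> simp
      · ring
      · linear_combination h'
      · linear_combination -h'
      · ring
    have e' := congrArg (N₁ *ᵥ ·) e
    simp only [mulVec_smul, h1v, h1v', smul_zero, smul_smul, smul_eq_zero] at e'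
    exact e'.elim (mul_ne_zero hi (mul_ne_zero hc0 hc0)) hw
  have hv0 : ∀ i, (N₁ *ᵥ v) i = 0 := fun i => congrFun h1v i
  have hv1 : ∀ i, (N₁ *ᵥ v') i = (c : ℤ_[p]) * c * v i := fun i => congrFun h1v' i
  have hv2 : ∀ i, (N₂ *ᵥ v) i = v' i := fun i => rfl
  have hv3 : ∀ i, (N₂ *ᵥ v') i = 0 := fun i => congrFun h2v' i
  simp only [mulVec, dotProduct, Fin.sum_univ_two] at hv0 hv1 hv2 hv3
  have hQ₁ : N₁ * Q = Q * !![0, (c : ℤ_[p]); 0, 0] := by
    ext i j
    fin_cases i <;> fin_cases j <;> simp [Q, Matrix.mul_apply, Fin.sum_univ_two]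
    · linear_combination (c : ℤ_[p]) * hv0 0
    · linear_combination hv1 0
    · linear_combination (c : ℤ_[p]) * hv0 1
    · linear_combination hv1 1
  have hQ₂ : N₂ * Q = Q * !![0, 0; (c : ℤ_[p]), 0] := by
    ext i j
    fin_cases i <;> fin_cases j <;> simp [Q, Matrix.mul_apply, Fin.sum_univ_two]
    · linear_combination (c : ℤ_[p]) * hv2 0
    · linear_combination hv3 0
    · linear_combination (c : ℤ_[p]) * hv2 1
    · linear_combination hv3 1
  -- it intertwines on every element deep enough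
  let S : Submonoid G :=
    { carrier := {g | g ∈ D ∧ r g * Q = Q * r' g}
      one_mem' := ⟨one_mem D, by simp⟩
      mul_mem' := fun {g g'} hg hg' => ⟨mul_mem hg.1 hg'.1, by
        rw [map_mul, map_mul, mul_assoc, hg'.2, ← mul_assoc, hg.2, mul_assoc]⟩ }
  have hxS : ∀ z, x z ∈ S := fun z => ⟨hσD _, by
    rw [hr₁, add_mul, one_mul, smul_mul_assoc, hQ₁, ← mul_smul_comm, hx]
    nth_rw 1 [← mul_one Q]
    rw [← mul_add]
    congr 1
    ext i j; fin_cases i <;> fin_cases j <;> simp [upp]; ring⟩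
  have hyS : ∀ z, y z ∈ S := fun z => ⟨hτD _, by
    rw [hr₂, add_mul, one_mul, smul_mul_assoc, hQ₂, ← mul_smul_comm, hy]
    nth_rw 1 [← mul_one Q]
    rw [← mul_add]
    congr 1
    ext i j; fin_cases i <;> fin_cases j <;> simp [dwn]; ring⟩
  have hdeep : ∀ M : Mp, M.det = 1 → ∀ α β γ : ℤ_[p], M 0 0 = 1 + (c : ℤ_[p]) * c * α →
      M 0 1 = c * β → M 1 0 = c * γ → ∃ h ∈ S, r' h = M := by
    intro M hM α β γ e00 e01 e10
    obtain ⟨e, he⟩ := (FA.OpenImageAll.isUnit_one_add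
      (((b / p : ℕ) : ℤ_[p]) * (N : ℤ_[p]) * (c : ℤ_[p]) * α)).exists_right_inv
    have hpe : (1 : ℤ_[p]) + π * ((b / p : ℕ) * (N : ℤ_[p]) * c * α) = M 0 0 := by
      have hbe : (b : ℤ_[p]) = π * (b / p : ℕ) := by
        rw [← Nat.cast_mul, Nat.mul_div_cancel' hbp]
      have hce : (c : ℤ_[p]) = (b : ℤ_[p]) * N := by rw [hc, Nat.cast_mul]
      rw [e00]
      linear_combination -((c : ℤ_[p]) * α) * hce - ((N : ℤ_[p]) * c * α) * hbe
    rw [hpe] at he
    refine ⟨y ((γ - α) * e) * x 1 * y α * x ((β - 1) * e),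
      mul_mem (mul_mem (mul_mem (hyS _) (hxS _)) (hyS _)) (hxS _), ?_⟩
    rw [map_mul, map_mul, map_mul, hy, hy, hx, hx]
    rw [det_fin_two, e01, e10] at hM
    ext i j
    fin_cases i <;> fin_cases j <;> simp [upp, dwn, Matrix.mul_apply, Fin.sum_univ_two]
    · linear_combination -e00
    · linear_combination (c : ℤ_[p]) * (β - 1) * he - e01 - (c : ℤ_[p]) * (β - 1) * e * e00
    · linear_combination (c : ℤ_[p]) * (γ - α) * he - e10 - (c : ℤ_[p]) * (γ - α) * e * e00
    · rw [e00] at he hM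
      linear_combination ((c : ℤ_[p]) * c * (γ - α) * (β - 1) * e + M 1 1 - 1) * he - e * hM
  -- hence it intertwines everything up to a sign
  have hconj : ∀ (M₀ : Mp) (x₀ : G), x₀ ∈ D → r x₀ = 1 + (c : ℤ_[p]) • M₀ →
      (r' x₀).det = 1 → ∀ E₀ : Mp, r' x₀ = 1 + ((c : ℤ_[p]) * c) • E₀ →
      r g * M₀ * r g⁻¹ * Q = (c : ℤ_[p]) • (Q * (r' g * E₀ * r' g⁻¹)) := by
    intro M₀ x₀ hx₀ hM₀ hd₀ E₀ hE₀
    set Z := r' g * E₀ * r' g⁻¹
    have hg1 : r' (g * x₀ * g⁻¹) = 1 + ((c : ℤ_[p]) * c) • Z := by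
      rw [map_mul, map_mul, hE₀, mul_add, mul_one, add_mul, (hinv g).2, mul_smul_comm,
        smul_mul_assoc]
    obtain ⟨h, ⟨hhD, hhQ⟩, hh⟩ := hdeep (1 + ((c : ℤ_[p]) * c) • Z) (by
        rw [← hg1, map_mul, map_mul, det_mul, det_mul, mul_right_comm, ← det_mul, (hinv g).2,
          det_one, one_mul, hd₀])
      (Z 0 0) ((c : ℤ_[p]) * Z 0 1) ((c : ℤ_[p]) * Z 1 0) (by simp) (by simp; ring) (by simp; ring)
    have hg2 : r (g * x₀ * g⁻¹) * Q = Q * r' (g * x₀ * g⁻¹) := by
      rw [heq _ (hconjD hx₀) h hhD (hg1.trans hh.symm), hhQ, hh, hg1]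
    rw [hg1, map_mul, map_mul, hM₀, mul_add, mul_one, add_mul, (hinv g).2, mul_smul_comm,
      smul_mul_assoc, add_mul, one_mul, mul_add, mul_one, add_right_inj, smul_mul_assoc,
      mul_smul_comm, ← smul_smul] at hg2
    exact smul_right_injective Mp hc0 hg2
  have hA := hconj N₁ (x c) (hσD _) (hr₁ _) (by rw [hx, det_upp]) !![0, 1; 0, 0] (by
    rw [hx]; ext i j; fin_cases i <;> fin_cases j <;> simp [upp])
  have hB := hconj N₂ (y c) (hτD _) (hr₂ _) (by rw [hy, det_dwn]) !![0, 0; 1, 0] (by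
    rw [hy]; ext i j; fin_cases i <;> fin_cases j <;> simp [dwn])
  set X := r g⁻¹ * Q * r' g with hXdef
  have hX : ∀ {M₀ E₀ : Mp}, r g * M₀ * r g⁻¹ * Q = (c : ℤ_[p]) • (Q * (r' g * E₀ * r' g⁻¹)) →
      M₀ * X = (c : ℤ_[p]) • (X * E₀) := fun {M₀ E₀} h => by
    have h' := congrArg (fun M => r g⁻¹ * M * r' g) h
    simp only [mul_smul_comm, smul_mul_assoc, mul_assoc, (hinv g).1, mul_one] at h'
    rw [← mul_assoc (r g⁻¹) (r g), (hinv g).1, one_mul] at h'
    rw [hXdef]
    simp only [mul_assoc]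
    exact h'
  set Z := Q.adjugate * X with hZdef
  have hZ : ∀ {M₀ E₀ : Mp}, M₀ * Q = Q * ((c : ℤ_[p]) • E₀) →
      M₀ * X = (c : ℤ_[p]) • (X * E₀) → E₀ * Z = Z * E₀ := fun {M₀ E₀} h h' => by
    have e : Q.adjugate * M₀ = (c : ℤ_[p]) • (E₀ * Q.adjugate) := by
      refine smul_right_injective Mp hQ ?_
      show Q.det • (Q.adjugate * M₀) = Q.det • ((c : ℤ_[p]) • (E₀ * Q.adjugate))
      calc Q.det • (Q.adjugate * M₀) = Q.adjugate * (M₀ * Q) * Q.adjugate := by
            rw [mul_assoc, mul_assoc, mul_adjugate, mul_smul_comm, mul_one, mul_smul_comm]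
        _ = _ := by
            rw [h, ← mul_assoc Q.adjugate, adjugate_mul, smul_mul_assoc, one_mul, smul_mul_assoc,
              smul_mul_assoc]
    refine smul_right_injective Mp hc0 ?_
    show (c : ℤ_[p]) • (E₀ * Z) = (c : ℤ_[p]) • (Z * E₀)
    rw [hZdef, ← mul_assoc, ← smul_mul_assoc, ← e, mul_assoc, h', mul_smul_comm, ← mul_assoc]
  have hZ₁ := hZ (E₀ := !![0, 1; 0, 0]) (by rw [hQ₁]; congr 1; simp) (hX hA)
  have hZ₂ := hZ (E₀ := !![0, 0; 1, 0]) (by rw [hQ₂]; congr 1; simp) (hX hB)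
  obtain ⟨ζ, hζ⟩ : ∃ ζ : ℤ_[p], Z = ζ • 1 := by
    refine ⟨Z 0 0, ?_⟩
    have a01 := congrFun (congrFun hZ₁ 0) 1
    have a00 := congrFun (congrFun hZ₁ 0) 0
    have b00 := congrFun (congrFun hZ₂ 0) 0
    simp [Matrix.mul_apply, Fin.sum_univ_two] at a01 a00 b00
    ext i j
    fin_cases i <;> fin_cases j <;> simp
    exacts [b00.symm, a00, a01]
  have hQZ : Q.det • X = ζ • Q := by
    have := congrArg (Q * ·) hζ
    rwa [hZdef, ← mul_assoc, mul_adjugate, smul_mul_assoc, one_mul, mul_smul_comm, mul_one]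
      at this
  have hdX : X.det = Q.det := by
    rw [hXdef, det_mul, det_mul, ← hdet g, mul_right_comm, ← det_mul, (hinv g).1, det_one, one_mul]
  have hζ2 : ζ * ζ = Q.det * Q.det := by
    have := congrArg Matrix.det hQZ
    rw [det_smul, det_smul, hdX, Fintype.card_fin] at this
    exact mul_right_cancel₀ hQ (by linear_combination -this)
  have hQg : Q.det • (Q * r' g) = ζ • (r g * Q) := by
    have := congrArg (r g * ·) hQZ
    simp only [mul_smul_comm, hXdef, ← mul_assoc, (hinv g).2, one_mul] at this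
    exact this
  have htr : Q.det * (Q.det * (r' g).trace) = ζ * (Q.det * (r g).trace) := by
    have := congrArg (fun M => (M * Q.adjugate).trace) hQg
    simp only [smul_mul_assoc, trace_smul, smul_eq_mul] at this
    rwa [trace_mul_cycle, adjugate_mul, smul_mul_assoc, one_mul, trace_smul, smul_eq_mul,
      mul_assoc (r g), mul_adjugate, mul_smul_comm, mul_one, trace_smul, smul_eq_mul] at this
  have h' : Q.det * (r' g).trace = ζ * (r g).trace :=
    mul_left_cancel₀ hQ (by linear_combination htr)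
  refine mul_left_cancel₀ (mul_ne_zero hQ hQ) ?_
  linear_combination (-(Q.det * (r' g).trace) - ζ * (r g).trace) * h' - (r g).trace ^ 2 * hζ2

end FA.Independence.Padic

end
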