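import Fermat.Agent.Independence.Group

/-!
# Pairs with equal squares of traces are conjugate up to sign

For `l ≥ 7` a subgroup of `GL₂(𝔽_l) × GL₂(𝔽_l)` with surjective projections and equal determinants
all whose pairs have equal squares of traces consists of the pairs `(A, ± Q A Q⁻¹)` for one `Q`.
-/

set_option autoImplicit false
set_option linter.style.haveILetI false

noncomputable section

open Matrix

namespace FA.Independence

variable {l : ℕ} [hl : Fact l.Prime]

local notation "G" => GL (Fin 2) (ZMod l)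
local notation "M2" => Matrix (Fin 2) (Fin 2) (ZMod l)

/-- With the unipotent and a diagonal element as their own partners up to sign, every partner is
plus or minus the matrix itself. -/
theorem eq_or_eq_neg_of_normalised (h7 : 7 ≤ l) {H : Subgroup (G × G)}
    (h1 : ∀ A, ∃ B, (A, B) ∈ H) (hdet : ∀ p ∈ H, (p.1 : M2).det = (p.2 : M2).det)
    (hk2 : ∀ B, (1, B) ∈ H → ¬ NonScalar B) (hu : ((up 1, up 1) : G × G) ∈ H) {D D' : G}
    {h : ZMod l} (hD : (D : M2) = !![2, 0; 0, 1]) (hD' : (D' : M2) = !![2 * h, 0; 0, h])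
    (hDD : (D, D') ∈ H) {A B : G} (hAB : (A, B) ∈ H) : B = A ∨ B = -A := by
  have h2 : (2 : ZMod l) ≠ 0 := two_ne_zero_of h7
  have hh : h ≠ 0 := fun e => det_ne_zero' D' (by rw [hD', det_fin_two_of, e]; ring)
  have key : ∀ {A B : G}, (A, B) ∈ H → (A : M2) 1 0 ≠ 0 → B = A ∨ B = -A := fun {A B} hAB h10 => by
    obtain ⟨γ, hg, e10, et⟩ := exists_sign h7 h1 hdet hk2 one_ne_zero hu hAB h10
    have f10 : ((A * D : G) : M2) 1 0 = 2 * (A : M2) 1 0 := by
      simp [hD, Matrix.mul_apply, Fin.sum_univ_two]; ring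
    have h' : (A : M2) 1 0 * 2 ≠ 0 := mul_ne_zero h10 h2
    obtain ⟨γ', -, e10', et'⟩ := exists_sign h7 h1 hdet hk2 one_ne_zero hu
      (show (A * D, B * D') ∈ H from H.mul_mem hAB hDD) (by rw [f10, mul_comm]; exact h')
    rw [f10] at e10'
    have hγ' : γ' = h * γ := mul_right_cancel₀ h' (by
      simp [hD', Matrix.mul_apply, Fin.sum_univ_two] at e10'
      linear_combination (2 * h) * e10 - e10')
    rw [hγ'] at et'
    simp [hD, hD', trace_fin_two, Matrix.mul_apply, Fin.sum_univ_two] at et'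
    rw [trace_fin_two, trace_fin_two] at et
    have e00 : (B : M2) 0 0 = γ * (A : M2) 0 0 := mul_left_cancel₀ hh (by
      linear_combination et' - h * et)
    have e11 : (B : M2) 1 1 = γ * (A : M2) 1 1 := by linear_combination et - e00
    have ed := hdet _ hAB
    simp only [det_fin_two, e00, e11, e10] at ed
    have e01 : (B : M2) 0 1 = γ * (A : M2) 0 1 := mul_right_cancel₀ h10 (by
      linear_combination γ * ed + ((A : M2) 0 0 * (A : M2) 1 1 * γ - (B : M2) 0 1 * (A : M2) 1 0) * hg)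
    rcases sq_eq_one_iff.mp hg with rfl | rfl
    · refine Or.inl (Units.ext ?_)
      ext i j
      fin_cases i <;> fin_cases j <;> simp_all
    · refine Or.inr (Units.ext ?_)
      ext i j
      fin_cases i <;> fin_cases j <;> simp_all
  by_cases h10 : (A : M2) 1 0 = 0
  · obtain ⟨L, hL⟩ := h1 (low 1)
    have hA1 : ((A * low 1 : G) : M2) 1 0 ≠ 0 := by
      have hd := det_ne_zero' A
      rw [det_fin_two, h10, mul_zero, sub_zero] at hd
      simpa [Matrix.mul_apply, Fin.sum_univ_two, h10] using right_ne_zero_of_mul hd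
    have e := key (show (A * low 1, B * L) ∈ H from H.mul_mem hAB hL) hA1
    have eB : B = (B * L) * L⁻¹ := (mul_inv_cancel_right B L).symm
    rcases key hL (by simp) with rfl | rfl <;> rcases e with e | e
    · exact Or.inl (by rw [eB, e, mul_inv_cancel_right])
    · exact Or.inr (by rw [eB, e, neg_mul, mul_inv_cancel_right])
    · exact Or.inr (by rw [eB, e, inv_neg, mul_neg, mul_inv_cancel_right])
    · exact Or.inl (by rw [eB, e, inv_neg, neg_mul_neg, mul_inv_cancel_right])
  · exact key hAB h10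

/-- **Rigidity**: surjective projections, equal determinants and equal squares of traces force
`B = ± Q A Q⁻¹`. -/
theorem exists_conj_eq_or_neg (h7 : 7 ≤ l) {H : Subgroup (G × G)} (h1 : ∀ A, ∃ B, (A, B) ∈ H)
    (hdet : ∀ p ∈ H, (p.1 : M2).det = (p.2 : M2).det) (h2 : ∀ B, ∃ A, (A, B) ∈ H)
    (htr : ∀ A B : G, (A, B) ∈ H → (A : M2).trace ^ 2 = (B : M2).trace ^ 2) :
    ∃ Q : G, ∀ A B : G, (A, B) ∈ H → B = Q * A * Q⁻¹ ∨ B = -(Q * A * Q⁻¹) := by
  have h20 : (2 : ZMod l) ≠ 0 := two_ne_zero_of h7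
  have hk : (∀ A, (A, 1) ∈ H → ¬ NonScalar A) ∧ ∀ B, (1, B) ∈ H → ¬ NonScalar B := by
    by_contra hk
    let B : G := GeneralLinearGroup.mkOfDetNeZero !![0, -1; 1, 0] (by simp [det_fin_two_of])
    have hm := htr 1 B (full_of_nonscalar h7 h1 hdet h2 hk 1 B (by simp [B, det_fin_two_of]))
    simp [B, trace_fin_two, h20] at hm
  obtain ⟨Q₀, hQ₀⟩ := exists_conj_unipotent h7 h1 hdet hk.1 hk.2
  obtain ⟨g1, gdet, gk⟩ := conjSnd_props Q₀ h1 hdet hk.2
  let D : G := GeneralLinearGroup.mkOfDetNeZero !![2, 0; 0, 1] (by simp [det_fin_two_of, h20])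
  obtain ⟨Y, hY⟩ := g1 D
  obtain ⟨y10, y00, y11⟩ := partner_of_triangular h20 gdet gk (mem_conjSnd.mpr hQ₀) hY
    (show (D : M2) 1 0 = 0 from rfl)
  set h := (Y : M2) 1 1 with hdef
  simp [D] at y00 y11
  have hh : h ≠ 0 := fun e => by rcases y11 with e' | e' <;> rw [e] at e' <;> simp at e'
  let D' : G := GeneralLinearGroup.mkOfDetNeZero !![2 * h, 0; 0, h]
    (by simp [det_fin_two_of, hh, h20])
  set x := -(Y : M2) 0 1 / h with hx
  have hup : ∀ z : ZMod l, (up x * up z * (up x)⁻¹ : G) = up z := fun z =>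
    mul_inv_eq_iff_eq_mul.mpr (by rw [up_mul, up_mul, add_comm])
  have hD' : up x * D' * (up x)⁻¹ = Y := by
    refine mul_inv_eq_iff_eq_mul.mpr (Units.ext ?_)
    ext i j
    fin_cases i <;> fin_cases j <;>
      simp [D', Matrix.mul_apply, Fin.sum_univ_two, y10, y00, ← hdef]
    rw [hx]
    field_simp
    ring
  set Q := Q₀ * up x with hQ
  obtain ⟨q1, qdet, qk⟩ := conjSnd_props Q h1 hdet hk.2
  have hmem : ∀ X Z : G, (X, Z) ∈ conjSnd Q₀ H ↔
      (X, (up x)⁻¹ * Z * up x) ∈ conjSnd Q H := fun X Z => by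
    rw [mem_conjSnd, mem_conjSnd, hQ]
    simp [mul_assoc]
  have hu : ((up 1, up 1) : G × G) ∈ conjSnd Q H := by
    have := (hmem _ _).mp (mem_conjSnd.mpr hQ₀)
    rwa [show (up x)⁻¹ * up 1 * up x = up (1 : ZMod l) by
      rw [mul_assoc, inv_mul_eq_iff_eq_mul, up_mul, up_mul, add_comm]] at this
  have hDD : (D, D') ∈ conjSnd Q H := by
    have := (hmem _ _).mp hY
    rwa [← hD', show (up x)⁻¹ * (up x * D' * (up x)⁻¹) * up x = D' by group] at this
  refine ⟨Q, fun A B hAB => ?_⟩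
  rcases eq_or_eq_neg_of_normalised h7 q1 qdet qk hu rfl rfl hDD
    (show (A, Q⁻¹ * B * Q) ∈ conjSnd Q H from mem_conjSnd.mpr (by simpa [mul_assoc] using hAB))
    with e | e
  · exact Or.inl (by rw [← e]; group)
  · refine Or.inr ?_
    rw [show A = -(Q⁻¹ * B * Q) by rw [e, neg_neg], mul_neg, neg_mul, neg_neg]
    group

end FA.Independence

end
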