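import Fermat.Agent.Independence.Twist
import Fermat.Agent.SerreLarge.Field
import Fermat.Agent.SerreLarge.GoodModel
import Fermat.Agent.Twists.LocalFactors
import Fermat.Agent.Root.SummaryTwists
import Fermat.Agent.Root.SummaryTwistRigidity

/-!
# The sign character as a quadratic twist

At an odd prime `q` of good reduction not dividing `d` the quadratic twist by `d` has good
reduction and coefficient `(d / q) a_q`. Equal squares of traces of two curves with full images at
the large primes are therefore equal coefficients of one with those of a twist of the other: the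
sign character fixes the square root of a squarefree `d`, and Frobenius moves that square root
exactly when `d` is not a square modulo `q`.
-/

set_option autoImplicit false
set_option linter.style.haveILetI false

noncomputable section

open WeierstrassCurve FA.LocalDef
open FA.Frob (ratCurve)

local notation "Qb" => AlgebraicClosure ℚ
local notation "GQ" => AlgebraicClosure ℚ ≃ₐ[ℚ] AlgebraicClosure ℚ

namespace FA.TwistCurve

open FA.Twists (quadTwist oddTwist)

/-- The twist of an integral equation is an integral equation of the twist. -/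
theorem oddTwist_isIntegralModelOf {E : WeierstrassCurve ℚ} {W : WeierstrassCurve ℤ}
    (hW : W.IsIntegralModelOf E) (d : ℤ) :
    (oddTwist W d).IsIntegralModelOf (quadTwist E (d : ℚ)) := by
  obtain ⟨C, hC⟩ := hW
  set w : ℚ := ((C.u⁻¹ : ℚˣ) : ℚ)
  have hw : w ≠ 0 := Units.ne_zero _
  have h4 : (W.c₄ : ℚ) = w ^ 4 * E.c₄ := by
    have h := congrArg WeierstrassCurve.c₄ hC
    rw [variableChange_c₄, map_c₄, eq_intCast] at h
    exact h.symm
  have h6 : (W.c₆ : ℚ) = w ^ 6 * E.c₆ := by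
    have h := congrArg WeierstrassCurve.c₆ hC
    rw [variableChange_c₆, map_c₆, eq_intCast] at h
    exact h.symm
  obtain ⟨D, hD⟩ := FA.Twists.exists_smul_eq_short ((oddTwist W d).map (Int.castRingHom ℚ))
    (s := (2 * w)⁻¹) (inv_ne_zero (mul_ne_zero two_ne_zero hw))
  refine ⟨D⁻¹, ?_⟩
  rw [inv_smul_eq_iff, hD, map_c₄, map_c₆, eq_intCast, eq_intCast,
    (FA.Twists.oddTwist_invariants W d).1, (FA.Twists.oddTwist_invariants W d).2.1, quadTwist]
  push_cast
  rw [h4, h6]
  congr 1 <;> field_simp <;> ring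

/-- **The coefficient of the twist.** -/
theorem LFunction_quadTwist {E : WeierstrassCurve ℚ} {W : WeierstrassCurve ℤ}
    (hW : W.IsIntegralModelOf E) {d : ℤ} {q : ℕ} [hq : Fact q.Prime] (hq2 : q ≠ 2)
    (hd : ¬ (q : ℤ) ∣ d) (hgood : ¬ (q : ℤ) ∣ W.Δ) :
    (∃ C : VariableChange ℚ_[q],
      HasGoodReduction ℤ_[q] (C • (quadTwist E (d : ℚ)).map (algebraMap ℚ ℚ_[q]))) ∧
    (quadTwist E (d : ℚ)).LFunction q = jacobiSym d q * E.LFunction q := by
  have hX : ¬ (q : ℤ) ∣ (oddTwist W d).Δ := by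
    rw [(FA.Twists.oddTwist_invariants W d).2.2, show (4096 : ℤ) = 2 ^ 12 by norm_num]
    intro h
    have hp := Nat.prime_iff_prime_int.mp hq.out
    rcases hp.dvd_or_dvd h with h | h
    · rcases hp.dvd_or_dvd h with h | h
      · exact hq2 ((Nat.prime_dvd_prime_iff_eq hq.out Nat.prime_two).mp
          (by exact_mod_cast hp.dvd_of_dvd_pow h))
      · exact hd (hp.dvd_of_dvd_pow h)
    · exact hgood h
  refine ⟨FA.Root.exists_good_of_model (oddTwist_isIntegralModelOf hW d) q hX, ?_⟩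
  rw [FA.Root.LFunction_apply_prime _ _ (oddTwist_isIntegralModelOf hW d) hq.out hX,
    FA.Root.LFunction_apply_prime E W hW hq.out hgood,
    FA.Twists.apOfModel_oddTwist hq2 hd hgood]

/-- The same, from good reduction. -/
theorem LFunction_quadTwist_of_good (E : WeierstrassCurve ℚ) [E.IsElliptic] {d : ℤ} {q : ℕ}
    [hq : Fact q.Prime] (hq2 : q ≠ 2) (hd : ¬ (q : ℤ) ∣ d)
    (h : ∃ C : VariableChange ℚ_[q], HasGoodReduction ℤ_[q] (C • E.map (algebraMap ℚ ℚ_[q]))) :
    (∃ C : VariableChange ℚ_[q],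
      HasGoodReduction ℤ_[q] (C • (quadTwist E (d : ℚ)).map (algebraMap ℚ ℚ_[q]))) ∧
    (quadTwist E (d : ℚ)).LFunction q = jacobiSym d q * E.LFunction q := by
  obtain ⟨W, hW, hWg⟩ := FA.SerreLarge.exists_goodModel E
  exact LFunction_quadTwist hW hq2 hd (hWg q h)

/-- Frobenius fixes the square root of a square residue. -/
theorem frobenius_apply_eq {l : ℕ} (hl : l.Prime) (hl2 : l ≠ 2) {d : ℤ} (hd : ¬ (l : ℤ) ∣ d)
    (hs' : IsSquare (d : ZMod l)) {A : ValuationSubring Qb} (hA : A.LiesOverPrime l) {σ : GQ}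
    (hσ : A.IsFrobeniusAt σ l) {s : Qb} (hs : s ^ 2 = (d : Qb)) (hor : σ s = s ∨ σ s = -s) :
    σ s = s := by
  haveI := Fact.mk hl
  haveI := res_charP hl hA
  have hd0 : (d : ZMod l) ≠ 0 := fun e => hd ((ZMod.intCast_zmod_eq_zero_iff_dvd _ _).mp e)
  have hint : A.valuation (d : Qb) ≤ 1 :=
    (A.valuation_le_one_iff _).mpr (intCast_mem A d)
  have hv : A.valuation s ≤ 1 := by
    rw [← hs, map_pow] at hint
    exact (pow_le_one_iff_of_nonneg zero_le two_ne_zero).mp hint
  have hrs : res A s ^ 2 = (d : Res A) := by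
    rw [← res_pow hv, hs, res_eq ((A.valuation_le_one_iff _).mpr (intCast_mem A d)),
      ← map_intCast (IsLocalRing.residue A)]
    rfl
  refine hor.resolve_right fun he => ?_
  have hv' : A.valuation (σ s) ≤ 1 := by rw [he, Valuation.map_neg]; exact hv
  have h : res A (σ s) = res A s ^ l := by
    have := hσ.smul_residue_eq (IsLocalRing.residue A ⟨s, mem_of_map_le hv⟩)
    rw [← IsLocalRing.ResidueField.residue_smul] at this
    rw [res_eq (x := s) hv, res_eq (x := σ s) hv']
    exact this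
  rw [← frobenius_def, (FA.CM.EndoSquare.frobenius_sqrt hl2 hd0 hrs).1 hs'] at h
  have h2 : res A (σ s) + res A s = 0 := by
    rw [← res_add hv' hv, he, neg_add_cancel, res_zero]
  rw [h] at h2
  have h20 : (2 : Res A) ≠ 0 := fun e => hl2 ((Nat.prime_dvd_prime_iff_eq hl Nat.prime_two).mp
    ((CharP.cast_eq_zero_iff (Res A) l 2).mp (by exact_mod_cast e)))
  have h0 : res A s = 0 := (mul_eq_zero.mp (by linear_combination h2)).resolve_left h20
  rw [h0, zero_pow two_ne_zero, eq_comm, CharP.intCast_eq_zero_iff (Res A) l] at hrs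
  exact hd hrs

/-- **A sign character of Galois is the symbol of a squarefree number.** -/
theorem exists_sign_eq_jacobiSym (ε : GQ →* ℤˣ) (hε : IsOpen (ε.ker : Set GQ)) :
    ∃ d : ℤ, Squarefree d ∧ ∀ q : ℕ, q.Prime → q ≠ 2 → ¬ (q : ℤ) ∣ d →
      ∀ A : ValuationSubring Qb, A.LiesOverPrime q → ∀ σ : GQ, A.IsFrobeniusAt σ q →
        ((ε σ : ℤˣ) : ℤ) = jacobiSym d q := by
  by_cases h1 : ∀ σ, ε σ = 1
  · exact ⟨1, squarefree_one, fun q _ _ _ A _ σ _ => by rw [h1, jacobiSym.one_left]; rfl⟩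
  push Not at h1
  obtain ⟨τ, hτ⟩ := h1
  have hτ' : ε τ = -1 := (Int.units_eq_one_or _).resolve_left hτ
  have hH : ε.ker.index = 2 := by
    rw [Subgroup.index_eq_two_iff]
    refine ⟨τ, fun σ => ?_⟩
    rw [MonoidHom.mem_ker, MonoidHom.mem_ker, map_mul, hτ']
    rcases Int.units_eq_one_or (ε σ) with e | e <;> rw [e] <;> decide
  obtain ⟨y, c, hy0, hc0, hyc, hin, hout⟩ := FA.IndexTwo.exists_sq_eq_rat hH hε
  obtain ⟨d, t, hd, ht, rfl⟩ := FA.Twists.exists_squarefree_mul_sq hc0
  have ht' : (t : Qb) ≠ 0 := Rat.cast_ne_zero.mpr ht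
  have hs : (y / (t : Qb)) ^ 2 = (d : Qb) := by
    rw [div_pow, hyc, Rat.cast_mul, Rat.cast_pow, Rat.cast_intCast,
      mul_div_cancel_left₀ _ (pow_ne_zero 2 ht')]
  refine ⟨d, hd, fun q hq hq2 hqd A hA σ hσ => ?_⟩
  haveI := Fact.mk hq
  have hd0 : (d : ZMod q) ≠ 0 := fun e => hqd ((ZMod.intCast_zmod_eq_zero_iff_dvd _ _).mp e)
  have hfix : σ ∈ ε.ker → σ (y / (t : Qb)) = y / t := fun h => by
    rw [map_div₀, hin σ h, map_ratCast]
  have hneg : σ ∉ ε.ker → σ (y / (t : Qb)) = -(y / t) := fun h => by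
    rw [map_div₀, hout σ h, map_ratCast, neg_div]
  rw [← jacobiSym.legendreSym.to_jacobiSym]
  by_cases hsq : IsSquare (d : ZMod q)
  · have h := frobenius_apply_eq hq hq2 hqd hsq hA hσ hs
      ((em _).imp hfix hneg)
    have hker : σ ∈ ε.ker := by
      by_contra hc
      rw [hneg hc] at h
      exact FA.Two.neg_ne_self (div_ne_zero hy0 ht') h
    rw [MonoidHom.mem_ker.mp hker, (legendreSym.eq_one_iff q hd0).mpr hsq]
    rfl
  · have h := FA.SerreLarge.frobenius_apply_ne hq hsq hA hσ hs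
    have hker : σ ∉ ε.ker := fun hc => h (hfix hc)
    rw [(Int.units_eq_one_or (ε σ)).resolve_left hker, (legendreSym.eq_neg_one_iff q).mpr hsq]
    rfl

/-- **Equal squares of traces are those of a twist**, on models with full images at large primes. -/
theorem exists_twist_of_sq {E E' : WeierstrassCurve ℚ} {W W' : WeierstrassCurve ℤ}
    [(ratCurve W).IsElliptic] [(ratCurve W').IsElliptic]
    (hW : W.IsIntegralModelOf E) (hW' : W'.IsIntegralModelOf E')
    (hs : FA.OpenImageAll.SurjectiveLarge W) (hs' : FA.OpenImageAll.SurjectiveLarge W')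
    (h : {q : ℕ | q.Prime ∧ E'.LFunction q ^ 2 ≠ E.LFunction q ^ 2}.Finite) :
    ∃ d : ℤ, Squarefree d ∧ ∃ S : Finset ℕ, ∀ q : ℕ, q.Prime → q ∉ S →
      E'.LFunction q = (quadTwist E (d : ℚ)).LFunction q := by
  obtain ⟨S, hS⟩ := FA.Independence.exists_finset_sq hW hW' h
  obtain ⟨ε, hε, hεq⟩ := FA.Independence.exists_signChar hs hs' hS
  obtain ⟨d, hd, hdq⟩ := exists_sign_eq_jacobiSym ε hε
  refine ⟨d, hd, {2} ∪ d.natAbs.primeFactors ∪ (W.Δ * W'.Δ).natAbs.primeFactors,
    fun q hq hqS => ?_⟩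
  simp only [Finset.mem_union, Finset.mem_singleton, not_or] at hqS
  obtain ⟨⟨hq2, hqd⟩, hqΔ⟩ := hqS
  obtain ⟨g, g'⟩ := FA.Independence.good_of_not_mem hq hqΔ
  have hqd' : ¬ (q : ℤ) ∣ d := fun e => hqd (Nat.mem_primeFactors.mpr
    ⟨hq, Int.natCast_dvd.mp e, Int.natAbs_ne_zero.mpr hd.ne_zero⟩)
  haveI := Fact.mk hq
  obtain ⟨A, hA⟩ := FA.Deform.exists_liesOverPrime hq
  obtain ⟨σ, hσ⟩ := FA.Deform.exists_isFrobeniusAt hq hA
  rw [(LFunction_quadTwist hW hq2 hqd' g).2, FA.Root.LFunction_apply_prime E W hW hq g,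
    FA.Root.LFunction_apply_prime E' W' hW' hq g', hεq q hq g g' A hA σ hσ,
    hdq q hq hq2 hqd' A hA σ hσ]

end FA.TwistCurve

end
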